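import Fermat.Agent.Corollaries.LR.Karamata

/-!
# Karamata's Tauberian theorem with a slowly varying function

`b_n ≥ 0`, `S(δ) = ∑ b_n n ^ (-δ)`, `w(δ) S(k δ) → C k ^ (-τ)` for `k = 1, 2, 3, …`, `w > 0`. Then
`w(δ) ∑_{n ≤ e ^ (1 / δ)} b_n → C / Γ(τ + 1)`.
-/

set_option autoImplicit false

open MeasureTheory Set Filter Topology

namespace Fermat.Agent.Cor.LR

variable {b : ℕ → ℝ} {τ C : ℝ} {w : ℝ → ℝ}

/-- the hypotheses -/
structure KarW (b : ℕ → ℝ) (τ C : ℝ) (w : ℝ → ℝ) : Prop where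
  nonneg : ∀ n, 0 ≤ b n
  pos : 0 < τ
  wpos : ∀ δ : ℝ, 0 < δ → 0 < w δ
  summable : ∀ δ : ℝ, 0 < δ → Summable fun n : ℕ => b n * (n : ℝ) ^ (-δ)
  lim : ∀ k : ℕ, Tendsto (fun δ : ℝ => w δ * ∑' n : ℕ, b n * (n : ℝ) ^ (-(((k : ℝ) + 1) * δ)))
    (𝓝[>] 0) (𝓝 (((k : ℝ) + 1) ^ (-τ) * C))

/-- the functional for `δ > 0` -/
noncomputable def lamW (b : ℕ → ℝ) (w : ℝ → ℝ) (h : ℝ → ℝ) (δ : ℝ) : ℝ :=
  w δ * ∑' n : ℕ, b n * (n : ℝ) ^ (-δ) * h ((n : ℝ) ^ (-δ))

namespace KarW

variable (D : KarW b τ C w)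

include D in
theorem lim_zero : Tendsto (fun δ : ℝ => w δ * ∑' n : ℕ, b n * (n : ℝ) ^ (-δ)) (𝓝[>] 0) (𝓝 C) := by
  have := D.lim 0
  simpa only [Nat.cast_zero, zero_add, one_mul, Real.one_rpow] using this

include D in
theorem C_nonneg : 0 ≤ C := by
  refine ge_of_tendsto D.lim_zero ?_
  filter_upwards [self_mem_nhdsWithin] with δ hδ
  have hδ : 0 < δ := hδ
  refine mul_nonneg (D.wpos δ hδ).le (tsum_nonneg fun n => mul_nonneg (D.nonneg n) ?_)
  exact (rpow_mem hδ n).1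

include D in
theorem summable_mul {h : ℝ → ℝ} (hh : Continuous h) {δ : ℝ} (hδ : 0 < δ) :
    Summable fun n : ℕ => b n * (n : ℝ) ^ (-δ) * h ((n : ℝ) ^ (-δ)) := by
  obtain ⟨B, hB⟩ := exists_bound hh
  refine ((D.summable δ hδ).mul_right B).of_norm_bounded fun n => ?_
  have h1 := rpow_mem hδ n
  rw [norm_mul, Real.norm_of_nonneg (mul_nonneg (D.nonneg n) h1.1)]
  exact mul_le_mul_of_nonneg_left (hB _ h1) (mul_nonneg (D.nonneg n) h1.1)

include D in
/-- powers of `y` -/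
theorem tendsto_pow (k : ℕ) :
    Tendsto (lamW b w fun y => y ^ k) (𝓝[>] 0) (𝓝 (lamL τ C fun y => y ^ k)) := by
  have hτ := D.pos
  have hk : (0 : ℝ) < k + 1 := by positivity
  have h1 : lamL τ C (fun y => y ^ k) = ((k : ℝ) + 1) ^ (-τ) * C := by
    have h2 : ∫ t in Ioi (0 : ℝ), Real.exp (-t) * t ^ (τ - 1) * Real.exp (-t) ^ k =
        (1 / ((k : ℝ) + 1)) ^ τ * Real.Gamma τ := by
      rw [← Real.integral_rpow_mul_exp_neg_mul_Ioi hτ hk]
      congr 1
      ext t
      rw [← Real.exp_nat_mul, mul_comm (Real.exp (-t)), mul_assoc, ← Real.exp_add]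
      congr 2
      ring
    rw [lamL, h2, one_div, Real.inv_rpow hk.le, ← Real.rpow_neg hk.le]
    have := (Real.Gamma_pos_of_pos hτ).ne'
    field_simp
  rw [h1]
  refine (D.lim k).congr' ?_
  filter_upwards [self_mem_nhdsWithin] with δ hδ
  have hδ : 0 < δ := hδ
  rw [lamW]
  congr 2
  ext n
  rcases Nat.eq_zero_or_pos n with rfl | hn
  · rw [Nat.cast_zero, Real.zero_rpow (by nlinarith), Real.zero_rpow (by linarith)]
    ring
  · have hn' : (0 : ℝ) < n := by exact_mod_cast hn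
    rw [mul_assoc (b n), ← Real.rpow_natCast, ← Real.rpow_mul hn'.le, ← Real.rpow_add hn']
    congr 2
    ring

include D in
theorem tendsto_add {h₁ h₂ : ℝ → ℝ} (hc₁ : Continuous h₁) (hc₂ : Continuous h₂)
    (H₁ : Tendsto (lamW b w h₁) (𝓝[>] 0) (𝓝 (lamL τ C h₁)))
    (H₂ : Tendsto (lamW b w h₂) (𝓝[>] 0) (𝓝 (lamL τ C h₂))) :
    Tendsto (lamW b w fun y => h₁ y + h₂ y) (𝓝[>] 0) (𝓝 (lamL τ C fun y => h₁ y + h₂ y)) := by
  have h1 : lamL τ C (fun y => h₁ y + h₂ y) = lamL τ C h₁ + lamL τ C h₂ := by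
    rw [lamL, lamL, lamL, ← mul_add, ← integral_add (integrable_weight D.pos hc₁)
      (integrable_weight D.pos hc₂)]
    congr 2
    ext t
    ring
  rw [h1]
  refine (H₁.add H₂).congr' ?_
  filter_upwards [self_mem_nhdsWithin] with δ hδ
  have hδ : 0 < δ := hδ
  rw [lamW, lamW, lamW, ← mul_add, ← (D.summable_mul hc₁ hδ).tsum_add (D.summable_mul hc₂ hδ)]
  congr 2
  ext n
  ring

theorem tendsto_const_mul (c : ℝ) {h : ℝ → ℝ}
    (H : Tendsto (lamW b w h) (𝓝[>] 0) (𝓝 (lamL τ C h))) :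
    Tendsto (lamW b w fun y => c * h y) (𝓝[>] 0) (𝓝 (lamL τ C fun y => c * h y)) := by
  have h1 : lamL τ C (fun y => c * h y) = c * lamL τ C h := by
    rw [lamL, lamL, mul_left_comm, ← integral_const_mul c]
    congr 1
    exact setIntegral_congr_fun measurableSet_Ioi fun t _ => by ring
  rw [h1]
  refine (H.const_mul c).congr fun δ => ?_
  rw [lamW, lamW, mul_left_comm, ← tsum_mul_left]
  congr 2
  ext n
  ring

include D in
/-- polynomials -/
theorem tendsto_poly (p : Polynomial ℝ) :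
    Tendsto (lamW b w fun y => p.eval y) (𝓝[>] 0) (𝓝 (lamL τ C fun y => p.eval y)) := by
  induction p using Polynomial.induction_on' with
  | add p q hp hq =>
    have := D.tendsto_add p.continuous q.continuous hp hq
    simpa only [Polynomial.eval_add] using this
  | monomial k c =>
    have := tendsto_const_mul c (D.tendsto_pow k)
    simpa only [Polynomial.eval_monomial] using this

include D in
/-- continuous functions -/
theorem tendsto_of_continuous {h : ℝ → ℝ} (hh : Continuous h) :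
    Tendsto (lamW b w h) (𝓝[>] 0) (𝓝 (lamL τ C h)) := by
  have hτ := D.pos
  have hC := D.C_nonneg
  have hG := Real.Gamma_pos_of_pos hτ
  rw [Metric.tendsto_nhds]
  intro ε hε
  obtain ⟨p, hp⟩ := exists_polynomial_near_of_continuousOn 0 1 h hh.continuousOn
    (ε / (3 * (C + 1))) (by positivity)
  set η := ε / (3 * (C + 1)) with hη
  have hη0 : 0 < η := by positivity
  have hηC : η * (C + 1) = ε / 3 := by
    rw [hη]
    field_simp
  have h1 := (Metric.tendsto_nhds.mp (D.tendsto_poly p)) (ε / 3) (by positivity)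
  have h2 := D.lim_zero.eventually (Iio_mem_nhds (lt_add_one C))
  -- the limit functional
  have h3 : |lamL τ C (fun y => p.eval y) - lamL τ C h| ≤ η * C := by
    rw [lamL, lamL, ← mul_sub, ← integral_sub (integrable_weight hτ p.continuous)
      (integrable_weight hτ hh), abs_mul, abs_of_nonneg (by positivity)]
    have h4 : ‖∫ t in Ioi (0 : ℝ), (Real.exp (-t) * t ^ (τ - 1) * p.eval (Real.exp (-t)) -
        Real.exp (-t) * t ^ (τ - 1) * h (Real.exp (-t)))‖ ≤
        ∫ t in Ioi (0 : ℝ), Real.exp (-t) * t ^ (τ - 1) * η := by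
      refine norm_integral_le_of_norm_le ((Real.GammaIntegral_convergent hτ).mul_const η) ?_
      filter_upwards [ae_restrict_mem measurableSet_Ioi] with t ht
      have ht : 0 < t := ht
      rw [← mul_sub, norm_mul, Real.norm_of_nonneg (by positivity)]
      exact mul_le_mul_of_nonneg_left (hp _ (exp_mem ht)).le (by positivity)
    rw [integral_mul_const, integral_weight hτ, Real.norm_eq_abs] at h4
    calc C / Real.Gamma τ * _ ≤ C / Real.Gamma τ * (Real.Gamma τ * η) := by gcongr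
      _ = η * C := by
        field_simp
  filter_upwards [h1, h2, self_mem_nhdsWithin] with δ h1 h2 hδ
  have hδ : 0 < δ := hδ
  have h2 : w δ * ∑' n : ℕ, b n * (n : ℝ) ^ (-δ) < C + 1 := h2
  have hδτ : 0 < w δ := D.wpos δ hδ
  have h4 : |lamW b w h δ - lamW b w (fun y => p.eval y) δ| ≤ η * (C + 1) := by
    rw [lamW, lamW, ← mul_sub, ← (D.summable_mul hh hδ).tsum_sub (D.summable_mul p.continuous hδ),
      abs_mul, abs_of_pos hδτ]
    have h5 : ‖∑' n : ℕ, (b n * (n : ℝ) ^ (-δ) * h ((n : ℝ) ^ (-δ)) -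
        b n * (n : ℝ) ^ (-δ) * p.eval ((n : ℝ) ^ (-δ)))‖ ≤
        ∑' n : ℕ, b n * (n : ℝ) ^ (-δ) * η := by
      refine tsum_of_norm_bounded ((D.summable δ hδ).mul_right η).hasSum fun n => ?_
      have h6 := rpow_mem hδ n
      rw [← mul_sub, norm_mul, Real.norm_of_nonneg (mul_nonneg (D.nonneg n) h6.1),
        Real.norm_eq_abs, abs_sub_comm]
      exact mul_le_mul_of_nonneg_left (hp _ h6).le (mul_nonneg (D.nonneg n) h6.1)
    rw [tsum_mul_right, Real.norm_eq_abs] at h5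
    calc w δ * _ ≤ w δ * ((∑' n : ℕ, b n * (n : ℝ) ^ (-δ)) * η) := by gcongr
      _ = η * (w δ * ∑' n : ℕ, b n * (n : ℝ) ^ (-δ)) := by ring
      _ ≤ η * (C + 1) := by gcongr
  rw [Real.dist_eq] at h1 ⊢
  have h5 : |lamW b w h δ - lamL τ C h| ≤ |lamW b w h δ - lamW b w (fun y => p.eval y) δ| +
      |lamW b w (fun y => p.eval y) δ - lamL τ C (fun y => p.eval y)| +
      |lamL τ C (fun y => p.eval y) - lamL τ C h| := by
    have e : lamW b w h δ - lamL τ C h = (lamW b w h δ - lamW b w (fun y => p.eval y) δ) +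
      (lamW b w (fun y => p.eval y) δ - lamL τ C (fun y => p.eval y)) +
      (lamL τ C (fun y => p.eval y) - lamL τ C h) := by ring
    rw [e]
    exact abs_add_three _ _ _
  have h6 : η * C ≤ ε / 3 := by nlinarith
  linarith

end KarW

namespace KarW

variable (D : KarW b τ C w)

include D in
/-- the sum up to `e ^ (1 / δ)`, from above -/
theorem sum_le {η δ : ℝ} (hη : 0 < η) (hη1 : η ≤ 1) (hδ : 0 < δ) :
    w δ * ∑ n ∈ Finset.Icc 1 ⌊Real.exp (1 / δ)⌋₊, b n ≤ lamW b w (hcut (1 + η) η) δ := by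
  have hδτ : 0 < w δ := D.wpos δ hδ
  rw [lamW]
  refine mul_le_mul_of_nonneg_left ?_ hδτ.le
  have h1 : ∀ n : ℕ, 0 ≤ b n * (n : ℝ) ^ (-δ) * hcut (1 + η) η ((n : ℝ) ^ (-δ)) := by
    intro n
    rcases Nat.eq_zero_or_pos n with rfl | hn
    · rw [Nat.cast_zero, Real.zero_rpow (by linarith), mul_zero, zero_mul]
    · rw [KarDat.term_hcut hη (by linarith) hn]
      exact mul_nonneg (D.nonneg n) (cut_nonneg _ _ _)
  refine le_trans (le_of_eq ?_)
    ((D.summable_mul (continuous_hcut (1 + η) η) hδ).sum_le_tsum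
      (Finset.Icc 1 ⌊Real.exp (1 / δ)⌋₊) fun n _ => h1 n)
  refine Finset.sum_congr rfl fun n hn => ?_
  obtain ⟨hn1, hn2⟩ := Finset.mem_Icc.mp hn
  have hn0 : (0 : ℝ) < n := by exact_mod_cast hn1
  have h2 : Real.log n ≤ 1 / δ := by
    rw [Real.log_le_iff_le_exp hn0]
    exact (Nat.le_floor_iff (Real.exp_pos _).le).mp hn2
  have h3 : δ * Real.log n ≤ 1 := by
    calc δ * Real.log n ≤ δ * (1 / δ) := by gcongr
      _ = 1 := by field_simp
  rw [KarDat.term_hcut hη (by linarith) hn1, cut_of_le hη (by linarith), mul_one]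

include D in
/-- the sum up to `e ^ (1 / δ)`, from below -/
theorem le_sum {η δ : ℝ} (hη : 0 < η) (hδ : 0 < δ) :
    lamW b w (hcut 1 η) δ ≤ w δ * ∑ n ∈ Finset.Icc 1 ⌊Real.exp (1 / δ)⌋₊, b n := by
  have hδτ : 0 < w δ := D.wpos δ hδ
  rw [lamW]
  refine mul_le_mul_of_nonneg_left ?_ hδτ.le
  have h1 : ∀ n ∉ Finset.Icc 1 ⌊Real.exp (1 / δ)⌋₊,
      b n * (n : ℝ) ^ (-δ) * hcut 1 η ((n : ℝ) ^ (-δ)) = 0 := by
    intro n hn
    rcases Nat.eq_zero_or_pos n with rfl | hn0
    · rw [Nat.cast_zero, Real.zero_rpow (by linarith), mul_zero, zero_mul]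
    · have hn' : (0 : ℝ) < n := by exact_mod_cast hn0
      have h2 : ⌊Real.exp (1 / δ)⌋₊ < n := by
        by_contra h
        exact hn (Finset.mem_Icc.mpr ⟨hn0, not_lt.mp h⟩)
      have h3 : 1 / δ ≤ Real.log n := by
        rw [Real.le_log_iff_exp_le hn']
        exact ((Nat.floor_lt (Real.exp_pos _).le).mp h2).le
      have h4 : 1 ≤ δ * Real.log n := by
        calc 1 = δ * (1 / δ) := by field_simp
          _ ≤ δ * Real.log n := by gcongr
      rw [KarDat.term_hcut hη (by norm_num) hn0, cut_of_ge hη h4, mul_zero]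
  rw [tsum_eq_sum h1]
  refine Finset.sum_le_sum fun n hn => ?_
  rw [KarDat.term_hcut hη (by norm_num) (Finset.mem_Icc.mp hn).1]
  exact mul_le_of_le_one_right (D.nonneg n) (cut_le_one _ _ _)

include D in
theorem tendsto_exp : Tendsto (fun δ : ℝ => w δ *
    ∑ n ∈ Finset.Icc 1 ⌊Real.exp (1 / δ)⌋₊, b n) (𝓝[>] 0) (𝓝 (C / Real.Gamma (τ + 1))) := by
  have hτ := D.pos
  have hC := D.C_nonneg
  set c := C / Real.Gamma (τ + 1) with hc
  have hu : ContinuousAt (fun η : ℝ => c * (1 + η) ^ τ) 0 := by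
    refine ContinuousAt.mul continuousAt_const (ContinuousAt.rpow_const (by fun_prop) ?_)
    left
    norm_num
  have hl : ContinuousAt (fun η : ℝ => c * (1 - η) ^ τ) 0 := by
    refine ContinuousAt.mul continuousAt_const (ContinuousAt.rpow_const (by fun_prop) ?_)
    left
    norm_num
  have hu0 : Tendsto (fun η : ℝ => c * (1 + η) ^ τ) (𝓝[>] 0) (𝓝 c) := by
    have := hu.tendsto.mono_left (nhdsWithin_le_nhds (s := Ioi 0))
    simpa only [add_zero, Real.one_rpow, mul_one] using this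
  have hl0 : Tendsto (fun η : ℝ => c * (1 - η) ^ τ) (𝓝[>] 0) (𝓝 c) := by
    have := hl.tendsto.mono_left (nhdsWithin_le_nhds (s := Ioi 0))
    simpa only [sub_zero, Real.one_rpow, mul_one] using this
  refine tendsto_order.mpr ⟨fun a ha => ?_, fun a ha => ?_⟩
  · obtain ⟨η, h1, h2⟩ := ((hl0.eventually (Ioi_mem_nhds ha)).and
      (Ioc_mem_nhdsGT (zero_lt_one (α := ℝ)))).exists
    have h1 : a < c * (1 - η) ^ τ := h1
    have h3 := D.tendsto_of_continuous (continuous_hcut 1 η)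
    have h4 := le_lamL_hcut (C := C) hτ hC h2.1 (by linarith [h2.2] : 0 ≤ 1 - η) (by norm_num)
    filter_upwards [h3.eventually (Ioi_mem_nhds (lt_of_lt_of_le h1 h4)), self_mem_nhdsWithin]
      with δ h5 hδ
    exact lt_of_lt_of_le h5 (D.le_sum h2.1 hδ)
  · obtain ⟨η, h1, h2⟩ := ((hu0.eventually (Iio_mem_nhds ha)).and
      (Ioc_mem_nhdsGT (zero_lt_one (α := ℝ)))).exists
    have h1 : c * (1 + η) ^ τ < a := h1
    have h3 := D.tendsto_of_continuous (continuous_hcut (1 + η) η)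
    have h4 := lamL_hcut_le (C := C) (s := 1 + η) hτ hC h2.1 (by linarith [h2.1])
      (by linarith [h2.2])
    filter_upwards [h3.eventually (Iio_mem_nhds (lt_of_le_of_lt h4 h1)), self_mem_nhdsWithin]
      with δ h5 hδ
    exact lt_of_le_of_lt (D.sum_le h2.1 h2.2 hδ) h5

end KarW

end Fermat.Agent.Cor.LR
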