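import Fermat.Agent.Corollaries.LR.Theta
import Fermat.Agent.Corollaries.Diri.Four

/-!
# The theorem of Landau and Ramanujan

`#{n ≤ x : n = a² + b²} ~ K x / √(log x)`, `K = √(∏_{p ≡ 3 mod 4} (1 - p⁻²)⁻¹ / 2)`.
-/

set_option autoImplicit false

open Filter Topology

namespace Fermat.Agent.Cor.LR

open Mert

/-- a positive sum of two squares -/
def TS (n : ℕ) : Prop := n ≠ 0 ∧ ∃ a b : ℕ, n = a ^ 2 + b ^ 2

theorem ts_iff {n : ℕ} (hn : n ≠ 0) :
    TS n ↔ ∀ q : ℕ, q.Prime → q % 4 = 3 → Even (n.factorization q) := by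
  rw [TS, and_iff_right hn, Nat.eq_sq_add_sq_iff]
  constructor
  · intro h q hq h4
    rw [Nat.factorization_def n hq]
    by_cases hqn : q ∣ n
    · exact h q (Nat.mem_primeFactors.mpr ⟨hq, hqn, hn⟩) h4
    · rw [padicValNat.eq_zero_of_not_dvd hqn]
      exact Even.zero
  · intro h q hq h4
    have hq' := Nat.prime_of_mem_primeFactors hq
    rw [← Nat.factorization_def n hq']
    exact h q hq' h4

theorem ts_one : TS 1 := ⟨one_ne_zero, 1, 0, by norm_num⟩

theorem ts_mul {m n : ℕ} (h : m.Coprime n) : TS (m * n) ↔ TS m ∧ TS n := by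
  rcases Nat.eq_zero_or_pos m with rfl | hm
  · rw [zero_mul]
    exact ⟨fun h => absurd rfl h.1, fun h => absurd rfl h.1.1⟩
  rcases Nat.eq_zero_or_pos n with rfl | hn
  · rw [mul_zero]
    exact ⟨fun h => absurd rfl h.1, fun h => absurd rfl h.2.1⟩
  rw [ts_iff hm.ne', ts_iff hn.ne', ts_iff (Nat.mul_pos hm hn).ne']
  have key : ∀ q : ℕ, q.Prime → (Even ((m * n).factorization q) ↔
      Even (m.factorization q) ∧ Even (n.factorization q)) := by
    intro q hq
    rw [Nat.factorization_mul_apply_of_coprime h]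
    by_cases hqm : q ∣ m
    · have : ¬ q ∣ n := fun hqn => hq.one_lt.ne' (Nat.eq_one_of_dvd_coprimes h hqm hqn)
      rw [Nat.factorization_eq_zero_of_not_dvd this, add_zero]
      exact ⟨fun h => ⟨h, Even.zero⟩, fun h => h.1⟩
    · rw [Nat.factorization_eq_zero_of_not_dvd hqm, zero_add]
      exact ⟨fun h => ⟨Even.zero, h⟩, fun h => h.2⟩
  constructor
  · intro h1
    exact ⟨fun q hq h4 => ((key q hq).mp (h1 q hq h4)).1,
      fun q hq h4 => ((key q hq).mp (h1 q hq h4)).2⟩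
  · rintro ⟨h1, h2⟩ q hq h4
    exact (key q hq).mpr ⟨h1 q hq h4, h2 q hq h4⟩

theorem ts_prime_pow {p : ℕ} (hp : p.Prime) (e : ℕ) : TS (p ^ e) ↔ (p % 4 = 3 → Even e) := by
  rw [ts_iff (pow_ne_zero e hp.ne_zero)]
  constructor
  · intro h h4
    have := h p hp h4
    rwa [hp.factorization_pow, Finsupp.single_eq_same] at this
  · intro h q hq h4
    rw [hp.factorization_pow, Finsupp.single_apply]
    split_ifs with hpq
    · exact h (hpq ▸ h4)
    · exact Even.zero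

open Classical in
/-- the indicator function of the sums of two squares -/
noncomputable def ts (n : ℕ) : ℝ := if TS n then 1 else 0

theorem ts_nonneg (n : ℕ) : 0 ≤ ts n := by
  unfold ts
  split_ifs <;> norm_num

theorem ts_le_one (n : ℕ) : ts n ≤ 1 := by
  unfold ts
  split_ifs <;> norm_num

theorem ts_coprime {m n : ℕ} (h : m.Coprime n) : ts (m * n) = ts m * ts n := by
  unfold ts
  rw [ts_mul h]
  by_cases h1 : TS m <;> by_cases h2 : TS n <;> simp [h1, h2]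

theorem ts_zero : ts 0 = 0 := if_neg fun h => h.1 rfl

theorem ts_one_eq : ts 1 = 1 := if_pos ts_one

theorem ts_pow_of_ne {p : ℕ} (hp : p.Prime) (h4 : p % 4 ≠ 3) (e : ℕ) : ts (p ^ e) = 1 :=
  if_pos ((ts_prime_pow hp e).mpr fun h => absurd h h4)

theorem ts_pow_even {p : ℕ} (hp : p.Prime) (k : ℕ) : ts (p ^ (2 * k)) = 1 :=
  if_pos ((ts_prime_pow hp _).mpr fun _ => ⟨k, by ring⟩)

theorem ts_pow_odd {p : ℕ} (hp : p.Prime) (h4 : p % 4 = 3) (k : ℕ) : ts (p ^ (2 * k + 1)) = 0 :=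
  if_neg fun h => by
    have := (ts_prime_pow hp _).mp h h4
    exact (Nat.not_even_iff_odd.mpr ⟨k, rfl⟩) this

/-- the weight modulo `4` -/
noncomputable def w4 (a : ZMod 4) : ℝ := if a = 3 then 0 else 1

theorem natCast_eq_three {p : ℕ} : (p : ZMod 4) = 3 ↔ p % 4 = 3 := by
  have := ZMod.natCast_eq_natCast_iff p 3 4
  rw [Nat.cast_ofNat] at this
  rw [this]
  exact Iff.rfl

theorem meanU_w4 : meanU w4 = 1 / 2 := by
  have h0 : ¬ IsUnit (0 : ZMod 4) := by decide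
  have h1 : IsUnit (1 : ZMod 4) := by decide
  have h2 : ¬ IsUnit (2 : ZMod 4) := by decide
  have h3 : IsUnit (3 : ZMod 4) := by decide
  rw [meanU, Diri.sum_zmod_four, Set.indicator_of_notMem (show (0 : ZMod 4) ∉ {a | IsUnit a} from h0),
    Set.indicator_of_mem (show (1 : ZMod 4) ∈ {a | IsUnit a} from h1),
    Set.indicator_of_notMem (show (2 : ZMod 4) ∉ {a | IsUnit a} from h2),
    Set.indicator_of_mem (show (3 : ZMod 4) ∈ {a | IsUnit a} from h3), w4, w4,
    if_neg (by decide), if_pos rfl, show Nat.totient 4 = 2 by decide]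
  norm_num

theorem mulDat_ts : MulDat ts (1 / 2) where
  nonneg := ts_nonneg
  le_one := ts_le_one
  mul p m hp hm := ts_coprime ((Nat.Prime.coprime_iff_not_dvd hp).mpr hm)
  lim := by
    have := tendsto_theta_weight w4 ts fun p hp _ => by
      have h := ts_prime_pow hp 1
      rw [pow_one] at h
      rw [ts, w4]
      by_cases h4 : p % 4 = 3
      · rw [if_pos (natCast_eq_three.mpr h4), if_neg]
        rw [h]
        intro h5
        exact absurd (h5 h4) (by decide)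
      · rw [if_neg (fun h => h4 (natCast_eq_three.mp h)), if_pos (h.mpr fun h => absurd h h4)]
    rwa [meanU_w4] at this

/-! ### The Dirichlet series -/

/-- the Dirichlet series of the sums of two squares -/
noncomputable def dts (s : ℝ) : ℝ := ∑' n : ℕ, ts n * (n : ℝ) ^ (-s)

theorem rpow_le_half {p : ℕ} (hp : p.Prime) {s : ℝ} (hs : 1 ≤ s) : (p : ℝ) ^ (-s) ≤ 1 / 2 := by
  have h2 : (2 : ℝ) ≤ p := by exact_mod_cast hp.two_le
  calc (p : ℝ) ^ (-s) ≤ (p : ℝ) ^ (-1 : ℝ) :=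
        Real.rpow_le_rpow_of_exponent_le (by linarith) (by linarith)
    _ = (p : ℝ)⁻¹ := Real.rpow_neg_one _
    _ ≤ 1 / 2 := by
      rw [one_div]
      exact inv_anti₀ (by norm_num) h2

theorem summable_dts {s : ℝ} (hs : 1 < s) : Summable fun n : ℕ => ts n * (n : ℝ) ^ (-s) := by
  refine Summable.of_nonneg_of_le (fun n => ?_) (fun n => ?_)
    (Real.summable_nat_rpow.mpr (show -s < -1 by linarith))
  · have := ts_nonneg n
    positivity
  · exact mul_le_of_le_one_left (by positivity) (ts_le_one n)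

/-- the Euler factor -/
noncomputable def eul (p : ℕ) (s : ℝ) : ℝ :=
  if p % 4 = 3 then (1 - ((p : ℝ) ^ (-s)) ^ 2)⁻¹ else (1 - (p : ℝ) ^ (-s))⁻¹

theorem tsum_ts_pow {s : ℝ} (hs : 1 < s) (p : Nat.Primes) :
    ∑' e : ℕ, ts ((p : ℕ) ^ e) * (((p : ℕ) ^ e : ℕ) : ℝ) ^ (-s) = eul p s := by
  have hp := p.2
  have hz0 : 0 ≤ ((p : ℕ) : ℝ) ^ (-s) := by positivity
  have hz1 : ((p : ℕ) : ℝ) ^ (-s) < 1 := by linarith [rpow_le_half hp hs.le]
  have hpow : ∀ e : ℕ, (((p : ℕ) ^ e : ℕ) : ℝ) ^ (-s) = (((p : ℕ) : ℝ) ^ (-s)) ^ e := by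
    intro e
    rw [Nat.cast_pow, ← Real.rpow_natCast, ← Real.rpow_natCast, ← Real.rpow_mul (by positivity),
      ← Real.rpow_mul (by positivity), mul_comm]
  simp only [hpow]
  rw [eul]
  split_ifs with h4
  · have h2 : HasSum (fun k : ℕ => ts ((p : ℕ) ^ (2 * k)) * (((p : ℕ) : ℝ) ^ (-s)) ^ (2 * k))
        (1 - (((p : ℕ) : ℝ) ^ (-s)) ^ 2)⁻¹ := by
      have : (fun k : ℕ => ts ((p : ℕ) ^ (2 * k)) * (((p : ℕ) : ℝ) ^ (-s)) ^ (2 * k)) =
          fun k : ℕ => ((((p : ℕ) : ℝ) ^ (-s)) ^ 2) ^ k := by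
        funext k
        rw [ts_pow_even hp, one_mul, pow_mul]
      rw [this]
      exact hasSum_geometric_of_lt_one (sq_nonneg _) (by nlinarith)
    have h3 : HasSum (fun k : ℕ => ts ((p : ℕ) ^ (2 * k + 1)) *
        (((p : ℕ) : ℝ) ^ (-s)) ^ (2 * k + 1)) 0 := by
      have : (fun k : ℕ => ts ((p : ℕ) ^ (2 * k + 1)) *
        (((p : ℕ) : ℝ) ^ (-s)) ^ (2 * k + 1)) = fun _ => 0 := by
        funext k
        rw [ts_pow_odd hp h4, zero_mul]
      rw [this]
      exact hasSum_zero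
    have h5 := (h2.even_add_odd (f := fun e : ℕ => ts ((p : ℕ) ^ e) *
      (((p : ℕ) : ℝ) ^ (-s)) ^ e) h3).tsum_eq
    rw [h5, add_zero]
  · simp only [ts_pow_of_ne hp h4, one_mul]
    rw [tsum_geometric_of_lt_one hz0 hz1]

theorem hasProd_dts {s : ℝ} (hs : 1 < s) :
    HasProd (fun p : Nat.Primes => eul p s) (dts s) := by
  have h1 := EulerProduct.eulerProduct_hasProd (f := fun n : ℕ => ts n * (n : ℝ) ^ (-s))
    (by simp [ts_one_eq]) (fun {m n} h => by
      rw [ts_coprime h, Nat.cast_mul, Real.mul_rpow (Nat.cast_nonneg m) (Nat.cast_nonneg n)]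
      ring) (summable_dts hs).norm (by simp [ts_zero])
  simp only [tsum_ts_pow hs] at h1
  exact h1

/-! ### The product over the primes `p ≡ 3 mod 4` -/

/-- the logarithm of the local factor -/
noncomputable def lg3 (s : ℝ) (p : Nat.Primes) : ℝ :=
  if (p : ℕ) % 4 = 3 then -Real.log (1 - (((p : ℕ) : ℝ) ^ (-s)) ^ 2) else 0

theorem sq_le_inv {p : ℕ} (hp : p.Prime) {s : ℝ} (hs : 1 ≤ s) :
    ((p : ℝ) ^ (-s)) ^ 2 ≤ (p : ℝ) ^ (-2 : ℝ) := by
  have h2 : (1 : ℝ) ≤ p := by exact_mod_cast hp.one_le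
  rw [← Real.rpow_natCast, ← Real.rpow_mul (by positivity)]
  refine Real.rpow_le_rpow_of_exponent_le h2 ?_
  push_cast
  linarith

theorem abs_lg3_le {s : ℝ} (hs : 1 ≤ s) (p : Nat.Primes) :
    ‖lg3 s p‖ ≤ 2 * ((p : ℕ) : ℝ) ^ (-2 : ℝ) := by
  unfold lg3
  split_ifs
  · have h1 := sq_le_inv p.2 hs
    have h0 := sq_nonneg (((p : ℕ) : ℝ) ^ (-s))
    have h2 : (((p : ℕ) : ℝ) ^ (-s)) ^ 2 ≤ 1 / 2 := by
      have := rpow_le_half p.2 hs
      have h3 : 0 ≤ ((p : ℕ) : ℝ) ^ (-s) := by positivity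
      nlinarith
    set z := (((p : ℕ) : ℝ) ^ (-s)) ^ 2
    have h4 : Real.log (1 - z) ≤ 0 := Real.log_nonpos (by linarith) (by linarith)
    rw [norm_neg, Real.norm_of_nonpos h4, ← Real.log_inv]
    refine (Real.log_le_sub_one_of_pos (by rw [inv_pos]; linarith)).trans ?_
    have h5 : (1 - z)⁻¹ - 1 = z / (1 - z) := by
      have : 1 - z ≠ 0 := by linarith
      field_simp
      ring
    rw [h5, div_le_iff₀ (by linarith)]
    nlinarith
  · rw [norm_zero]
    positivity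

theorem summable_bound : Summable fun p : Nat.Primes => 2 * ((p : ℕ) : ℝ) ^ (-2 : ℝ) :=
  (isCount_primes.summable_rpow (σ := 2) (by norm_num)).mul_left 2

theorem summable_lg3 {s : ℝ} (hs : 1 ≤ s) : Summable (lg3 s) :=
  Summable.of_norm_bounded summable_bound (abs_lg3_le hs)

theorem tendsto_lg3 : Tendsto (fun δ : ℝ => ∑' p, lg3 (1 + δ) p) (𝓝[>] 0) (𝓝 (∑' p, lg3 1 p)) := by
  refine tendsto_tsum_of_dominated_convergence summable_bound (fun p => ?_) ?_
  · have h1 : ContinuousAt (fun δ : ℝ => lg3 (1 + δ) p) 0 := by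
      unfold lg3
      split_ifs
      · have hp0 : (0 : ℝ) < ((p : ℕ) : ℝ) := by exact_mod_cast p.2.pos
        have h2 : ContinuousAt (fun δ : ℝ => 1 - (((p : ℕ) : ℝ) ^ (-(1 + δ))) ^ 2) 0 := by
          refine continuousAt_const.sub (ContinuousAt.pow ?_ 2)
          exact (Real.continuousAt_const_rpow hp0.ne').comp (f := fun δ : ℝ => -(1 + δ))
            (by fun_prop)
        refine (h2.log ?_).neg
        have := rpow_le_half p.2 (le_refl (1 : ℝ))
        have h3 : 0 ≤ ((p : ℕ) : ℝ) ^ (-(1 : ℝ)) := by positivity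
        rw [add_zero]
        nlinarith
      · exact continuousAt_const
    have h2 := h1.tendsto
    simp only [add_zero] at h2
    exact h2.mono_left nhdsWithin_le_nhds
  · filter_upwards [self_mem_nhdsWithin] with δ hδ p
    exact abs_lg3_le (by linarith [Set.mem_Ioi.mp hδ]) p

/-- the local factor -/
noncomputable def g3 (s : ℝ) (p : ℕ) : ℝ :=
  if p % 4 = 3 then (1 - ((p : ℝ) ^ (-s)) ^ 2)⁻¹ else 1

theorem hasProd_g3 {s : ℝ} (hs : 1 ≤ s) :
    HasProd (fun p : Nat.Primes => g3 s p) (Real.exp (∑' p, lg3 s p)) := by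
  convert (summable_lg3 hs).hasSum.rexp using 2 with p
  rw [Function.comp_apply, g3, lg3]
  split_ifs
  · rw [Real.exp_neg, Real.exp_log]
    have := rpow_le_half p.2 hs
    have h3 : 0 ≤ ((p : ℕ) : ℝ) ^ (-s) := by positivity
    nlinarith
  · rw [Real.exp_zero]

/-! ### The square of the Dirichlet series -/

theorem chi4_natCast_of_one {p : ℕ} (h : p % 4 = 1) : Diri.chi4 (p : ZMod 4) = 1 := by
  have : (p : ZMod 4) = 1 := by
    have := (ZMod.natCast_eq_natCast_iff p 1 4).mpr h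
    rwa [Nat.cast_one] at this
  rw [this, Diri.chi4_one]

theorem chi4_natCast_of_three {p : ℕ} (h : p % 4 = 3) : Diri.chi4 (p : ZMod 4) = -1 := by
  rw [natCast_eq_three.mpr h, Diri.chi4_three]

theorem chi4_two' : Diri.chi4 ((2 : ℕ) : ZMod 4) = 0 := by
  rw [Nat.cast_ofNat, Diri.chi4_two]

/-- the local factor at `2` -/
noncomputable def t2 (s : ℝ) : ℝ := (1 - (2 : ℝ) ^ (-s))⁻¹

/-- the prime `2` -/
def prime2 : Nat.Primes := ⟨2, Nat.prime_two⟩

open Classical in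
theorem local_eq {s : ℝ} (hs : 1 < s) (p : Nat.Primes) :
    (1 - ((p : ℕ) : ℂ) ^ (-(s : ℂ)))⁻¹ *
      (1 - Diri.chi4 ((p : ℕ) : ZMod 4) * ((p : ℕ) : ℂ) ^ (-(s : ℂ)))⁻¹ *
      ((if p = prime2 then ((t2 s : ℝ) : ℂ) else 1) *
        ((g3 s p : ℝ) : ℂ)) = ((eul p s : ℝ) : ℂ) * ((eul p s : ℝ) : ℂ) := by
  have hz : ((p : ℕ) : ℂ) ^ (-(s : ℂ)) = ((((p : ℕ) : ℝ) ^ (-s) : ℝ) : ℂ) := by
    rw [Complex.ofReal_cpow (Nat.cast_nonneg _), Complex.ofReal_neg, Complex.ofReal_natCast]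
  rw [hz]
  have hz0 : 0 ≤ ((p : ℕ) : ℝ) ^ (-s) := by positivity
  have hz1 : ((p : ℕ) : ℝ) ^ (-s) < 1 := by linarith [rpow_le_half p.2 hs.le]
  rcases p.2.eq_two_or_odd with h2 | hodd
  · have hp2 : p = prime2 := Subtype.ext h2
    rw [if_pos hp2, h2, g3, eul, if_neg (by decide), if_neg (by decide)]
    simp only [chi4_two', zero_mul, sub_zero, inv_one, mul_one, t2, Complex.ofReal_one]
    push_cast
    ring
  · have hne : p ≠ prime2 := by
      intro h
      rw [h] at hodd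
      exact absurd hodd (by decide)
    rw [if_neg hne, one_mul, g3, eul]
    set z := ((p : ℕ) : ℝ) ^ (-s)
    have h1z : (1 - z : ℝ) ≠ 0 := by linarith
    have h1z' : (1 + z : ℝ) ≠ 0 := by linarith
    have h4 : (p : ℕ) % 4 = 1 ∨ (p : ℕ) % 4 = 3 := by omega
    rcases h4 with h4 | h4
    · rw [chi4_natCast_of_one h4, if_neg (by omega), if_neg (by omega)]
      push_cast
      ring
    · rw [chi4_natCast_of_three h4, if_pos h4, if_pos h4]
      have e1 : (1 - z ^ 2)⁻¹ = (1 - z)⁻¹ * (1 + z)⁻¹ := by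
        rw [← mul_inv]
        congr 1
        ring
      rw [e1, neg_one_mul, sub_neg_eq_add]
      push_cast
      ring

theorem dts_sq {s : ℝ} (hs : 1 < s) :
    ((dts s ^ 2 : ℝ) : ℂ) = riemannZeta s * DirichletCharacter.LFunction Diri.chi4 s *
      (t2 s * Real.exp (∑' p, lg3 s p) : ℝ) := by
  classical
  have hs' : 1 < (s : ℂ).re := by rwa [Complex.ofReal_re]
  have h1 : HasProd (fun p : Nat.Primes => ((eul p s : ℝ) : ℂ)) ((dts s : ℝ) : ℂ) :=
    (hasProd_dts hs).map Complex.ofRealHom Complex.continuous_ofReal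
  have h2 := h1.mul h1
  have h3 := riemannZeta_eulerProduct_hasProd hs'
  have h4 := DirichletCharacter.LSeries_eulerProduct_hasProd Diri.chi4 hs'
  rw [← DirichletCharacter.LFunction_eq_LSeries _ hs'] at h4
  have h5 : HasProd (fun p : Nat.Primes => ((g3 s p : ℝ) : ℂ))
      ((Real.exp (∑' p, lg3 s p) : ℝ) : ℂ) :=
    (hasProd_g3 hs.le).map Complex.ofRealHom Complex.continuous_ofReal
  have h6 := hasProd_ite_eq prime2 ((t2 s : ℝ) : ℂ)
  have h7 := (h3.mul h4).mul (h6.mul h5)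
  have h8 : ∀ {u v : Nat.Primes → ℂ} {a : ℂ}, u = v → HasProd u a → HasProd v a :=
    fun h h' => h ▸ h'
  rw [Complex.ofReal_pow, sq, Complex.ofReal_mul]
  exact h2.unique (h8 (funext (local_eq hs)) h7)

theorem chi4_ne_one : Diri.chi4 ≠ 1 := by
  intro h
  have h1 := Diri.chi4_three
  rw [h, MulChar.one_apply (by decide : IsUnit (3 : ZMod 4))] at h1
  norm_num at h1

theorem tendsto_dts_sq : Tendsto (fun δ : ℝ => δ * dts (1 + δ) ^ 2) (𝓝[>] 0)
    (𝓝 (Real.pi / 2 * Real.exp (∑' p, lg3 1 p))) := by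
  have hadd : Tendsto (fun δ : ℝ => ((1 + δ : ℝ) : ℂ)) (𝓝[>] 0) (𝓝[≠] 1) := by
    refine tendsto_nhdsWithin_iff.mpr ⟨?_, ?_⟩
    · have : ContinuousAt (fun δ : ℝ => ((1 + δ : ℝ) : ℂ)) 0 := by fun_prop
      have h := this.tendsto
      simp only [add_zero, Complex.ofReal_one] at h
      exact h.mono_left nhdsWithin_le_nhds
    · filter_upwards [self_mem_nhdsWithin] with δ hδ
      have hδ : 0 < δ := hδ
      rw [Set.mem_compl_iff, Set.mem_singleton_iff]
      intro h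
      have : (1 + δ : ℝ) = 1 := by exact_mod_cast h
      linarith
  have h1 := riemannZeta_residue_one.comp hadd
  have h2 : Tendsto (fun δ : ℝ => DirichletCharacter.LFunction Diri.chi4 ((1 + δ : ℝ) : ℂ)) (𝓝[>] 0)
      (𝓝 (Real.pi / 4)) := by
    have h := ((DirichletCharacter.differentiable_LFunction chi4_ne_one).continuous.tendsto 1).comp
      (hadd.mono_right nhdsWithin_le_nhds)
    rwa [Diri.LFunction_chi4_one] at h
  have h3 : Tendsto (fun δ : ℝ => ((t2 (1 + δ) * Real.exp (∑' p, lg3 (1 + δ) p) : ℝ) : ℂ)) (𝓝[>] 0)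
      (𝓝 ((2 * Real.exp (∑' p, lg3 1 p) : ℝ) : ℂ)) := by
    refine (Complex.continuous_ofReal.tendsto _).comp (Tendsto.mul ?_
      ((Real.continuous_exp.tendsto _).comp tendsto_lg3))
    have h : ContinuousAt (fun δ : ℝ => t2 (1 + δ)) 0 := by
      unfold t2
      refine ContinuousAt.inv₀ (continuousAt_const.sub
        ((Real.continuousAt_const_rpow (by norm_num)).comp (f := fun δ : ℝ => -(1 + δ))
            (by fun_prop))) ?_
      rw [add_zero, Real.rpow_neg_one]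
      norm_num
    have h' := h.tendsto.mono_left (nhdsWithin_le_nhds (s := Set.Ioi 0))
    have e : t2 (1 + 0) = 2 := by
      rw [t2, add_zero, Real.rpow_neg_one]
      norm_num
    rwa [e] at h'
  have h4 := (h1.mul h2).mul h3
  have h5 := (Complex.continuous_re.tendsto _).comp h4
  have e : ((1 : ℂ) * (Real.pi / 4) * ((2 * Real.exp (∑' p, lg3 1 p) : ℝ) : ℂ)).re =
      Real.pi / 2 * Real.exp (∑' p, lg3 1 p) := by
    have : (1 : ℂ) * (Real.pi / 4) * ((2 * Real.exp (∑' p, lg3 1 p) : ℝ) : ℂ) =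
      ((Real.pi / 2 * Real.exp (∑' p, lg3 1 p) : ℝ) : ℂ) := by
      push_cast
      ring
    rw [this, Complex.ofReal_re]
  rw [e] at h5
  refine h5.congr' ?_
  filter_upwards [self_mem_nhdsWithin] with δ hδ
  have hδ : 0 < δ := hδ
  have h6 := dts_sq (s := 1 + δ) (by linarith)
  simp only [Function.comp_apply]
  rw [show (((1 + δ : ℝ) : ℂ) - 1) * riemannZeta ((1 + δ : ℝ) : ℂ) *
    DirichletCharacter.LFunction Diri.chi4 ((1 + δ : ℝ) : ℂ) *
      ((t2 (1 + δ) * Real.exp (∑' p, lg3 (1 + δ) p) : ℝ) : ℂ) =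
      (((1 + δ : ℝ) : ℂ) - 1) * (riemannZeta ((1 + δ : ℝ) : ℂ) *
    DirichletCharacter.LFunction Diri.chi4 ((1 + δ : ℝ) : ℂ) *
      ((t2 (1 + δ) * Real.exp (∑' p, lg3 (1 + δ) p) : ℝ) : ℂ)) by ring, ← h6]
  rw [show (((1 + δ : ℝ) : ℂ) - 1) * ((dts (1 + δ) ^ 2 : ℝ) : ℂ) =
    ((δ * dts (1 + δ) ^ 2 : ℝ) : ℂ) by push_cast; ring, Complex.ofReal_re]

theorem dts_nonneg (s : ℝ) : 0 ≤ dts s :=
  tsum_nonneg fun n => mul_nonneg (ts_nonneg n) (by positivity)

theorem tendsto_dts : Tendsto (fun δ : ℝ => δ ^ (1 / 2 : ℝ) * ∑' n : ℕ, ts n / n * (n : ℝ) ^ (-δ))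
    (𝓝[>] 0) (𝓝 (Real.sqrt (Real.pi / 2 * Real.exp (∑' p, lg3 1 p)))) := by
  refine ((Real.continuous_sqrt.tendsto _).comp tendsto_dts_sq).congr' ?_
  filter_upwards [self_mem_nhdsWithin] with δ hδ
  have hδ : 0 < δ := hδ
  rw [Function.comp_apply, Real.sqrt_mul hδ.le, Real.sqrt_sq (dts_nonneg _), Real.sqrt_eq_rpow]
  congr 1
  rw [dts]
  refine tsum_congr fun n => ?_
  rcases Nat.eq_zero_or_pos n with rfl | hn
  · rw [ts_zero]
    simp
  · have hn0 : (0 : ℝ) < n := by exact_mod_cast hn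
    rw [neg_add, Real.rpow_add hn0, Real.rpow_neg_one]
    ring

/-! ### The theorem -/

/-- **The constant of Landau and Ramanujan**, `√(∏_{p ≡ 3 mod 4} (1 - p⁻²)⁻¹ / 2)` -/
noncomputable def landauRamanujan : ℝ :=
  Real.sqrt ((∏' p : {p : ℕ // p.Prime ∧ p % 4 = 3}, (1 - ((p : ℕ) : ℝ)⁻¹ ^ 2)⁻¹) / 2)

theorem exp_tsum_lg3 : Real.exp (∑' p, lg3 1 p) =
    ∏' p : {p : ℕ // p.Prime ∧ p % 4 = 3}, (1 - ((p : ℕ) : ℝ)⁻¹ ^ 2)⁻¹ := by
  have h1 := hasProd_g3 (le_refl (1 : ℝ))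
  let ι : {p : ℕ // p.Prime ∧ p % 4 = 3} → Nat.Primes := fun p => ⟨p.1, p.2.1⟩
  have hι : Function.Injective ι := fun a b h => Subtype.ext (congrArg (fun x : Nat.Primes => (x : ℕ)) h)
  have h2 := (hι.hasProd_iff (f := fun p : Nat.Primes => g3 1 p) (fun x hx => by
    rw [g3, if_neg]
    intro h4
    exact hx ⟨⟨x.1, x.2, h4⟩, rfl⟩)).mpr h1
  rw [← h2.tprod_eq]
  refine tprod_congr fun p => ?_
  rw [Function.comp_apply, g3, if_pos p.2.2, Real.rpow_neg_one]

theorem sM_ts (X : ℕ) : sM ts X =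
    Nat.card {n : ℕ // n ∈ Finset.Icc 1 X ∧ ∃ a b : ℕ, n = a ^ 2 + b ^ 2} := by
  classical
  have h1 : sM ts X = (((Finset.Ioc 0 X).filter TS).card : ℝ) := by
    rw [sM]
    unfold ts
    rw [Finset.sum_boole]
  rw [h1, ← Nat.card_eq_finsetCard]
  congr 1
  refine Nat.card_congr (Equiv.subtypeEquivRight fun n => ?_)
  rw [Finset.mem_filter, Finset.mem_Ioc, Finset.mem_Icc, TS]
  constructor
  · rintro ⟨⟨h2, h3⟩, _, h4⟩
    exact ⟨⟨h2, h3⟩, h4⟩
  · rintro ⟨⟨h2, h3⟩, h4⟩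
    exact ⟨⟨h2, h3⟩, by omega, h4⟩

/-- **The theorem of Landau and Ramanujan**: the number of the `n`, `1 ≤ n ≤ x`, which are sums of
two squares, is `~ K x / √(log x)`. -/
theorem landau_ramanujan : Tendsto (fun x : ℝ =>
    (Nat.card {n : ℕ // n ∈ Finset.Icc 1 ⌊x⌋₊ ∧ ∃ a b : ℕ, n = a ^ 2 + b ^ 2} : ℝ) *
      Real.sqrt (Real.log x) / x) atTop (𝓝 landauRamanujan) := by
  have hpos : 0 < Real.sqrt (Real.pi / 2 * Real.exp (∑' p, lg3 1 p)) := by
    have := Real.pi_pos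
    positivity
  have h1 := tendsto_real_of_nat (mulDat_ts.tendsto_mean (by norm_num) hpos tendsto_dts)
  have e1 : Real.sqrt (Real.pi / 2 * Real.exp (∑' p, lg3 1 p)) / Real.Gamma (1 / 2) =
      landauRamanujan := by
    rw [Real.Gamma_one_half_eq, ← Real.sqrt_div' _ Real.pi_pos.le, landauRamanujan, exp_tsum_lg3]
    congr 1
    have := Real.pi_pos.ne'
    field_simp
  rw [e1] at h1
  refine h1.congr' ?_
  filter_upwards [eventually_gt_atTop 1] with x hx
  have hl := Real.log_pos hx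
  rw [sM_ts, show (1 / 2 - 1 : ℝ) = -(1 / 2) by norm_num, Real.rpow_neg hl.le,
    ← Real.sqrt_eq_rpow]
  have := (Real.sqrt_pos.mpr hl).ne'
  field_simp

end Fermat.Agent.Cor.LR
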