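import Fermat.Agent.Corollaries.LR.PrimeSum
import Fermat.Agent.Corollaries.LR.TwoSq
import Fermat.Agent.Corollaries.LR.KarSlow

/-!
# Wirsing's theorem

`f` multiplicative, `0 ≤ f ≤ 1`, `∑_{p ≤ x} f(p) log p ~ τ x`, `τ > 0`. Then
`∑_{n ≤ x} f(n) ~ (e ^ (-γ τ) / Γ(τ)) (x / log x) ∏_{p ≤ x} (1 + f(p) / p + f(p²) / p² + …)`.
-/

set_option autoImplicit false

open Filter Topology

namespace Fermat.Agent.Cor.LR

open Mert

/-- the hypotheses -/
structure MulF (f : ℕ → ℝ) (τ : ℝ) : Prop extends PrDat f τ where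
  pos : 0 < τ
  map_one : f 1 = 1
  map_mul : ∀ m n : ℕ, m.Coprime n → f (m * n) = f m * f n

/-- the Euler factor -/
noncomputable def ef (f : ℕ → ℝ) (p : ℕ) (z : ℝ) : ℝ := ∑' e : ℕ, f (p ^ e) * z ^ e

/-- `p ^ (-1 - δ)` -/
noncomputable def zz (δ : ℝ) (p : ℕ) : ℝ := (p : ℝ) ^ (-(1 + δ))

theorem zz_nonneg (δ : ℝ) (p : ℕ) : 0 ≤ zz δ p := by
  unfold zz
  positivity

theorem zz_le_half {δ : ℝ} (hδ : 0 ≤ δ) (p : Nat.Primes) : zz δ p ≤ 1 / 2 := by
  exact rpow_le_half p.2 (by linarith)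

theorem zz_sq_le {δ : ℝ} (hδ : 0 ≤ δ) (p : Nat.Primes) : zz δ p ^ 2 ≤ ((p : ℕ) : ℝ) ^ (-2 : ℝ) :=
  sq_le_inv p.2 (by linarith)

theorem zz_zero (p : ℕ) : zz 0 p = (p : ℝ)⁻¹ := by
  rw [zz, add_zero, Real.rpow_neg_one]

variable {f : ℕ → ℝ} {τ : ℝ}

namespace MulF

variable (D : MulF f τ)

include D in
theorem norm_term_le (p e : ℕ) {z : ℝ} (hz0 : 0 ≤ z) (hz : z ≤ 1 / 2) :
    ‖f (p ^ e) * z ^ e‖ ≤ (1 / 2) ^ e := by
  rw [norm_mul, Real.norm_of_nonneg (D.nonneg _), Real.norm_of_nonneg (pow_nonneg hz0 e)]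
  calc f (p ^ e) * z ^ e ≤ 1 * z ^ e := mul_le_mul_of_nonneg_right (D.le_one _) (by positivity)
    _ = z ^ e := one_mul _
    _ ≤ (1 / 2) ^ e := by gcongr

theorem summable_half : Summable fun e : ℕ => (1 / 2 : ℝ) ^ e :=
  summable_geometric_of_lt_one (by norm_num) (by norm_num)

include D in
theorem summable_ef (p : ℕ) {z : ℝ} (hz0 : 0 ≤ z) (hz : z ≤ 1 / 2) :
    Summable fun e : ℕ => f (p ^ e) * z ^ e :=
  Summable.of_norm_bounded summable_half fun e => D.norm_term_le p e hz0 hz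

include D in
theorem ef_bounds (p : ℕ) {z : ℝ} (hz0 : 0 ≤ z) (hz : z ≤ 1 / 2) :
    1 + f p * z ≤ ef f p z ∧ ef f p z ≤ 1 + f p * z + 2 * z ^ 2 := by
  have hs := D.summable_ef p hz0 hz
  have h1 := hs.sum_add_tsum_nat_add 2
  rw [Finset.sum_range_succ, Finset.sum_range_one, pow_zero, pow_zero, mul_one, D.map_one,
    pow_one, pow_one] at h1
  have h2 : 0 ≤ ∑' e : ℕ, f (p ^ (e + 2)) * z ^ (e + 2) :=
    tsum_nonneg fun e => mul_nonneg (D.nonneg _) (by positivity)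
  have h3 : ∑' e : ℕ, f (p ^ (e + 2)) * z ^ (e + 2) ≤ 2 * z ^ 2 := by
    have h4 : Summable fun e : ℕ => z ^ 2 * (1 / 2 : ℝ) ^ e := summable_half.mul_left _
    have h5 : ∀ e : ℕ, f (p ^ (e + 2)) * z ^ (e + 2) ≤ z ^ 2 * (1 / 2 : ℝ) ^ e := by
      intro e
      calc f (p ^ (e + 2)) * z ^ (e + 2) ≤ 1 * z ^ (e + 2) :=
            mul_le_mul_of_nonneg_right (D.le_one _) (by positivity)
        _ = z ^ 2 * z ^ e := by ring
        _ ≤ z ^ 2 * (1 / 2 : ℝ) ^ e := by gcongr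
    calc ∑' e : ℕ, f (p ^ (e + 2)) * z ^ (e + 2) ≤ ∑' e : ℕ, z ^ 2 * (1 / 2 : ℝ) ^ e :=
          ((summable_nat_add_iff 2).mpr hs).tsum_le_tsum h5 h4
      _ = 2 * z ^ 2 := by
        rw [tsum_mul_left, tsum_geometric_of_lt_one (by norm_num) (by norm_num)]
        norm_num
        ring
  rw [ef, ← h1]
  constructor <;> linarith

include D in
theorem one_le_ef (p : ℕ) {z : ℝ} (hz0 : 0 ≤ z) (hz : z ≤ 1 / 2) : 1 ≤ ef f p z := by
  have h1 := (D.ef_bounds p hz0 hz).1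
  have h2 : 0 ≤ f p * z := mul_nonneg (D.nonneg _) hz0
  linarith

include D in
theorem abs_log_ef_sub_le (p : ℕ) {z : ℝ} (hz0 : 0 ≤ z) (hz : z ≤ 1 / 2) :
    |Real.log (ef f p z) - f p * z| ≤ 4 * z ^ 2 := by
  obtain ⟨h1, h2⟩ := D.ef_bounds p hz0 hz
  have h3 := D.one_le_ef p hz0 hz
  have h4 : 0 ≤ f p * z := mul_nonneg (D.nonneg _) hz0
  have h5 : f p * z ≤ z := mul_le_of_le_one_left hz0 (D.le_one _)
  have h6 := Real.log_le_sub_one_of_pos (show 0 < ef f p z by linarith)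
  have h7 := Real.one_sub_inv_le_log_of_pos (show 0 < ef f p z by linarith)
  set y := ef f p z - 1 with hy
  have hE : ef f p z = 1 + y := by rw [hy]; ring
  have hy0 : f p * z ≤ y := by linarith
  have hy1 : y ≤ 2 * z := by nlinarith
  have hy2 : 0 ≤ y := by linarith
  have h8 : 1 - (ef f p z)⁻¹ = y - y ^ 2 / (1 + y) := by
    rw [hE]
    have : 1 + y ≠ 0 := by linarith
    field_simp
    ring
  have h9 : y ^ 2 / (1 + y) ≤ y ^ 2 := div_le_self (sq_nonneg y) (by linarith)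
  rw [abs_le]
  constructor
  · nlinarith
  · nlinarith [sq_nonneg z]

end MulF

/-- the remainder -/
noncomputable def rr (f : ℕ → ℝ) (δ : ℝ) (p : Nat.Primes) : ℝ :=
  Real.log (ef f p (zz δ p)) - f p * zz δ p

namespace MulF

variable (D : MulF f τ)

include D in
theorem norm_rr_le {δ : ℝ} (hδ : 0 ≤ δ) (p : Nat.Primes) :
    ‖rr f δ p‖ ≤ 2 * (2 * ((p : ℕ) : ℝ) ^ (-2 : ℝ)) := by
  rw [Real.norm_eq_abs, rr]
  refine (D.abs_log_ef_sub_le p (zz_nonneg δ p) (zz_le_half hδ p)).trans ?_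
  have := zz_sq_le hδ p
  linarith

include D in
theorem summable_rr {δ : ℝ} (hδ : 0 ≤ δ) : Summable (rr f δ) :=
  Summable.of_norm_bounded (summable_bound.mul_left 2) (D.norm_rr_le hδ)

theorem tendsto_zz (p : Nat.Primes) : Tendsto (fun δ : ℝ => zz δ p) (𝓝[>] 0) (𝓝 (zz 0 p)) := by
  have hp0 : ((p : ℕ) : ℝ) ≠ 0 := by exact_mod_cast p.2.ne_zero
  have h1 : ContinuousAt (fun δ : ℝ => zz δ p) 0 :=
    (Real.continuousAt_const_rpow hp0).comp (f := fun δ : ℝ => -(1 + δ)) (by fun_prop)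
  exact h1.tendsto.mono_left nhdsWithin_le_nhds

include D in
theorem tendsto_ef (p : Nat.Primes) :
    Tendsto (fun δ : ℝ => ef f p (zz δ p)) (𝓝[>] 0) (𝓝 (ef f p (zz 0 p))) := by
  refine tendsto_tsum_of_dominated_convergence summable_half (fun e => ?_) ?_
  · exact ((tendsto_zz p).pow e).const_mul _
  · filter_upwards [self_mem_nhdsWithin] with δ hδ e
    have hδ : 0 < δ := hδ
    exact D.norm_term_le p e (zz_nonneg δ p) (zz_le_half hδ.le p)

include D in
theorem tendsto_rr : Tendsto (fun δ : ℝ => ∑' p, rr f δ p) (𝓝[>] 0) (𝓝 (∑' p, rr f 0 p)) := by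
  refine tendsto_tsum_of_dominated_convergence (summable_bound.mul_left 2) (fun p => ?_) ?_
  · refine Tendsto.sub ?_ ((tendsto_zz p).const_mul _)
    have h1 := D.one_le_ef p (zz_nonneg 0 p) (zz_le_half le_rfl p)
    exact (Real.continuousAt_log (by linarith)).tendsto.comp (D.tendsto_ef p)
  · filter_upwards [self_mem_nhdsWithin] with δ hδ p
    have hδ : 0 < δ := hδ
    exact D.norm_rr_le hδ.le p

end MulF

/-- the Dirichlet series at `1 + δ` -/
noncomputable def dF (f : ℕ → ℝ) (δ : ℝ) : ℝ := ∑' n : ℕ, f n / n * (n : ℝ) ^ (-δ)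

theorem term_eq (f : ℕ → ℝ) {δ : ℝ} (hδ : 0 < δ) (n : ℕ) :
    f n / n * (n : ℝ) ^ (-δ) = f n * (n : ℝ) ^ (-(1 + δ)) := by
  rcases Nat.eq_zero_or_pos n with rfl | hn
  · rw [Nat.cast_zero, Real.zero_rpow (by linarith), Real.zero_rpow (by linarith), mul_zero,
      mul_zero]
  · have hn0 : (0 : ℝ) < n := by exact_mod_cast hn
    rw [neg_add, Real.rpow_add hn0, Real.rpow_neg_one]
    ring

namespace MulF

variable (D : MulF f τ)

include D in
theorem mulDat : MulDat f τ where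
  nonneg := D.nonneg
  le_one := D.le_one
  mul p m hp hm := D.map_mul p m ((Nat.Prime.coprime_iff_not_dvd hp).mpr hm)
  lim := D.lim

include D in
theorem hasProd_dF {δ : ℝ} (hδ : 0 < δ) :
    HasProd (fun p : Nat.Primes => ef f p (zz δ p)) (dF f δ) := by
  have hs : Summable fun n : ℕ => f n * (n : ℝ) ^ (-(1 + δ)) :=
    (D.mulDat.summable_dirichlet hδ).congr (term_eq f hδ)
  have h1 := EulerProduct.eulerProduct_hasProd (f := fun n : ℕ => f n * (n : ℝ) ^ (-(1 + δ)))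
    (by simp [D.map_one]) (fun {m n} h => by
      rw [D.map_mul m n h, Nat.cast_mul, Real.mul_rpow (Nat.cast_nonneg m) (Nat.cast_nonneg n)]
      ring) hs.norm (by
        rw [Nat.cast_zero, Real.zero_rpow (by linarith), mul_zero])
  have hpow : ∀ (p : Nat.Primes) (e : ℕ), (((p : ℕ) ^ e : ℕ) : ℝ) ^ (-(1 + δ)) = zz δ p ^ e := by
    intro p e
    rw [zz, Nat.cast_pow, ← Real.rpow_natCast, ← Real.rpow_natCast, ← Real.rpow_mul (by positivity),
      ← Real.rpow_mul (by positivity), mul_comm]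
  have h2 : dF f δ = ∑' n : ℕ, f n * (n : ℝ) ^ (-(1 + δ)) := tsum_congr (term_eq f hδ)
  rw [h2]
  simp only [hpow] at h1
  exact h1

include D in
/-- the Dirichlet series is the exponential of the sum over the primes -/
theorem dF_eq {δ : ℝ} (hδ : 0 < δ) : dF f δ = Real.exp (pG f δ + ∑' p, rr f δ p) := by
  have s1 := summable_pG D.nonneg D.le_one hδ
  have s2 := D.summable_rr hδ.le
  have h1 := (s1.hasSum.add s2.hasSum).rexp
  refine (D.hasProd_dF hδ).unique ?_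
  have h8 : ∀ {u v : Nat.Primes → ℝ} {a : ℝ}, u = v → HasProd u a → HasProd v a :=
    fun h h' => h ▸ h'
  refine h8 (funext fun p => ?_) h1
  have h3 := D.one_le_ef p (zz_nonneg δ p) (zz_le_half hδ.le p)
  rw [Function.comp_apply, rr, show ((p : ℕ) : ℝ) ^ (-(1 + δ)) = zz δ p from rfl, add_sub_cancel,
    Real.exp_log (by linarith)]

include D in
theorem dF_pos {δ : ℝ} (hδ : 0 < δ) : 0 < dF f δ := by
  rw [D.dF_eq hδ]
  exact Real.exp_pos _

include D in
/-- `F(k δ) / F(δ) → k ^ (-τ)` -/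
theorem tendsto_dF_div {a : ℝ} (ha : 0 ≤ a) :
    Tendsto (fun δ : ℝ => dF f ((a + 1) * δ) / dF f δ) (𝓝[>] 0) (𝓝 ((a + 1) ^ (-τ))) := by
  have hmul : Tendsto (fun δ : ℝ => (a + 1) * δ) (𝓝[>] 0) (𝓝[>] 0) := by
    refine tendsto_nhdsWithin_iff.mpr ⟨?_, ?_⟩
    · have h3 : Continuous fun δ : ℝ => (a + 1) * δ := by fun_prop
      have h4 := (h3.tendsto 0).mono_left (nhdsWithin_le_nhds (s := Set.Ioi 0))
      simpa only [mul_zero] using h4
    · filter_upwards [self_mem_nhdsWithin] with δ hδ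
      have hδ : 0 < δ := hδ
      exact mul_pos (by linarith) hδ
  have h1 := (D.tendsto_rr.comp hmul).sub D.tendsto_rr
  have h2 := h1.sub (D.tendsto_pG_sub ha)
  rw [sub_self, zero_sub] at h2
  have h3 := (Real.continuous_exp.tendsto _).comp h2
  have e : Real.exp (-(τ * Real.log (a + 1))) = (a + 1) ^ (-τ) := by
    rw [Real.rpow_def_of_pos (by linarith)]
    congr 1
    ring
  rw [e] at h3
  refine h3.congr' ?_
  filter_upwards [self_mem_nhdsWithin] with δ hδ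
  have hδ : 0 < δ := hδ
  rw [D.dF_eq hδ, D.dF_eq (show 0 < (a + 1) * δ by positivity), ← Real.exp_sub]
  simp only [Function.comp_apply]
  congr 1
  ring

include D in
theorem karW : KarW (fun n => f n / n) τ 1 fun δ => (dF f δ)⁻¹ where
  nonneg n := div_nonneg (D.nonneg n) (Nat.cast_nonneg n)
  pos := D.pos
  wpos δ hδ := inv_pos.mpr (D.dF_pos hδ)
  summable δ hδ := D.mulDat.summable_dirichlet hδ
  lim k := by
    rw [mul_one]
    refine (D.tendsto_dF_div (a := k) (Nat.cast_nonneg k)).congr fun δ => ?_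
    rw [div_eq_inv_mul]
    rfl

include D in
/-- `F(δ) ∼ e ^ (-γ τ) ∏_{p ≤ e ^ (1 / δ)}` -/
theorem tendsto_dF_div_prod : Tendsto (fun δ : ℝ => dF f δ /
    ∏ p ∈ isCount_primes.F ⌊Real.exp (1 / δ)⌋₊, ef f p ((p : ℕ) : ℝ)⁻¹) (𝓝[>] 0)
    (𝓝 (Real.exp (-(τ * Real.eulerMascheroniConstant)))) := by
  have h0 : Tendsto (fun δ : ℝ => ⌊Real.exp (1 / δ)⌋₊) (𝓝[>] 0) atTop := by
    have h0 : Tendsto (fun δ : ℝ => 1 / δ) (𝓝[>] 0) atTop := by
      have := tendsto_inv_nhdsGT_zero (𝕜 := ℝ)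
      exact this.congr fun δ => (one_div δ).symm
    exact tendsto_nat_floor_atTop.comp (Real.tendsto_exp_atTop.comp h0)
  have h1 : Tendsto (fun δ : ℝ => ∑ p ∈ isCount_primes.F ⌊Real.exp (1 / δ)⌋₊, rr f 0 p) (𝓝[>] 0)
      (𝓝 (∑' p, rr f 0 p)) :=
    ((D.summable_rr le_rfl).hasSum.comp isCount_primes.tendsto_F).comp h0
  have h2 := D.tendsto_pG_sub_pU.add (D.tendsto_rr.sub h1)
  rw [sub_self, add_zero] at h2
  refine ((Real.continuous_exp.tendsto _).comp h2).congr' ?_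
  filter_upwards [self_mem_nhdsWithin] with δ hδ
  have hδ : 0 < δ := hδ
  have h3 : ∏ p ∈ isCount_primes.F ⌊Real.exp (1 / δ)⌋₊, ef f p ((p : ℕ) : ℝ)⁻¹ =
      Real.exp (pU f δ + ∑ p ∈ isCount_primes.F ⌊Real.exp (1 / δ)⌋₊, rr f 0 p) := by
    rw [pU, (pU_eq f hδ).tsum_eq, ← Finset.sum_add_distrib, Real.exp_sum]
    refine Finset.prod_congr rfl fun p _ => ?_
    have h3 := D.one_le_ef p (zz_nonneg 0 p) (zz_le_half le_rfl p)
    rw [rr, zz_zero] at *
    rw [add_sub_cancel, Real.exp_log (by linarith)]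
  rw [h3, D.dF_eq hδ, ← Real.exp_sub, Function.comp_apply]
  congr 1
  ring

include D in
/-- `∑_{n ≤ x} f(n) / n ∼ (e ^ (-γ τ) / Γ(τ + 1)) ∏_{p ≤ x}`, `x = e ^ (1 / δ)` -/
theorem tendsto_sL_exp : Tendsto (fun δ : ℝ =>
    (∑ n ∈ Finset.Icc 1 ⌊Real.exp (1 / δ)⌋₊, f n / n) /
    ∏ p ∈ isCount_primes.F ⌊Real.exp (1 / δ)⌋₊, ef f p ((p : ℕ) : ℝ)⁻¹) (𝓝[>] 0)
    (𝓝 (Real.exp (-(τ * Real.eulerMascheroniConstant)) / Real.Gamma (τ + 1))) := by
  have h1 := D.tendsto_dF_div_prod.mul D.karW.tendsto_exp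
  rw [mul_one_div] at h1
  refine h1.congr' ?_
  filter_upwards [self_mem_nhdsWithin] with δ hδ
  have := (D.dF_pos hδ).ne'
  field_simp

/-- the product over the primes `p ≤ x` -/
noncomputable def pP (f : ℕ → ℝ) (X : ℕ) : ℝ :=
  ∏ p ∈ (Finset.Icc 1 X).filter Nat.Prime, ∑' e : ℕ, f (p ^ e) / (p : ℝ) ^ e

theorem pP_eq (f : ℕ → ℝ) (X : ℕ) :
    ∏ p ∈ isCount_primes.F X, ef f p ((p : ℕ) : ℝ)⁻¹ = pP f X := by
  have h1 := prod_F_primes (fun _ => True) (fun p => ef f p (p : ℝ)⁻¹) X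
  simp only [Finset.filter_true, and_true] at h1
  rw [h1, pP]
  refine Finset.prod_congr rfl fun p _ => ?_
  rw [ef]
  refine tsum_congr fun e => ?_
  rw [inv_pow, div_eq_mul_inv]

include D in
theorem tendsto_sL_div : Tendsto (fun X : ℕ => sL f X / pP f X) atTop
    (𝓝 (Real.exp (-(τ * Real.eulerMascheroniConstant)) / Real.Gamma (τ + 1))) := by
  have h1 : Tendsto (fun x : ℝ => (Real.log x)⁻¹) atTop (𝓝[>] 0) :=
    tendsto_inv_atTop_nhdsGT_zero.comp Real.tendsto_log_atTop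
  refine ((D.tendsto_sL_exp.comp h1).comp tendsto_natCast_atTop_atTop).congr' ?_
  filter_upwards [eventually_gt_atTop 1] with X hX
  have hX0 : (0 : ℝ) < X := by exact_mod_cast (by omega : 0 < X)
  simp only [Function.comp_apply]
  rw [one_div, inv_inv, Real.exp_log hX0, Nat.floor_natCast, pP_eq]
  rfl

include D in
/-- the sum `∑ f(n) / n` diverges -/
theorem tendsto_sL_atTop : Tendsto (sL f) atTop atTop := by
  have hmono : Monotone (sL f) := by
    intro m n hmn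
    refine Finset.sum_le_sum_of_subset_of_nonneg (Finset.Ioc_subset_Ioc le_rfl hmn) fun i _ _ => ?_
    exact div_nonneg (D.nonneg i) (Nat.cast_nonneg i)
  rcases tendsto_atTop_of_monotone hmono with h | ⟨l, hl⟩
  · exact h
  · exfalso
    have hn0 : ∀ n : ℕ, 0 ≤ f n / (n : ℝ) := fun n => div_nonneg (D.nonneg n) (Nat.cast_nonneg n)
    have hs : Summable fun n : ℕ => f n / (n : ℝ) := by
      refine summable_of_sum_range_le (c := l) hn0 fun n => ?_
      refine le_trans ?_ (hmono.ge_of_tendsto hl n)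
      rw [sL]
      rw [← Finset.sum_filter_add_sum_filter_not (Finset.range n) (fun i => i = 0)]
      have h1 : ∑ x ∈ (Finset.range n).filter (fun i => i = 0), f x / (x : ℝ) = 0 := by
        refine Finset.sum_eq_zero fun i hi => ?_
        rw [(Finset.mem_filter.mp hi).2, Nat.cast_zero, div_zero]
      rw [h1, zero_add]
      refine Finset.sum_le_sum_of_subset_of_nonneg (fun i hi => ?_) fun i _ _ => hn0 i
      have h2 := Finset.mem_filter.mp hi
      have h3 := Finset.mem_range.mp h2.1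
      rw [Finset.mem_Ioc]
      have := h2.2
      omega
    have hlim : Tendsto (dF f) (𝓝[>] 0) (𝓝 (∑' n : ℕ, f n / (n : ℝ))) := by
      refine tendsto_tsum_of_dominated_convergence hs (fun n => ?_) ?_
      · rcases Nat.eq_zero_or_pos n with rfl | hn
        · simp only [Nat.cast_zero, div_zero, zero_mul]
          exact tendsto_const_nhds
        · have hn' : (n : ℝ) ≠ 0 := by exact_mod_cast hn.ne'
          have h1 : ContinuousAt (fun δ : ℝ => f n / (n : ℝ) * (n : ℝ) ^ (-δ)) 0 :=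
            continuousAt_const.mul
              ((Real.continuousAt_const_rpow hn').comp (f := fun δ : ℝ => -δ) (by fun_prop))
          have h2 := h1.tendsto.mono_left (nhdsWithin_le_nhds (s := Set.Ioi 0))
          rwa [neg_zero, Real.rpow_zero, mul_one] at h2
      · filter_upwards [self_mem_nhdsWithin] with δ hδ n
        have h1 := rpow_mem hδ n
        rw [norm_mul, Real.norm_of_nonneg (hn0 n), Real.norm_of_nonneg h1.1]
        exact mul_le_of_le_one_right (hn0 n) h1.2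
    have hpos : 0 < ∑' n : ℕ, f n / (n : ℝ) := by
      refine hs.tsum_pos hn0 1 ?_
      rw [D.map_one]
      norm_num
    have hmul : Tendsto (fun δ : ℝ => ((1 : ℝ) + 1) * δ) (𝓝[>] 0) (𝓝[>] 0) := by
      refine tendsto_nhdsWithin_iff.mpr ⟨?_, ?_⟩
      · have h3 : Continuous fun δ : ℝ => ((1 : ℝ) + 1) * δ := by fun_prop
        have h4 := (h3.tendsto 0).mono_left (nhdsWithin_le_nhds (s := Set.Ioi 0))
        simpa only [mul_zero] using h4
      · filter_upwards [self_mem_nhdsWithin] with δ hδ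
        have hδ : 0 < δ := hδ
        exact mul_pos (by norm_num) hδ
    have h1 := (hlim.comp hmul).div hlim hpos.ne'
    rw [div_self hpos.ne'] at h1
    have h2 := tendsto_nhds_unique h1 (D.tendsto_dF_div zero_le_one)
    have h3 : ((1 : ℝ) + 1) ^ (-τ) < 1 :=
      Real.rpow_lt_one_of_one_lt_of_neg (by norm_num) (by linarith [D.pos])
    linarith

include D in
theorem pP_pos (X : ℕ) : 0 < pP f X := by
  rw [← pP_eq]
  refine Finset.prod_pos fun p _ => ?_
  have h3 := D.one_le_ef p (zz_nonneg 0 p) (zz_le_half le_rfl p)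
  rw [zz_zero] at h3
  linarith

include D in
/-- **Wirsing's theorem** along the natural numbers -/
theorem tendsto_nat : Tendsto (fun X : ℕ => sM f X * Real.log X / (X * pP f X)) atTop
    (𝓝 (Real.exp (-(τ * Real.eulerMascheroniConstant)) / Real.Gamma τ)) := by
  have h1 := (D.mulDat.tendsto_ratio D.tendsto_sL_atTop).mul D.tendsto_sL_div
  have hτ := D.pos
  have e : τ * (Real.exp (-(τ * Real.eulerMascheroniConstant)) / Real.Gamma (τ + 1)) =
      Real.exp (-(τ * Real.eulerMascheroniConstant)) / Real.Gamma τ := by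
    rw [Real.Gamma_add_one hτ.ne']
    have := (Real.Gamma_pos_of_pos hτ).ne'
    field_simp
  rw [e] at h1
  refine h1.congr' ?_
  filter_upwards [eventually_gt_atTop 0, D.tendsto_sL_atTop.eventually_gt_atTop 0] with X hX hL
  have hX0 : (0 : ℝ) < X := by exact_mod_cast hX
  have := (D.pP_pos X).ne'
  field_simp

end MulF

/-- **Wirsing's theorem.** `f` multiplicative with values in `[0, 1]`, `∑_{p ≤ x} f(p) log p ~ τ x`,
`τ > 0`. Then `∑_{n ≤ x} f(n) ~ (e ^ (-γ τ) / Γ(τ)) (x / log x) ∏_{p ≤ x} ∑_e f(p ^ e) / p ^ e`. -/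
theorem wirsing (hf0 : ∀ n, 0 ≤ f n) (hf1 : ∀ n, f n ≤ 1) (h1 : f 1 = 1)
    (hmul : ∀ m n : ℕ, m.Coprime n → f (m * n) = f m * f n) (hτ : 0 < τ)
    (hlim : Tendsto (fun x : ℕ =>
      (∑ p ∈ (Finset.Ioc 0 x).filter Nat.Prime, f p * Real.log p) / x) atTop (𝓝 τ)) :
    Tendsto (fun x : ℝ => (∑ n ∈ Finset.Icc 1 ⌊x⌋₊, f n) * Real.log x /
      (x * ∏ p ∈ (Finset.Icc 1 ⌊x⌋₊).filter Nat.Prime, ∑' e : ℕ, f (p ^ e) / (p : ℝ) ^ e)) atTop
      (𝓝 (Real.exp (-(τ * Real.eulerMascheroniConstant)) / Real.Gamma τ)) := by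
  have D : MulF f τ := ⟨⟨hf0, hf1, hlim⟩, hτ, h1, hmul⟩
  have h2 : Tendsto (fun X : ℕ => (sM f X / MulF.pP f X) / (X * Real.log X ^ (-1 : ℝ))) atTop
      (𝓝 (Real.exp (-(τ * Real.eulerMascheroniConstant)) / Real.Gamma τ)) := by
    refine D.tendsto_nat.congr' ?_
    filter_upwards [eventually_gt_atTop 1] with X hX
    have hX0 : (0 : ℝ) < X := by exact_mod_cast (by omega : 0 < X)
    have hl : 0 < Real.log X := Real.log_pos (by exact_mod_cast hX)
    have := (D.pP_pos X).ne'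
    rw [Real.rpow_neg_one]
    field_simp
  refine (tendsto_real_of_nat h2).congr' ?_
  filter_upwards [eventually_gt_atTop 1] with x hx
  have hl := Real.log_pos hx
  have := (D.pP_pos ⌊x⌋₊).ne'
  rw [Real.rpow_neg_one, show (∏ p ∈ (Finset.Icc 1 ⌊x⌋₊).filter Nat.Prime,
    ∑' e : ℕ, f (p ^ e) / (p : ℝ) ^ e) = MulF.pP f ⌊x⌋₊ from rfl,
    show (∑ n ∈ Finset.Icc 1 ⌊x⌋₊, f n) = sM f ⌊x⌋₊ from rfl]
  field_simp

end Fermat.Agent.Cor.LR
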