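import Fermat.Agent.Corollaries.LR.Wirsing
import Fermat.Agent.Corollaries.Mertens.Rat

/-!
# `∑_{p ≤ x} f(p) log p` for `f` periodic on the primes, and mean values at real points

`f(p) = w(p mod q)` for the primes `p ∤ q` : `∑_{p ≤ x} f(p) log p ~ τ x`, `τ` the mean value of
`w` on the units of `ℤ/q`.
-/

set_option autoImplicit false

open Filter Topology

namespace Fermat.Agent.Cor.LR

open Mert

section Theta

variable {q : ℕ} [NeZero q]

/-- Chebyshev's function of an arithmetic progression: `θ(x; q, a) ~ x / φ(q)`. -/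
theorem tendsto_theta_ap {a : ZMod q} (ha : IsUnit a) : Tendsto (fun x : ℝ =>
    (∑ p ∈ (Finset.Icc 1 ⌊x⌋₊).filter (fun p : ℕ => p.Prime ∧ (p : ZMod q) = a), Real.log p) / x)
    atTop (𝓝 (q.totient : ℝ)⁻¹) := by
  have h0 : Tendsto (fun x : ℝ => (∑ n ∈ Finset.Icc 1 ⌊x⌋₊,
      vM (fun p : Nat.Primes => (p : ℕ)) (apw a) n) / x) atTop (𝓝 (q.totient : ℝ)⁻¹) := by
    refine (tendsto_psi_ap ha).congr fun x => ?_
    congr 1
    refine Finset.sum_congr rfl fun n _ => ?_
    rw [residueClass_eq_tsum, ← vM_ite (fun p : Nat.Primes => (p : ℕ))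
      (fun p k => (((p : ℕ) ^ (k + 1) : ℕ) : ZMod q) = a)]
    congr 1
  refine (isCount_primes.tendsto_th (apw_nonneg a) (apw_le_one a) h0).congr fun x => ?_
  rw [← sum_F_primes (fun p => (p : ZMod q) = a) (fun p => Real.log p), IsCount.th,
    Finset.sum_filter]
  congr 1
  refine Finset.sum_congr rfl fun p _ => ?_
  rw [apw_zero]
  split_ifs <;> simp

/-- the mean value of a function on the units of `ℤ/q` -/
noncomputable def meanU (w : ZMod q → ℝ) : ℝ :=
  (q.totient : ℝ)⁻¹ * ∑ a : ZMod q, Set.indicator {a | IsUnit a} w a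

/-- **`∑_{p ≤ x} f(p) log p ~ τ x`** if `f(p) = w(p mod q)` for the primes `p ∤ q`. -/
theorem tendsto_theta_weight (w : ZMod q → ℝ) (f : ℕ → ℝ)
    (hf : ∀ p : ℕ, p.Prime → ¬ p ∣ q → f p = w p) :
    Tendsto (fun x : ℕ => (∑ p ∈ (Finset.Ioc 0 x).filter Nat.Prime, f p * Real.log p) / x) atTop
      (𝓝 (meanU w)) := by
  classical
  have h1 : Tendsto (fun x : ℕ => ∑ a : ZMod q, Set.indicator {a | IsUnit a} w a *
      ((∑ p ∈ (Finset.Icc 1 x).filter (fun p : ℕ => p.Prime ∧ (p : ZMod q) = a), Real.log p) / x))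
      atTop (𝓝 (∑ a : ZMod q, Set.indicator {a | IsUnit a} w a * (q.totient : ℝ)⁻¹)) := by
    refine tendsto_finsetSum _ fun a _ => ?_
    by_cases ha : IsUnit a
    · refine Tendsto.const_mul _ (((tendsto_theta_ap ha).comp
        tendsto_natCast_atTop_atTop).congr fun x => ?_)
      simp only [Function.comp_apply, Nat.floor_natCast]
    · rw [Set.indicator_of_notMem (show a ∉ {a : ZMod q | IsUnit a} from ha)]
      simp only [zero_mul]
      exact tendsto_const_nhds
  have h2 : Tendsto (fun x : ℕ => (∑ p ∈ q.primeFactors, f p * Real.log p) / x) atTop (𝓝 0) :=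
    tendsto_const_nhds.div_atTop tendsto_natCast_atTop_atTop
  have h3 := h1.add h2
  rw [add_zero, ← Finset.sum_mul, mul_comm] at h3
  refine h3.congr' ?_
  filter_upwards [eventually_ge_atTop q] with x hx
  have hdisj : ∀ p ∈ (Finset.Ioc 0 x).filter Nat.Prime, f p * Real.log p =
      (if p ∣ q then f p * Real.log p else 0) + ∑ a : ZMod q,
        if (p : ZMod q) = a then Set.indicator {a | IsUnit a} w a * Real.log p else 0 := by
    intro p hp
    have hp' := (Finset.mem_filter.mp hp).2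
    rw [Finset.sum_ite_eq]
    simp only [Finset.mem_univ, if_true]
    split_ifs with hd
    · rw [Set.indicator_of_notMem, zero_mul, add_zero]
      exact fun h => (ZMod.isUnit_prime_iff_not_dvd hp').mp h hd
    · rw [Set.indicator_of_mem (show (p : ZMod q) ∈ {a : ZMod q | IsUnit a} from
        (ZMod.isUnit_prime_iff_not_dvd hp').mpr hd), zero_add, hf p hp' hd]
  rw [Finset.sum_congr rfl hdisj, Finset.sum_add_distrib, add_comm, add_div]
  congr 1
  · congr 1
    rw [← Finset.sum_filter, Finset.filter_filter]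
    refine Finset.sum_congr ?_ fun _ _ => rfl
    ext p
    simp only [Nat.mem_primeFactors, Finset.mem_filter, Finset.mem_Ioc]
    constructor
    · rintro ⟨h4, h5, h6⟩
      exact ⟨⟨h4.pos, (Nat.le_of_dvd (Nat.pos_of_ne_zero h6) h5).trans hx⟩, h4, h5⟩
    · rintro ⟨_, h4, h5⟩
      exact ⟨h4, h5, NeZero.ne q⟩
  · rw [Finset.sum_comm, Finset.sum_div]
    refine Finset.sum_congr rfl fun a _ => ?_
    rw [← Finset.sum_filter, Finset.filter_filter, mul_div_assoc', Finset.mul_sum]
    rfl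

end Theta

/-- from the natural numbers to the real numbers -/
theorem tendsto_real_of_nat {g : ℕ → ℝ} {A r : ℝ}
    (h : Tendsto (fun X : ℕ => g X / (X * Real.log X ^ r)) atTop (𝓝 A)) :
    Tendsto (fun x : ℝ => g ⌊x⌋₊ / (x * Real.log x ^ r)) atTop (𝓝 A) := by
  have h1 := h.comp (tendsto_nat_floor_atTop (α := ℝ))
  have h2 : Tendsto (fun x : ℝ => (⌊x⌋₊ : ℝ) / x) atTop (𝓝 1) := tendsto_nat_floor_div_atTop
  have h3 : Tendsto (fun x : ℝ => Real.log ⌊x⌋₊ / Real.log x) atTop (𝓝 1) := by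
    have h4 : Tendsto (fun x : ℝ => Real.log ((⌊x⌋₊ : ℝ) / x) / Real.log x) atTop (𝓝 0) := by
      refine Tendsto.div_atTop (a := Real.log 1) ?_ Real.tendsto_log_atTop
      exact (Real.continuousAt_log one_ne_zero).tendsto.comp h2
    have h5 := h4.add_const 1
    rw [zero_add] at h5
    refine h5.congr' ?_
    filter_upwards [eventually_gt_atTop 1] with x hx
    have hf : (0 : ℝ) < ⌊x⌋₊ := by exact_mod_cast Nat.floor_pos.mpr hx.le
    have hl := Real.log_pos hx
    rw [Real.log_div hf.ne' (by linarith)]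
    field_simp
    ring
  have h6 : Tendsto (fun x : ℝ => (Real.log ⌊x⌋₊ / Real.log x) ^ r) atTop (𝓝 1) := by
    have := h3.rpow_const (p := r) (Or.inl one_ne_zero)
    rwa [Real.one_rpow] at this
  have h7 := (h1.mul h2).mul h6
  rw [mul_one, mul_one] at h7
  refine h7.congr' ?_
  filter_upwards [eventually_ge_atTop 2] with x hx
  have hf2 : 2 ≤ ⌊x⌋₊ := Nat.le_floor hx
  have hf : (0 : ℝ) < ⌊x⌋₊ := by exact_mod_cast (by omega : 0 < ⌊x⌋₊)
  have hf1 : (1 : ℝ) < ⌊x⌋₊ := by exact_mod_cast (by omega : 1 < ⌊x⌋₊)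
  have hl : 0 < Real.log x := Real.log_pos (by linarith)
  have hlf := Real.log_pos hf1
  have hx0 : x ≠ 0 := by linarith
  rw [Real.div_rpow hlf.le hl.le, Function.comp_apply]
  have e1 := (Real.rpow_pos_of_pos hl r).ne'
  have e2 := (Real.rpow_pos_of_pos hlf r).ne'
  field_simp

end Fermat.Agent.Cor.LR
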