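import Fermat.Agent.Corollaries.LR.Const
import Fermat.Agent.Corollaries.Mertens.Field
import Fermat.Agent.Corollaries.Cheb.ClassU
import Fermat.Agent.Corollaries.ZetaK.SplitDensity
import Fermat.Agent.Corollaries.ZetaK.DegOne
import Fermat.Agent.Corollaries.ZetaK.Landau

/-!
# The norms of the ideals of a Galois number field

`K / ℚ` finite Galois of degree `n`. The number of the `m ≤ x` which are the norm of an integral
ideal of `K` is `~ C x (log x) ^ (1 / n - 1)`, `C > 0`.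
-/

set_option autoImplicit false
set_option linter.unusedSectionVars false

open Filter Topology NumberField IsDedekindDomain Ideal
open scoped Classical
open Fermat.Agent.Classic.Disc Fermat.Agent.ClassL

noncomputable section

namespace Fermat.Agent.Cor.LR

open Mert

variable (K : Type*) [Field K] [NumberField K]

/-- the norms of the non-zero ideals -/
def IsNm (m : ℕ) : Prop := m ≠ 0 ∧ ∃ I : Ideal (𝓞 K), absNorm I = m

/-- the indicator function -/
def nm (m : ℕ) : ℝ := if IsNm K m then 1 else 0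

variable {K}

theorem isNm_one : IsNm K 1 := ⟨one_ne_zero, ⊤, by rw [absNorm_top]⟩

theorem sup_span_eq {m n : ℕ} (h : m.Coprime n) :
    (span {(m : 𝓞 K)} ⊔ span {(n : 𝓞 K)} : Ideal (𝓞 K)) = ⊤ := by
  rw [eq_top_iff_one]
  have h1 : IsCoprime (m : ℤ) (n : ℤ) := Nat.isCoprime_iff_coprime.mpr h
  obtain ⟨a, b, hab⟩ := h1
  have h2 : (1 : 𝓞 K) = (a : 𝓞 K) * (m : 𝓞 K) + (b : 𝓞 K) * (n : 𝓞 K) := by
    exact_mod_cast (congrArg (fun z : ℤ => (z : 𝓞 K)) hab).symm
  rw [h2]
  exact Submodule.add_mem_sup (Ideal.mul_mem_left _ _ (mem_span_singleton_self _))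
    (Ideal.mul_mem_left _ _ (mem_span_singleton_self _))

/-- an ideal of norm `m n`, `(m, n) = 1`, is a product -/
theorem sup_mul_sup {m n : ℕ} (h : m.Coprime n) {I : Ideal (𝓞 K)} (hI : absNorm I = m * n) :
    (I ⊔ span {(m : 𝓞 K)}) * (I ⊔ span {(n : 𝓞 K)}) = I := by
  have hmem : ((m : 𝓞 K) * (n : 𝓞 K)) ∈ I := by
    have := absNorm_mem I
    rw [hI] at this
    exact_mod_cast this
  refine le_antisymm ?_ ?_
  · rw [Ideal.sup_mul, Ideal.mul_sup, Ideal.mul_sup]
    refine sup_le (sup_le Ideal.mul_le_left Ideal.mul_le_left) (sup_le Ideal.mul_le_right ?_)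
    rw [span_singleton_mul_span_singleton, span_singleton_le_iff_mem]
    exact hmem
  · calc I = I * (span {(n : 𝓞 K)} ⊔ span {(m : 𝓞 K)}) := by
          rw [sup_comm, sup_span_eq h, Ideal.mul_top]
      _ = I * span {(n : 𝓞 K)} ⊔ span {(m : 𝓞 K)} * I := by
          rw [Ideal.mul_sup, Ideal.mul_comm (span {(m : 𝓞 K)}) I]
      _ ≤ (I ⊔ span {(m : 𝓞 K)}) * (I ⊔ span {(n : 𝓞 K)}) :=
          sup_le (Ideal.mul_mono le_sup_left le_sup_right)
            (Ideal.mul_mono le_sup_right le_sup_left)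

theorem isNm_mul {m n : ℕ} (h : m.Coprime n) : IsNm K (m * n) ↔ IsNm K m ∧ IsNm K n := by
  constructor
  · rintro ⟨h0, I, hI⟩
    obtain ⟨hm, hn⟩ := mul_ne_zero_iff.mp h0
    have h1 := sup_mul_sup h hI
    set A := I ⊔ span {(m : 𝓞 K)} with hA
    set B := I ⊔ span {(n : 𝓞 K)} with hB
    have hAd : absNorm A ∣ m ^ Module.finrank ℚ K := by
      rw [← deg_absNorm_span (K := K)]
      exact absNorm_dvd_absNorm_of_le le_sup_right
    have hBd : absNorm B ∣ n ^ Module.finrank ℚ K := by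
      rw [← deg_absNorm_span (K := K)]
      exact absNorm_dvd_absNorm_of_le le_sup_right
    have hAB : absNorm A * absNorm B = m * n := by rw [← map_mul, h1, hI]
    have hAn : (absNorm A).Coprime n := Nat.Coprime.coprime_dvd_left hAd (h.pow_left _)
    have hBm : (absNorm B).Coprime m := Nat.Coprime.coprime_dvd_left hBd (h.symm.pow_left _)
    have hAm : absNorm A ∣ m := hAn.dvd_of_dvd_mul_right ⟨_, hAB.symm⟩
    have hBn : absNorm B ∣ n := hBm.dvd_of_dvd_mul_left ⟨absNorm A, by rw [← hAB, mul_comm]⟩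
    have hAle := Nat.le_of_dvd (Nat.pos_of_ne_zero hm) hAm
    have hBle := Nat.le_of_dvd (Nat.pos_of_ne_zero hn) hBn
    have hm0 := Nat.pos_of_ne_zero hm
    have hn0 := Nat.pos_of_ne_zero hn
    have e1 : absNorm A = m := by
      refine le_antisymm hAle (not_lt.mp fun hlt => ?_)
      have : absNorm A * absNorm B < m * n := Nat.mul_lt_mul_of_lt_of_le hlt hBle hn0
      omega
    have e2 : absNorm B = n := by
      refine le_antisymm hBle (not_lt.mp fun hlt => ?_)
      have : absNorm A * absNorm B < m * n := Nat.mul_lt_mul_of_le_of_lt hAle hlt hm0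
      omega
    exact ⟨⟨hm, A, e1⟩, hn, B, e2⟩
  · rintro ⟨⟨hm, I, hI⟩, hn, J, hJ⟩
    exact ⟨mul_ne_zero hm hn, I * J, by rw [map_mul, hI, hJ]⟩

theorem nm_nonneg (n : ℕ) : 0 ≤ nm K n := by
  unfold nm
  split_ifs <;> norm_num

theorem nm_le_one (n : ℕ) : nm K n ≤ 1 := by
  unfold nm
  split_ifs <;> norm_num

theorem nm_mul (m n : ℕ) (h : m.Coprime n) : nm K (m * n) = nm K m * nm K n := by
  unfold nm
  rw [isNm_mul h]
  by_cases h1 : IsNm K m <;> by_cases h2 : IsNm K n <;> simp [h1, h2]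

theorem nm_one : nm K 1 = 1 := if_pos isNm_one

/-! ### The primes -/

/-- `p` is a norm if and only if there is a prime ideal of norm `p` -/
theorem isNm_prime {p : ℕ} (hp : p.Prime) : IsNm K p ↔ Cor.degOne K p ≠ 0 := by
  constructor
  · rintro ⟨_, I, hI⟩
    have hIp : I.IsPrime := Ideal.isPrime_of_irreducible_absNorm (by rw [hI]; exact hp)
    have hI0 : I ≠ ⊥ := by
      rintro rfl
      rw [absNorm_bot] at hI
      exact hp.ne_zero hI.symm
    let P : Pr K := prEquiv K ⟨I, hIp, hI0⟩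
    have hP : nP P = p := hI
    have := Cheb.degOne_ne_zero (P := P) (by rw [hP]; exact hp)
    rwa [hP] at this
  · intro h
    rw [← Cheb.card_nP_eq hp le_rfl, Finset.card_ne_zero] at h
    obtain ⟨P, hP⟩ := h
    have := (Finset.mem_filter.mp hP).2
    exact ⟨hp.ne_zero, _, this⟩

theorem degOne_of_split {p : ℕ} (hp : p.Prime) (h : SplitsIn K p) :
    Cor.degOne K p = Module.finrank ℚ K := by
  rw [Cor.degOne, ← h]
  congr 1
  rw [Finset.filter_eq_self]
  exact fun v hv => ((splitsIn_iff hp).mp h v hv).2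

/-- for an unramified prime `p`: `p` is a norm if and only if it splits completely -/
theorem degOne_eq_zero_of_not_split [IsGalois ℚ K] {p : ℕ} (hp : p.Prime)
    (hd : ¬ p ∣ (discr K).natAbs) (h : ¬ SplitsIn K p) : Cor.degOne K p = 0 := by
  by_contra h0
  rw [Cor.degOne, ← ne_eq, Finset.card_ne_zero] at h0
  obtain ⟨v, hv⟩ := h0
  obtain ⟨hv1, hv2⟩ := Finset.mem_filter.mp hv
  refine h ((splitsIn_iff hp).mpr fun w hw => ?_)
  have h1 := eq_of_galois hp ((mem_above hp.ne_zero).mp hw) ((mem_above hp.ne_zero).mp hv1)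
  exact ⟨ram_eq_one hp hd hw, h1.2.trans hv2⟩

theorem nm_prime [IsGalois ℚ K] {p : ℕ} (hp : p.Prime) (hd : ¬ p ∣ (discr K).natAbs) :
    nm K p = if SplitsIn K p then 1 else 0 := by
  unfold nm
  by_cases h : SplitsIn K p
  · rw [if_pos h, if_pos]
    rw [isNm_prime hp, degOne_of_split hp h]
    exact Module.finrank_pos.ne'
  · rw [if_neg h, if_neg]
    rw [isNm_prime hp, not_not]
    exact degOne_eq_zero_of_not_split hp hd h

theorem degOne_eq_nm [IsGalois ℚ K] {p : ℕ} (hp : p.Prime) (hd : ¬ p ∣ (discr K).natAbs) :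
    (Cor.degOne K p : ℝ) = Module.finrank ℚ K * nm K p := by
  rw [nm_prime hp hd]
  split_ifs with h
  · rw [degOne_of_split hp h, mul_one]
  · rw [degOne_eq_zero_of_not_split hp hd h, Nat.cast_zero, mul_zero]

/-- sums over the primes of two functions which agree outside a finite set -/
theorem tendsto_sum_sub {a b : ℕ → ℝ} {d : ℕ} (hd : d ≠ 0)
    (h : ∀ p : ℕ, p.Prime → ¬ p ∣ d → a p = b p) :
    ∃ e : ℝ, ∀ᶠ X : ℕ in atTop, (∑ p ∈ (Finset.Icc 1 X).filter Nat.Prime, a p) =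
      (∑ p ∈ (Finset.Icc 1 X).filter Nat.Prime, b p) + e := by
  refine ⟨∑ p ∈ d.primeFactors, (a p - b p), ?_⟩
  filter_upwards [eventually_ge_atTop d] with X hX
  have h1 : ∑ p ∈ d.primeFactors, (a p - b p) =
      ∑ p ∈ (Finset.Icc 1 X).filter Nat.Prime, (a p - b p) := by
    refine Finset.sum_subset (fun p hp => ?_) fun p hp hp' => ?_
    · obtain ⟨h2, h3, h4⟩ := Nat.mem_primeFactors.mp hp
      exact Finset.mem_filter.mpr ⟨Finset.mem_Icc.mpr ⟨h2.one_le,
        (Nat.le_of_dvd (Nat.pos_of_ne_zero h4) h3).trans hX⟩, h2⟩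
    · have h2 := (Finset.mem_filter.mp hp).2
      rw [h p h2 fun h3 => hp' (Nat.mem_primeFactors.mpr ⟨h2, h3, hd⟩), sub_self]
  rw [h1, Finset.sum_sub_distrib]
  ring

/-- the indicator function of the completely split primes -/
def spl (K : Type*) [Field K] [NumberField K] (p : Nat.Primes) (_ : ℕ) : ℝ :=
  if SplitsIn K p then 1 else 0

theorem spl_nonneg (p : Nat.Primes) (k : ℕ) : 0 ≤ spl K p k := by
  unfold spl
  split_ifs <;> norm_num

theorem spl_le_one (p : Nat.Primes) (k : ℕ) : spl K p k ≤ 1 := by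
  unfold spl
  split_ifs <;> norm_num

theorem cnt_spl (X : ℕ) : isCount_primes.cnt (spl K) X =
    Nat.card {p : ℕ // p.Prime ∧ p ≤ X ∧ SplitsIn K p} := by
  have h1 := sum_F_primes (fun p => SplitsIn K p) (fun _ => 1) X
  have h2 : isCount_primes.cnt (spl K) X =
      ∑ i ∈ (isCount_primes.F X).filter (fun i : Nat.Primes => SplitsIn K i), (1 : ℝ) := by
    rw [IsCount.cnt, Finset.sum_filter]
    rfl
  rw [h2, h1, Finset.sum_const, nsmul_eq_mul, mul_one, ← Nat.card_eq_finsetCard]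
  congr 1
  refine Nat.card_congr (Equiv.subtypeEquivRight fun p => ?_)
  rw [Finset.mem_filter, Finset.mem_Icc]
  constructor
  · rintro ⟨⟨h3, h4⟩, h5, h6⟩
    exact ⟨h5, h4, h6⟩
  · rintro ⟨h3, h4, h5⟩
    exact ⟨⟨h3.one_le, h4⟩, h3, h5⟩

/-- `∑_{p ≤ x} nm(p) log p ~ x / n` -/
theorem tendsto_theta_nm [IsGalois ℚ K] : Tendsto (fun x : ℕ =>
    (∑ p ∈ (Finset.Ioc 0 x).filter Nat.Prime, nm K p * Real.log p) / x) atTop
      (𝓝 (1 / Module.finrank ℚ K)) := by
  have h1 := split_density K (prime_ideal_theorem K)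
  have h2 : Tendsto (fun X : ℕ => isCount_primes.cnt (spl K) X / (X * Real.log X ^ (-1 : ℝ))) atTop
      (𝓝 (1 / Module.finrank ℚ K)) := by
    refine h1.congr' ?_
    filter_upwards [eventually_gt_atTop 1] with X hX
    have hX0 : (0 : ℝ) < X := by exact_mod_cast (by omega : 0 < X)
    have hl : 0 < Real.log X := Real.log_pos (by exact_mod_cast hX)
    rw [cnt_spl, Real.rpow_neg_one]
    field_simp
  have h3 : Tendsto (fun x : ℝ => isCount_primes.cnt (spl K) ⌊x⌋₊ * Real.log x / x) atTop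
      (𝓝 (1 / Module.finrank ℚ K)) := by
    refine (tendsto_real_of_nat h2).congr' ?_
    filter_upwards [eventually_gt_atTop 1] with x hx
    have hl := Real.log_pos hx
    rw [Real.rpow_neg_one]
    field_simp
  have h4 := (tendsto_th_of_cnt spl_nonneg spl_le_one h3).comp
    (tendsto_natCast_atTop_atTop (R := ℝ))
  obtain ⟨e, he⟩ := tendsto_sum_sub (a := fun p => nm K p * Real.log p)
    (b := fun p => (if SplitsIn K p then 1 else 0) * Real.log p)
    (show (discr K).natAbs ≠ 0 by simpa using discr_ne_zero K)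
    fun p hp hd => by simp only [nm_prime hp hd]
  have h5 : Tendsto (fun x : ℕ => e / (x : ℝ)) atTop (𝓝 0) :=
    tendsto_const_nhds.div_atTop tendsto_natCast_atTop_atTop
  have h6 := h4.add h5
  rw [add_zero] at h6
  refine h6.congr' ?_
  filter_upwards [he] with X hX
  simp only [Function.comp_apply, Nat.floor_natCast]
  have h7 := sum_F_primes (fun _ => True)
    (fun p => (if SplitsIn K p then 1 else 0) * Real.log p) X
  simp only [Finset.filter_true, and_true] at h7
  rw [show (Finset.Ioc 0 X).filter Nat.Prime = (Finset.Icc 1 X).filter Nat.Prime from rfl, hX,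
    ← h7, add_div]
  rfl

/-- `∑_{p ≤ x} nm(p) / p = (1 / n) log log x + B + o(1)` -/
theorem exists_mertens_nm [IsGalois ℚ K] : ∃ B : ℝ, Tendsto (fun X : ℕ =>
    (∑ p ∈ (Finset.Icc 1 X).filter Nat.Prime, nm K p * (p : ℝ)⁻¹) -
      1 / Module.finrank ℚ K * Real.log (Real.log X)) atTop (𝓝 B) := by
  obtain ⟨D, h⟩ := exists_isCount K
  have hn : (0 : ℝ) < Module.finrank ℚ K := by exact_mod_cast Module.finrank_pos
  have h1 := (tendsto_of_mul_log (mertens_second (K := K))).comp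
    (tendsto_natCast_atTop_atTop (R := ℝ))
  -- the prime ideals of degree at least two
  have h2 := (summable_deg_two (K := K)).hasSum.comp h.tendsto_F
  obtain ⟨e, he⟩ := tendsto_sum_sub (a := fun p => (Cor.degOne K p : ℝ) * (p : ℝ)⁻¹)
    (b := fun p => Module.finrank ℚ K * (nm K p * (p : ℝ)⁻¹))
    (show (discr K).natAbs ≠ 0 by simpa using discr_ne_zero K)
    fun p hp hd => by
      simp only [degOne_eq_nm hp hd]
      ring
  refine ⟨_, (((h1.sub h2).sub_const e).const_mul (1 / (Module.finrank ℚ K : ℝ))).congr' ?_⟩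
  filter_upwards [he] with X hX
  have h3 : ∑ v ∈ placesLe K (X : ℝ), (absNorm v.asIdeal : ℝ)⁻¹ = ∑ P ∈ h.F X, (nP P : ℝ)⁻¹ := by
    have := sum_placesLe h (fun P => (nP P : ℝ)⁻¹) (X : ℝ)
    rw [Nat.floor_natCast] at this
    exact this
  have h4 : ∑ P ∈ h.F X, Set.indicator {P : Pr K | ¬ (absNorm (P.1 : Ideal (𝓞 K))).Prime}
      (fun P => ((absNorm (P.1 : Ideal (𝓞 K)) : ℕ) : ℝ)⁻¹) P =
      ∑ P ∈ (h.F X).filter (fun P => ¬ (nP P).Prime), (nP P : ℝ)⁻¹ := by
    rw [Finset.sum_filter]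
    refine Finset.sum_congr rfl fun P _ => ?_
    by_cases hP : (nP P).Prime
    · rw [if_neg (not_not.mpr hP), Set.indicator_of_notMem]
      exact fun h => h hP
    · rw [if_pos hP, Set.indicator_of_mem (show P ∈ {P : Pr K |
        ¬ (absNorm (P.1 : Ideal (𝓞 K))).Prime} from hP)]
      rfl
  have h5 : ∑ P ∈ (h.F X).filter (fun P => (nP P).Prime), (nP P : ℝ)⁻¹ =
      ∑ p ∈ (Finset.Icc 1 X).filter Nat.Prime, (Cor.degOne K p : ℝ) * (p : ℝ)⁻¹ := by
    rw [← Finset.sum_fiberwise_of_maps_to (s := (h.F X).filter fun P => (nP P).Prime)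
      (t := (Finset.Icc 1 X).filter Nat.Prime) (g := fun P => nP P)]
    · refine Finset.sum_congr rfl fun p hp => ?_
      obtain ⟨hp1, hp2⟩ := Finset.mem_filter.mp hp
      rw [← Cheb.card_nP_eq hp2 (Finset.mem_Icc.mp hp1).2, ← nsmul_eq_mul, ← Finset.sum_const]
      refine Finset.sum_congr ?_ fun P hP => ?_
      · ext P
        simp only [Finset.mem_filter, h.mem_F, Cheb.mem_Ex]
        constructor
        · rintro ⟨⟨h6, _⟩, h7⟩
          exact ⟨h6, h7⟩
        · rintro ⟨h6, h7⟩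
          exact ⟨⟨h6, by rw [h7]; exact hp2⟩, h7⟩
      · rw [(Finset.mem_filter.mp hP).2]
    · intro P hP
      obtain ⟨h6, h7⟩ := Finset.mem_filter.mp hP
      exact Finset.mem_filter.mpr ⟨Finset.mem_Icc.mpr ⟨h7.one_le, h.mem_F.mp h6⟩, h7⟩
  have h6 := Finset.sum_filter_add_sum_filter_not (h.F X) (fun P => (nP P).Prime)
    (fun P => (nP P : ℝ)⁻¹)
  have h7 : ∑ p ∈ (Finset.Icc 1 X).filter Nat.Prime,
      (Module.finrank ℚ K : ℝ) * (nm K p * (p : ℝ)⁻¹) =
      Module.finrank ℚ K * ∑ p ∈ (Finset.Icc 1 X).filter Nat.Prime, nm K p * (p : ℝ)⁻¹ := by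
    rw [Finset.mul_sum]
  simp only [Function.comp_apply]
  rw [h3, h4, ← h6, h5, hX, h7]
  field_simp
  ring

/-- `∑_{m ≤ x} nm(m)` -/
theorem sum_nm (X : ℕ) : ∑ m ∈ Finset.Icc 1 X, nm K m =
    Nat.card {m : ℕ // m ∈ Finset.Icc 1 X ∧ ∃ I : Ideal (𝓞 K), absNorm I = m} := by
  have h1 : ∑ m ∈ Finset.Icc 1 X, nm K m = (((Finset.Icc 1 X).filter (IsNm K)).card : ℝ) := by
    unfold nm
    rw [Finset.sum_boole]
  rw [h1, ← Nat.card_eq_finsetCard]
  congr 1
  refine Nat.card_congr (Equiv.subtypeEquivRight fun n => ?_)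
  rw [Finset.mem_filter, Finset.mem_Icc, IsNm]
  constructor
  · rintro ⟨h2, _, h4⟩
    exact ⟨h2, h4⟩
  · rintro ⟨h2, h4⟩
    exact ⟨h2, by omega, h4⟩

variable (K) in
/-- **The norms of the integral ideals of a Galois number field** of degree `n`: the number of the
norms `m ≤ x` is `~ C x (log x) ^ (1 / n - 1)`, `C > 0`. -/
theorem card_norms [IsGalois ℚ K] : ∃ C : ℝ, 0 < C ∧ Tendsto (fun x : ℝ =>
    (Nat.card {m : ℕ // m ∈ Finset.Icc 1 ⌊x⌋₊ ∧ ∃ I : Ideal (𝓞 K), absNorm I = m} : ℝ) /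
      (x * Real.log x ^ ((1 : ℝ) / Module.finrank ℚ K - 1))) atTop (𝓝 C) := by
  obtain ⟨B, hB⟩ := exists_mertens_nm (K := K)
  have hn : (0 : ℝ) < Module.finrank ℚ K := by exact_mod_cast Module.finrank_pos
  obtain ⟨C, hC0, hC⟩ := wirsing_const (f := nm K) nm_nonneg nm_le_one nm_one nm_mul
    (one_div_pos.mpr hn) tendsto_theta_nm hB
  refine ⟨C, hC0, hC.congr fun x => ?_⟩
  rw [sum_nm]

end Fermat.Agent.Cor.LR

end
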