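import Fermat.Agent.Corollaries.LR.Sets

/-!
# The constant in Wirsing's theorem

If moreover `∑_{p ≤ x} f(p) / p - τ log log x` converges, then
`∑_{n ≤ x} f(n) ~ C x (log x) ^ (τ - 1)` with `C > 0`.
-/

set_option autoImplicit false

open Filter Topology

namespace Fermat.Agent.Cor.LR

open Mert

variable {f : ℕ → ℝ} {τ : ℝ}

namespace MulF

variable (D : MulF f τ)

include D in
theorem pP_eq_exp (X : ℕ) : pP f X =
    Real.exp (∑ p ∈ isCount_primes.F X, f p * ((p : ℕ) : ℝ)⁻¹ +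
      ∑ p ∈ isCount_primes.F X, rr f 0 p) := by
  rw [← pP_eq, ← Finset.sum_add_distrib, Real.exp_sum]
  refine Finset.prod_congr rfl fun p _ => ?_
  have h3 := D.one_le_ef p (zz_nonneg 0 p) (zz_le_half le_rfl p)
  rw [rr, zz_zero] at *
  rw [add_sub_cancel, Real.exp_log (by linarith)]

include D in
theorem exists_const {B : ℝ} (hB : Tendsto (fun X : ℕ =>
    (∑ p ∈ (Finset.Icc 1 X).filter Nat.Prime, f p * (p : ℝ)⁻¹) - τ * Real.log (Real.log X))
      atTop (𝓝 B)) :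
    ∃ C : ℝ, 0 < C ∧ Tendsto (fun x : ℝ => (∑ n ∈ Finset.Icc 1 ⌊x⌋₊, f n) /
      (x * Real.log x ^ (τ - 1))) atTop (𝓝 C) := by
  have h1 : Tendsto (fun X : ℕ => ∑ p ∈ isCount_primes.F X, rr f 0 p) atTop
      (𝓝 (∑' p, rr f 0 p)) := (D.summable_rr le_rfl).hasSum.comp isCount_primes.tendsto_F
  have h2 : Tendsto (fun X : ℕ => pP f X / Real.log X ^ τ) atTop
      (𝓝 (Real.exp (B + ∑' p, rr f 0 p))) := by
    refine ((Real.continuous_exp.tendsto _).comp (hB.add h1)).congr' ?_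
    filter_upwards [eventually_gt_atTop 1] with X hX
    have hl : 0 < Real.log X := Real.log_pos (by exact_mod_cast hX)
    have h3 := sum_F_primes (fun _ => True) (fun p => f p * (p : ℝ)⁻¹) X
    simp only [Finset.filter_true, and_true] at h3
    rw [Function.comp_apply, D.pP_eq_exp, h3, Real.rpow_def_of_pos hl, ← Real.exp_sub]
    congr 1
    ring
  have hG := Real.Gamma_pos_of_pos D.pos
  refine ⟨Real.exp (-(τ * Real.eulerMascheroniConstant)) / Real.Gamma τ *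
    Real.exp (B + ∑' p, rr f 0 p), by positivity, ?_⟩
  have h3 : Tendsto (fun X : ℕ => sM f X / (X * Real.log X ^ (τ - 1))) atTop
      (𝓝 (Real.exp (-(τ * Real.eulerMascheroniConstant)) / Real.Gamma τ *
        Real.exp (B + ∑' p, rr f 0 p))) := by
    refine (D.tendsto_nat.mul h2).congr' ?_
    filter_upwards [eventually_gt_atTop 1] with X hX
    have hX0 : (0 : ℝ) < X := by exact_mod_cast (by omega : 0 < X)
    have hl : 0 < Real.log X := Real.log_pos (by exact_mod_cast hX)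
    have := (D.pP_pos X).ne'
    have := (Real.rpow_pos_of_pos hl τ).ne'
    rw [Real.rpow_sub_one hl.ne']
    field_simp
  exact tendsto_real_of_nat h3

end MulF

/-- **Wirsing's theorem with a power of the logarithm**: if moreover
`∑_{p ≤ x} f(p) / p - τ log log x` converges then `∑_{n ≤ x} f(n) ~ C x (log x) ^ (τ - 1)`,
`C > 0`. -/
theorem wirsing_const (hf0 : ∀ n, 0 ≤ f n) (hf1 : ∀ n, f n ≤ 1) (h1 : f 1 = 1)
    (hmul : ∀ m n : ℕ, m.Coprime n → f (m * n) = f m * f n) (hτ : 0 < τ)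
    (hlim : Tendsto (fun x : ℕ =>
      (∑ p ∈ (Finset.Ioc 0 x).filter Nat.Prime, f p * Real.log p) / x) atTop (𝓝 τ)) {B : ℝ}
    (hB : Tendsto (fun X : ℕ =>
      (∑ p ∈ (Finset.Icc 1 X).filter Nat.Prime, f p * (p : ℝ)⁻¹) - τ * Real.log (Real.log X))
      atTop (𝓝 B)) :
    ∃ C : ℝ, 0 < C ∧ Tendsto (fun x : ℝ => (∑ n ∈ Finset.Icc 1 ⌊x⌋₊, f n) /
      (x * Real.log x ^ (τ - 1))) atTop (𝓝 C) :=
  MulF.exists_const ⟨⟨hf0, hf1, hlim⟩, hτ, h1, hmul⟩ hB

end Fermat.Agent.Cor.LR
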