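import Mathlib

/-!
# Karamata's Tauberian theorem

`b_n ≥ 0`, `δ ^ τ ∑ b_n n ^ (-δ) → C` as `δ → 0+`, `τ > 0`. Then
`∑_{n ≤ x} b_n ~ C (log x) ^ τ / Γ(τ + 1)`.

Karamata's proof: the hypothesis gives the limit of `δ ^ τ ∑ b_n n ^ (-δ) h(n ^ (-δ))` for every
polynomial `h`, so (Weierstrass) for every continuous `h`, and the characteristic function of
`n ≤ e ^ (1 / δ)` is between two such functions.
-/

set_option autoImplicit false

open MeasureTheory Set Filter Topology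

namespace Fermat.Agent.Cor.LR

variable {b : ℕ → ℝ} {τ C : ℝ}

theorem rpow_mem {δ : ℝ} (hδ : 0 < δ) (n : ℕ) : (n : ℝ) ^ (-δ) ∈ Icc (0 : ℝ) 1 := by
  refine ⟨Real.rpow_nonneg (Nat.cast_nonneg n) _, ?_⟩
  rcases Nat.eq_zero_or_pos n with rfl | hn
  · rw [Nat.cast_zero, Real.zero_rpow (by linarith)]
    exact zero_le_one
  · exact Real.rpow_le_one_of_one_le_of_nonpos (by exact_mod_cast hn) (by linarith)

/-- the hypotheses -/
structure KarDat (b : ℕ → ℝ) (τ C : ℝ) : Prop where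
  nonneg : ∀ n, 0 ≤ b n
  pos : 0 < τ
  summable : ∀ δ : ℝ, 0 < δ → Summable fun n : ℕ => b n * (n : ℝ) ^ (-δ)
  lim : Tendsto (fun δ : ℝ => δ ^ τ * ∑' n : ℕ, b n * (n : ℝ) ^ (-δ)) (𝓝[>] 0) (𝓝 C)

/-- the functional for `δ > 0` -/
noncomputable def lamD (b : ℕ → ℝ) (τ : ℝ) (h : ℝ → ℝ) (δ : ℝ) : ℝ :=
  δ ^ τ * ∑' n : ℕ, b n * (n : ℝ) ^ (-δ) * h ((n : ℝ) ^ (-δ))

/-- the limit functional -/
noncomputable def lamL (τ C : ℝ) (h : ℝ → ℝ) : ℝ :=
  C / Real.Gamma τ * ∫ t in Ioi (0 : ℝ), Real.exp (-t) * t ^ (τ - 1) * h (Real.exp (-t))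

theorem exists_bound {h : ℝ → ℝ} (hh : Continuous h) : ∃ B, ∀ y ∈ Icc (0 : ℝ) 1, |h y| ≤ B := by
  obtain ⟨B, hB⟩ := isCompact_Icc.exists_bound_of_continuousOn (hh.continuousOn (s := Icc 0 1))
  exact ⟨B, hB⟩

theorem exp_mem {t : ℝ} (ht : 0 < t) : Real.exp (-t) ∈ Icc (0 : ℝ) 1 :=
  ⟨(Real.exp_pos _).le, Real.exp_le_one_iff.mpr (by linarith)⟩

theorem integrable_weight (hτ : 0 < τ) {h : ℝ → ℝ} (hh : Continuous h) :
    IntegrableOn (fun t : ℝ => Real.exp (-t) * t ^ (τ - 1) * h (Real.exp (-t))) (Ioi 0) := by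
  obtain ⟨B, hB⟩ := exists_bound hh
  have h1 := Real.GammaIntegral_convergent hτ
  refine (h1.mul_const B).mono' ?_ ?_
  · have h2 : Measurable fun t : ℝ => Real.exp (-t) * t ^ (τ - 1) := by fun_prop
    have h3 : Measurable fun t : ℝ => h (Real.exp (-t)) := hh.measurable.comp (by fun_prop)
    exact (h2.mul h3).aestronglyMeasurable
  · filter_upwards [ae_restrict_mem measurableSet_Ioi] with t ht
    have ht : 0 < t := ht
    rw [norm_mul, Real.norm_of_nonneg (by positivity)]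
    exact mul_le_mul_of_nonneg_left (hB _ (exp_mem ht)) (by positivity)

theorem integral_weight (hτ : 0 < τ) :
    ∫ t in Ioi (0 : ℝ), Real.exp (-t) * t ^ (τ - 1) = Real.Gamma τ :=
  (Real.Gamma_eq_integral hτ).symm

namespace KarDat

variable (D : KarDat b τ C)

include D in
theorem C_nonneg : 0 ≤ C := by
  refine ge_of_tendsto D.lim ?_
  filter_upwards [self_mem_nhdsWithin] with δ hδ
  have hδ : 0 < δ := hδ
  refine mul_nonneg (by positivity) (tsum_nonneg fun n => mul_nonneg (D.nonneg n) ?_)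
  exact (rpow_mem hδ n).1

include D in
theorem summable_mul {h : ℝ → ℝ} (hh : Continuous h) {δ : ℝ} (hδ : 0 < δ) :
    Summable fun n : ℕ => b n * (n : ℝ) ^ (-δ) * h ((n : ℝ) ^ (-δ)) := by
  obtain ⟨B, hB⟩ := exists_bound hh
  refine ((D.summable δ hδ).mul_right B).of_norm_bounded fun n => ?_
  have h1 := rpow_mem hδ n
  rw [norm_mul, Real.norm_of_nonneg (mul_nonneg (D.nonneg n) h1.1)]
  exact mul_le_mul_of_nonneg_left (hB _ h1) (mul_nonneg (D.nonneg n) h1.1)

include D in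
/-- powers of `y` -/
theorem tendsto_pow (k : ℕ) :
    Tendsto (lamD b τ fun y => y ^ k) (𝓝[>] 0) (𝓝 (lamL τ C fun y => y ^ k)) := by
  have hτ := D.pos
  have hk : (0 : ℝ) < k + 1 := by positivity
  have h1 : lamL τ C (fun y => y ^ k) = ((k : ℝ) + 1) ^ (-τ) * C := by
    have h2 : ∫ t in Ioi (0 : ℝ), Real.exp (-t) * t ^ (τ - 1) * Real.exp (-t) ^ k =
        (1 / ((k : ℝ) + 1)) ^ τ * Real.Gamma τ := by
      rw [← Real.integral_rpow_mul_exp_neg_mul_Ioi hτ hk]
      congr 1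
      ext t
      rw [← Real.exp_nat_mul, mul_comm (Real.exp (-t)), mul_assoc, ← Real.exp_add]
      congr 2
      ring
    rw [lamL, h2, one_div, Real.inv_rpow hk.le, ← Real.rpow_neg hk.le]
    have := (Real.Gamma_pos_of_pos hτ).ne'
    field_simp
  rw [h1]
  have h2 : Tendsto (fun δ : ℝ => ((k : ℝ) + 1) * δ) (𝓝[>] 0) (𝓝[>] 0) := by
    refine tendsto_nhdsWithin_iff.mpr ⟨?_, ?_⟩
    · have h3 : Continuous fun δ : ℝ => ((k : ℝ) + 1) * δ := by fun_prop
      have h4 := (h3.tendsto 0).mono_left (nhdsWithin_le_nhds (s := Ioi 0))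
      simpa only [mul_zero] using h4
    · filter_upwards [self_mem_nhdsWithin] with δ hδ
      have hδ : 0 < δ := hδ
      exact mul_pos hk hδ
  refine ((D.lim.comp h2).const_mul (((k : ℝ) + 1) ^ (-τ))).congr' ?_
  filter_upwards [self_mem_nhdsWithin] with δ hδ
  have hδ : 0 < δ := hδ
  simp only [Function.comp_apply, lamD]
  rw [Real.mul_rpow hk.le hδ.le, ← mul_assoc, ← mul_assoc, ← Real.rpow_add hk, neg_add_cancel,
    Real.rpow_zero, one_mul]
  congr 2
  ext n
  rcases Nat.eq_zero_or_pos n with rfl | hn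
  · rw [Nat.cast_zero, Real.zero_rpow (by nlinarith), Real.zero_rpow (by linarith)]
    ring
  · have hn' : (0 : ℝ) < n := by exact_mod_cast hn
    rw [mul_assoc (b n), ← Real.rpow_natCast, ← Real.rpow_mul hn'.le, ← Real.rpow_add hn']
    congr 2
    ring

include D in
theorem tendsto_add {h₁ h₂ : ℝ → ℝ} (hc₁ : Continuous h₁) (hc₂ : Continuous h₂)
    (H₁ : Tendsto (lamD b τ h₁) (𝓝[>] 0) (𝓝 (lamL τ C h₁)))
    (H₂ : Tendsto (lamD b τ h₂) (𝓝[>] 0) (𝓝 (lamL τ C h₂))) :
    Tendsto (lamD b τ fun y => h₁ y + h₂ y) (𝓝[>] 0) (𝓝 (lamL τ C fun y => h₁ y + h₂ y)) := by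
  have h1 : lamL τ C (fun y => h₁ y + h₂ y) = lamL τ C h₁ + lamL τ C h₂ := by
    rw [lamL, lamL, lamL, ← mul_add, ← integral_add (integrable_weight D.pos hc₁)
      (integrable_weight D.pos hc₂)]
    congr 2
    ext t
    ring
  rw [h1]
  refine (H₁.add H₂).congr' ?_
  filter_upwards [self_mem_nhdsWithin] with δ hδ
  have hδ : 0 < δ := hδ
  rw [lamD, lamD, lamD, ← mul_add, ← (D.summable_mul hc₁ hδ).tsum_add (D.summable_mul hc₂ hδ)]
  congr 2
  ext n
  ring

theorem tendsto_const_mul (c : ℝ) {h : ℝ → ℝ}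
    (H : Tendsto (lamD b τ h) (𝓝[>] 0) (𝓝 (lamL τ C h))) :
    Tendsto (lamD b τ fun y => c * h y) (𝓝[>] 0) (𝓝 (lamL τ C fun y => c * h y)) := by
  have h1 : lamL τ C (fun y => c * h y) = c * lamL τ C h := by
    rw [lamL, lamL, mul_left_comm, ← integral_const_mul c]
    congr 1
    exact setIntegral_congr_fun measurableSet_Ioi fun t _ => by ring
  rw [h1]
  refine (H.const_mul c).congr fun δ => ?_
  rw [lamD, lamD, mul_left_comm, ← tsum_mul_left]
  congr 2
  ext n
  ring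

include D in
/-- polynomials -/
theorem tendsto_poly (p : Polynomial ℝ) :
    Tendsto (lamD b τ fun y => p.eval y) (𝓝[>] 0) (𝓝 (lamL τ C fun y => p.eval y)) := by
  induction p using Polynomial.induction_on' with
  | add p q hp hq =>
    have := D.tendsto_add p.continuous q.continuous hp hq
    simpa only [Polynomial.eval_add] using this
  | monomial k c =>
    have := tendsto_const_mul c (D.tendsto_pow k)
    simpa only [Polynomial.eval_monomial] using this

theorem lamL_one : lamL τ C (fun _ => 1) = C ∨ τ ≤ 0 := by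
  rcases le_or_gt τ 0 with h | h
  · exact Or.inr h
  · left
    rw [lamL]
    simp only [mul_one]
    rw [integral_weight h]
    exact div_mul_cancel₀ _ (Real.Gamma_pos_of_pos h).ne'

include D in
/-- continuous functions -/
theorem tendsto_of_continuous {h : ℝ → ℝ} (hh : Continuous h) :
    Tendsto (lamD b τ h) (𝓝[>] 0) (𝓝 (lamL τ C h)) := by
  have hτ := D.pos
  have hC := D.C_nonneg
  have hG := Real.Gamma_pos_of_pos hτ
  rw [Metric.tendsto_nhds]
  intro ε hε
  obtain ⟨p, hp⟩ := exists_polynomial_near_of_continuousOn 0 1 h hh.continuousOn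
    (ε / (3 * (C + 1))) (by positivity)
  set η := ε / (3 * (C + 1)) with hη
  have hη0 : 0 < η := by positivity
  have hηC : η * (C + 1) = ε / 3 := by
    rw [hη]
    field_simp
  have h1 := (Metric.tendsto_nhds.mp (D.tendsto_poly p)) (ε / 3) (by positivity)
  have h2 := D.lim.eventually (Iio_mem_nhds (lt_add_one C))
  -- the limit functional
  have h3 : |lamL τ C (fun y => p.eval y) - lamL τ C h| ≤ η * C := by
    rw [lamL, lamL, ← mul_sub, ← integral_sub (integrable_weight hτ p.continuous)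
      (integrable_weight hτ hh), abs_mul, abs_of_nonneg (by positivity)]
    have h4 : ‖∫ t in Ioi (0 : ℝ), (Real.exp (-t) * t ^ (τ - 1) * p.eval (Real.exp (-t)) -
        Real.exp (-t) * t ^ (τ - 1) * h (Real.exp (-t)))‖ ≤
        ∫ t in Ioi (0 : ℝ), Real.exp (-t) * t ^ (τ - 1) * η := by
      refine norm_integral_le_of_norm_le ((Real.GammaIntegral_convergent hτ).mul_const η) ?_
      filter_upwards [ae_restrict_mem measurableSet_Ioi] with t ht
      have ht : 0 < t := ht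
      rw [← mul_sub, norm_mul, Real.norm_of_nonneg (by positivity)]
      exact mul_le_mul_of_nonneg_left (hp _ (exp_mem ht)).le (by positivity)
    rw [integral_mul_const, integral_weight hτ, Real.norm_eq_abs] at h4
    calc C / Real.Gamma τ * _ ≤ C / Real.Gamma τ * (Real.Gamma τ * η) := by gcongr
      _ = η * C := by
        field_simp
  filter_upwards [h1, h2, self_mem_nhdsWithin] with δ h1 h2 hδ
  have hδ : 0 < δ := hδ
  have h2 : δ ^ τ * ∑' n : ℕ, b n * (n : ℝ) ^ (-δ) < C + 1 := h2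
  have hδτ : 0 < δ ^ τ := Real.rpow_pos_of_pos hδ τ
  have h4 : |lamD b τ h δ - lamD b τ (fun y => p.eval y) δ| ≤ η * (C + 1) := by
    rw [lamD, lamD, ← mul_sub, ← (D.summable_mul hh hδ).tsum_sub (D.summable_mul p.continuous hδ),
      abs_mul, abs_of_pos hδτ]
    have h5 : ‖∑' n : ℕ, (b n * (n : ℝ) ^ (-δ) * h ((n : ℝ) ^ (-δ)) -
        b n * (n : ℝ) ^ (-δ) * p.eval ((n : ℝ) ^ (-δ)))‖ ≤
        ∑' n : ℕ, b n * (n : ℝ) ^ (-δ) * η := by
      refine tsum_of_norm_bounded ((D.summable δ hδ).mul_right η).hasSum fun n => ?_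
      have h6 := rpow_mem hδ n
      rw [← mul_sub, norm_mul, Real.norm_of_nonneg (mul_nonneg (D.nonneg n) h6.1),
        Real.norm_eq_abs, abs_sub_comm]
      exact mul_le_mul_of_nonneg_left (hp _ h6).le (mul_nonneg (D.nonneg n) h6.1)
    rw [tsum_mul_right, Real.norm_eq_abs] at h5
    calc δ ^ τ * _ ≤ δ ^ τ * ((∑' n : ℕ, b n * (n : ℝ) ^ (-δ)) * η) := by gcongr
      _ = η * (δ ^ τ * ∑' n : ℕ, b n * (n : ℝ) ^ (-δ)) := by ring
      _ ≤ η * (C + 1) := by gcongr
  rw [Real.dist_eq] at h1 ⊢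
  have h5 : |lamD b τ h δ - lamL τ C h| ≤ |lamD b τ h δ - lamD b τ (fun y => p.eval y) δ| +
      |lamD b τ (fun y => p.eval y) δ - lamL τ C (fun y => p.eval y)| +
      |lamL τ C (fun y => p.eval y) - lamL τ C h| := by
    have e : lamD b τ h δ - lamL τ C h = (lamD b τ h δ - lamD b τ (fun y => p.eval y) δ) +
      (lamD b τ (fun y => p.eval y) δ - lamL τ C (fun y => p.eval y)) +
      (lamL τ C (fun y => p.eval y) - lamL τ C h) := by ring
    rw [e]
    exact abs_add_three _ _ _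
  have h6 : η * C ≤ ε / 3 := by nlinarith
  linarith

end KarDat

/-! ### The cut-off functions -/

/-- `1` for `t ≤ s - η`, `0` for `s ≤ t`, linear in between -/
noncomputable def cut (s η t : ℝ) : ℝ := max 0 (min 1 ((s - t) / η))

theorem cut_nonneg (s η t : ℝ) : 0 ≤ cut s η t := le_max_left _ _

theorem cut_le_one (s η t : ℝ) : cut s η t ≤ 1 := max_le zero_le_one (min_le_left _ _)

theorem cut_of_le {s η t : ℝ} (hη : 0 < η) (h : t ≤ s - η) : cut s η t = 1 := by
  have h1 : 1 ≤ (s - t) / η := by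
    rw [le_div_iff₀ hη]
    linarith
  rw [cut, min_eq_left h1, max_eq_right zero_le_one]

theorem cut_of_ge {s η t : ℝ} (hη : 0 < η) (h : s ≤ t) : cut s η t = 0 := by
  have h1 : (s - t) / η ≤ 0 := div_nonpos_of_nonpos_of_nonneg (by linarith) hη.le
  rw [cut, max_eq_left ((min_le_right _ _).trans h1)]

/-- the function `h` with `y h(y) = cut (-log y)` -/
noncomputable def hcut (s η y : ℝ) : ℝ :=
  cut s η (-Real.log (max y (Real.exp (-3)))) / max y (Real.exp (-3))

theorem continuous_hcut (s η : ℝ) : Continuous (hcut s η) := by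
  have h1 : ∀ y : ℝ, max y (Real.exp (-3)) ≠ 0 := fun y =>
    (lt_of_lt_of_le (Real.exp_pos _) (le_max_right _ _)).ne'
  have h2 : Continuous fun y : ℝ => max y (Real.exp (-3)) := by fun_prop
  refine Continuous.div ?_ h2 h1
  have h3 : Continuous (cut s η) := by
    unfold cut
    fun_prop
  exact h3.comp (h2.log h1).neg

theorem mul_hcut {s η t : ℝ} (hη : 0 < η) (hs : s ≤ 3) :
    Real.exp (-t) * hcut s η (Real.exp (-t)) = cut s η t := by
  unfold hcut
  rcases le_total t 3 with h | h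
  · have h1 : max (Real.exp (-t)) (Real.exp (-3)) = Real.exp (-t) :=
      max_eq_left (Real.exp_le_exp.mpr (by linarith))
    rw [h1, Real.log_exp, neg_neg, mul_div_cancel₀]
    exact (Real.exp_pos _).ne'
  · have h1 : max (Real.exp (-t)) (Real.exp (-3)) = Real.exp (-3) :=
      max_eq_right (Real.exp_le_exp.mpr (by linarith))
    rw [h1, Real.log_exp, neg_neg, cut_of_ge hη hs, cut_of_ge hη (hs.trans h), zero_div, mul_zero]

theorem lamL_hcut_le {s η : ℝ} (hτ : 0 < τ) (hC : 0 ≤ C) (hη : 0 < η) (hs0 : 0 ≤ s)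
    (hs : s ≤ 3) : lamL τ C (hcut s η) ≤ C / Real.Gamma (τ + 1) * s ^ τ := by
  have hG := Real.Gamma_pos_of_pos hτ
  have h1 : ∫ t in Ioi (0 : ℝ), Real.exp (-t) * t ^ (τ - 1) * hcut s η (Real.exp (-t)) ≤
      s ^ τ / τ := by
    have h2 : ∫ t in Ioi (0 : ℝ), (Iic s).indicator (fun t => t ^ (τ - 1)) t = s ^ τ / τ := by
      rw [setIntegral_indicator measurableSet_Iic, Ioi_inter_Iic,
        ← intervalIntegral.integral_of_le hs0, integral_rpow (Or.inl (by linarith)),
        sub_add_cancel, Real.zero_rpow hτ.ne', sub_zero]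
    have hI : IntegrableOn ((Iic s).indicator fun t : ℝ => t ^ (τ - 1)) (Ioi 0) := by
      rw [integrableOn_indicator_iff measurableSet_Iic, Iic_inter_Ioi]
      exact (intervalIntegrable_iff_integrableOn_Ioc_of_le hs0).mp
        (intervalIntegral.intervalIntegrable_rpow' (by linarith))
    rw [← h2]
    refine setIntegral_mono_on (integrable_weight hτ (continuous_hcut s η)) hI measurableSet_Ioi
      fun t ht => ?_
    have ht : 0 < t := ht
    have h3 : Real.exp (-t) * t ^ (τ - 1) * hcut s η (Real.exp (-t)) =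
        t ^ (τ - 1) * cut s η t := by
      rw [← mul_hcut hη hs]
      ring
    rw [h3]
    rcases le_or_gt t s with h | h
    · rw [indicator_of_mem (show t ∈ Iic s from h)]
      exact mul_le_of_le_one_right (by positivity) (cut_le_one _ _ _)
    · rw [indicator_of_notMem (show t ∉ Iic s from not_le.mpr h), cut_of_ge hη h.le, mul_zero]
  rw [lamL, Real.Gamma_add_one hτ.ne']
  calc C / Real.Gamma τ * _ ≤ C / Real.Gamma τ * (s ^ τ / τ) := by gcongr
    _ = C / (τ * Real.Gamma τ) * s ^ τ := by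
      field_simp

theorem le_lamL_hcut {s η : ℝ} (hτ : 0 < τ) (hC : 0 ≤ C) (hη : 0 < η) (hs0 : 0 ≤ s - η)
    (hs : s ≤ 3) : C / Real.Gamma (τ + 1) * (s - η) ^ τ ≤ lamL τ C (hcut s η) := by
  have hG := Real.Gamma_pos_of_pos hτ
  have h1 : (s - η) ^ τ / τ ≤
      ∫ t in Ioi (0 : ℝ), Real.exp (-t) * t ^ (τ - 1) * hcut s η (Real.exp (-t)) := by
    have h2 : ∫ t in Ioi (0 : ℝ), (Iic (s - η)).indicator (fun t => t ^ (τ - 1)) t =
        (s - η) ^ τ / τ := by
      rw [setIntegral_indicator measurableSet_Iic, Ioi_inter_Iic,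
        ← intervalIntegral.integral_of_le hs0, integral_rpow (Or.inl (by linarith)),
        sub_add_cancel, Real.zero_rpow hτ.ne', sub_zero]
    have hI : IntegrableOn ((Iic (s - η)).indicator fun t : ℝ => t ^ (τ - 1)) (Ioi 0) := by
      rw [integrableOn_indicator_iff measurableSet_Iic, Iic_inter_Ioi]
      exact (intervalIntegrable_iff_integrableOn_Ioc_of_le hs0).mp
        (intervalIntegral.intervalIntegrable_rpow' (by linarith))
    rw [← h2]
    refine setIntegral_mono_on hI (integrable_weight hτ (continuous_hcut s η)) measurableSet_Ioi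
      fun t ht => ?_
    have ht : 0 < t := ht
    have h3 : Real.exp (-t) * t ^ (τ - 1) * hcut s η (Real.exp (-t)) =
        t ^ (τ - 1) * cut s η t := by
      rw [← mul_hcut hη hs]
      ring
    rw [h3]
    rcases le_or_gt t (s - η) with h | h
    · rw [indicator_of_mem (show t ∈ Iic (s - η) from h), cut_of_le hη h, mul_one]
    · rw [indicator_of_notMem (show t ∉ Iic (s - η) from not_le.mpr h)]
      exact mul_nonneg (by positivity) (cut_nonneg _ _ _)
  rw [lamL, Real.Gamma_add_one hτ.ne']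
  calc C / (τ * Real.Gamma τ) * (s - η) ^ τ = C / Real.Gamma τ * ((s - η) ^ τ / τ) := by
        field_simp
    _ ≤ C / Real.Gamma τ * _ := by gcongr

namespace KarDat

variable (D : KarDat b τ C)

/-- `n ^ (-δ) h(n ^ (-δ)) = cut (δ log n)` -/
theorem term_hcut {s η δ : ℝ} (hη : 0 < η) (hs : s ≤ 3) {n : ℕ} (hn : 1 ≤ n) :
    b n * (n : ℝ) ^ (-δ) * hcut s η ((n : ℝ) ^ (-δ)) = b n * cut s η (δ * Real.log n) := by
  have hn0 : (0 : ℝ) < n := by exact_mod_cast hn
  have h1 : (n : ℝ) ^ (-δ) = Real.exp (-(δ * Real.log n)) := by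
    rw [Real.rpow_def_of_pos hn0]
    congr 1
    ring
  rw [h1, mul_assoc, mul_hcut hη hs]

include D in
/-- the sum up to `e ^ (1 / δ)`, from above -/
theorem sum_le {η δ : ℝ} (hη : 0 < η) (hη1 : η ≤ 1) (hδ : 0 < δ) :
    δ ^ τ * ∑ n ∈ Finset.Icc 1 ⌊Real.exp (1 / δ)⌋₊, b n ≤ lamD b τ (hcut (1 + η) η) δ := by
  have hδτ : 0 < δ ^ τ := Real.rpow_pos_of_pos hδ τ
  rw [lamD]
  refine mul_le_mul_of_nonneg_left ?_ hδτ.le
  have h1 : ∀ n : ℕ, 0 ≤ b n * (n : ℝ) ^ (-δ) * hcut (1 + η) η ((n : ℝ) ^ (-δ)) := by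
    intro n
    rcases Nat.eq_zero_or_pos n with rfl | hn
    · rw [Nat.cast_zero, Real.zero_rpow (by linarith), mul_zero, zero_mul]
    · rw [term_hcut hη (by linarith) hn]
      exact mul_nonneg (D.nonneg n) (cut_nonneg _ _ _)
  refine le_trans (le_of_eq ?_)
    ((D.summable_mul (continuous_hcut (1 + η) η) hδ).sum_le_tsum
      (Finset.Icc 1 ⌊Real.exp (1 / δ)⌋₊) fun n _ => h1 n)
  refine Finset.sum_congr rfl fun n hn => ?_
  obtain ⟨hn1, hn2⟩ := Finset.mem_Icc.mp hn
  have hn0 : (0 : ℝ) < n := by exact_mod_cast hn1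
  have h2 : Real.log n ≤ 1 / δ := by
    rw [Real.log_le_iff_le_exp hn0]
    exact (Nat.le_floor_iff (Real.exp_pos _).le).mp hn2
  have h3 : δ * Real.log n ≤ 1 := by
    calc δ * Real.log n ≤ δ * (1 / δ) := by gcongr
      _ = 1 := by field_simp
  rw [term_hcut hη (by linarith) hn1, cut_of_le hη (by linarith), mul_one]

include D in
/-- the sum up to `e ^ (1 / δ)`, from below -/
theorem le_sum {η δ : ℝ} (hη : 0 < η) (hδ : 0 < δ) :
    lamD b τ (hcut 1 η) δ ≤ δ ^ τ * ∑ n ∈ Finset.Icc 1 ⌊Real.exp (1 / δ)⌋₊, b n := by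
  have hδτ : 0 < δ ^ τ := Real.rpow_pos_of_pos hδ τ
  rw [lamD]
  refine mul_le_mul_of_nonneg_left ?_ hδτ.le
  have h1 : ∀ n ∉ Finset.Icc 1 ⌊Real.exp (1 / δ)⌋₊,
      b n * (n : ℝ) ^ (-δ) * hcut 1 η ((n : ℝ) ^ (-δ)) = 0 := by
    intro n hn
    rcases Nat.eq_zero_or_pos n with rfl | hn0
    · rw [Nat.cast_zero, Real.zero_rpow (by linarith), mul_zero, zero_mul]
    · have hn' : (0 : ℝ) < n := by exact_mod_cast hn0
      have h2 : ⌊Real.exp (1 / δ)⌋₊ < n := by
        by_contra h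
        exact hn (Finset.mem_Icc.mpr ⟨hn0, not_lt.mp h⟩)
      have h3 : 1 / δ ≤ Real.log n := by
        rw [Real.le_log_iff_exp_le hn']
        exact ((Nat.floor_lt (Real.exp_pos _).le).mp h2).le
      have h4 : 1 ≤ δ * Real.log n := by
        calc 1 = δ * (1 / δ) := by field_simp
          _ ≤ δ * Real.log n := by gcongr
      rw [term_hcut hη (by norm_num) hn0, cut_of_ge hη h4, mul_zero]
  rw [tsum_eq_sum h1]
  refine Finset.sum_le_sum fun n hn => ?_
  rw [term_hcut hη (by norm_num) (Finset.mem_Icc.mp hn).1]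
  exact mul_le_of_le_one_right (D.nonneg n) (cut_le_one _ _ _)

include D in
theorem tendsto_exp : Tendsto (fun δ : ℝ => δ ^ τ *
    ∑ n ∈ Finset.Icc 1 ⌊Real.exp (1 / δ)⌋₊, b n) (𝓝[>] 0) (𝓝 (C / Real.Gamma (τ + 1))) := by
  have hτ := D.pos
  have hC := D.C_nonneg
  set c := C / Real.Gamma (τ + 1) with hc
  have hu : ContinuousAt (fun η : ℝ => c * (1 + η) ^ τ) 0 := by
    refine ContinuousAt.mul continuousAt_const (ContinuousAt.rpow_const (by fun_prop) ?_)
    left
    norm_num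
  have hl : ContinuousAt (fun η : ℝ => c * (1 - η) ^ τ) 0 := by
    refine ContinuousAt.mul continuousAt_const (ContinuousAt.rpow_const (by fun_prop) ?_)
    left
    norm_num
  have hu0 : Tendsto (fun η : ℝ => c * (1 + η) ^ τ) (𝓝[>] 0) (𝓝 c) := by
    have := hu.tendsto.mono_left (nhdsWithin_le_nhds (s := Ioi 0))
    simpa only [add_zero, Real.one_rpow, mul_one] using this
  have hl0 : Tendsto (fun η : ℝ => c * (1 - η) ^ τ) (𝓝[>] 0) (𝓝 c) := by
    have := hl.tendsto.mono_left (nhdsWithin_le_nhds (s := Ioi 0))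
    simpa only [sub_zero, Real.one_rpow, mul_one] using this
  refine tendsto_order.mpr ⟨fun a ha => ?_, fun a ha => ?_⟩
  · obtain ⟨η, h1, h2⟩ := ((hl0.eventually (Ioi_mem_nhds ha)).and
      (Ioc_mem_nhdsGT (zero_lt_one (α := ℝ)))).exists
    have h1 : a < c * (1 - η) ^ τ := h1
    have h3 := D.tendsto_of_continuous (continuous_hcut 1 η)
    have h4 := le_lamL_hcut (C := C) hτ hC h2.1 (by linarith [h2.2] : 0 ≤ 1 - η) (by norm_num)
    filter_upwards [h3.eventually (Ioi_mem_nhds (lt_of_lt_of_le h1 h4)), self_mem_nhdsWithin]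
      with δ h5 hδ
    exact lt_of_lt_of_le h5 (D.le_sum h2.1 hδ)
  · obtain ⟨η, h1, h2⟩ := ((hu0.eventually (Iio_mem_nhds ha)).and
      (Ioc_mem_nhdsGT (zero_lt_one (α := ℝ)))).exists
    have h1 : c * (1 + η) ^ τ < a := h1
    have h3 := D.tendsto_of_continuous (continuous_hcut (1 + η) η)
    have h4 := lamL_hcut_le (C := C) (s := 1 + η) hτ hC h2.1 (by linarith [h2.1])
      (by linarith [h2.2])
    filter_upwards [h3.eventually (Iio_mem_nhds (lt_of_le_of_lt h4 h1)), self_mem_nhdsWithin]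
      with δ h5 hδ
    exact lt_of_le_of_lt (D.sum_le h2.1 h2.2 hδ) h5

end KarDat

/-- **Karamata's Tauberian theorem**: `b_n ≥ 0`, `τ > 0`, `δ ^ τ ∑ b_n n ^ (-δ) → C` as `δ → 0+`;
then `(∑_{n ≤ x} b_n) / (log x) ^ τ → C / Γ(τ + 1)`. -/
theorem karamata (hb : ∀ n, 0 ≤ b n) (hτ : 0 < τ)
    (hs : ∀ δ : ℝ, 0 < δ → Summable fun n : ℕ => b n * (n : ℝ) ^ (-δ))
    (h : Tendsto (fun δ : ℝ => δ ^ τ * ∑' n : ℕ, b n * (n : ℝ) ^ (-δ)) (𝓝[>] 0) (𝓝 C)) :
    Tendsto (fun x : ℝ => (∑ n ∈ Finset.Icc 1 ⌊x⌋₊, b n) / Real.log x ^ τ) atTop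
      (𝓝 (C / Real.Gamma (τ + 1))) := by
  have h1 : Tendsto (fun x : ℝ => (Real.log x)⁻¹) atTop (𝓝[>] 0) :=
    tendsto_inv_atTop_nhdsGT_zero.comp Real.tendsto_log_atTop
  refine ((KarDat.tendsto_exp ⟨hb, hτ, hs, h⟩).comp h1).congr' ?_
  filter_upwards [eventually_gt_atTop 1] with x hx
  have hl := Real.log_pos hx
  simp only [Function.comp_apply]
  rw [one_div, inv_inv, Real.exp_log (by linarith), Real.inv_rpow hl.le, div_eq_inv_mul]

end Fermat.Agent.Cor.LR
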