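import Fermat.Agent.Corollaries.LR.Karamata

/-!
# Sums `∑ d_n u_δ(log n)` with decreasing weights

If `∑_{n ≤ x} d_n = o(x)` then `∑ d_n u_δ(log n) → 0` as `δ → 0+` for the weights `u_δ` which are
decreasing, and bounded by a constant times `δ n ^ (-1 - δ)`.
-/

set_option autoImplicit false

open Filter Topology

namespace Fermat.Agent.Cor.LR

theorem sum_by_parts (d g : ℕ → ℝ) (M : ℕ) : ∑ i ∈ Finset.range (M + 1), g i * d i =
    g M * (∑ j ∈ Finset.range (M + 1), d j) +
      ∑ i ∈ Finset.range M, (g i - g (i + 1)) * ∑ j ∈ Finset.range (i + 1), d j := by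
  induction M with
  | zero => simp
  | succ M ih =>
    rw [Finset.sum_range_succ, ih, Finset.sum_range_succ (fun i => (g i - g (i + 1)) * _) M,
      Finset.sum_range_succ d (M + 1)]
    ring

/-- Abel's summation with a decreasing weight -/
theorem abs_sum_le_of_antitone {d g : ℕ → ℝ} {ε B : ℝ}
    (hE : ∀ N, |∑ i ∈ Finset.range N, d i| ≤ ε * N + B) (hg : Antitone g) (hg0 : ∀ n, 0 ≤ g n)
    (M : ℕ) : |∑ i ∈ Finset.range (M + 1), g i * d i| ≤
      ε * ∑ i ∈ Finset.range (M + 1), g i + B * g 0 := by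
  have h1 := sum_by_parts (fun i => ε + if i = 0 then B else 0) g M
  have h2 : ∀ N : ℕ, ∑ j ∈ Finset.range (N + 1), (ε + if j = 0 then B else 0) =
      ε * ((N + 1 : ℕ) : ℝ) + B := by
    intro N
    rw [Finset.sum_add_distrib, Finset.sum_const, Finset.card_range, nsmul_eq_mul,
      Finset.sum_ite_eq' (Finset.range (N + 1)) 0 (fun _ => B), if_pos (by simp)]
    ring
  have h3 : ∑ i ∈ Finset.range (M + 1), g i * (ε + if i = 0 then B else 0) =
      ε * ∑ i ∈ Finset.range (M + 1), g i + B * g 0 := by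
    simp only [mul_add, Finset.sum_add_distrib]
    congr 1
    · rw [Finset.mul_sum]
      exact Finset.sum_congr rfl fun _ _ => mul_comm _ _
    · simp only [mul_ite, mul_zero]
      rw [Finset.sum_ite_eq' (Finset.range (M + 1)) 0 (fun i => g i * B), if_pos (by simp)]
      ring
  rw [← h3, h1, sum_by_parts d g M]
  simp only [h2]
  refine (abs_add_le _ _).trans (add_le_add ?_ ?_)
  · rw [abs_mul, abs_of_nonneg (hg0 M)]
    exact mul_le_mul_of_nonneg_left (hE (M + 1)) (hg0 M)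
  · refine (Finset.abs_sum_le_sum_abs _ _).trans (Finset.sum_le_sum fun i _ => ?_)
    have h4 : 0 ≤ g i - g (i + 1) := sub_nonneg.mpr (hg (Nat.le_succ i))
    rw [abs_mul, abs_of_nonneg h4]
    exact mul_le_mul_of_nonneg_left (hE (i + 1)) h4

/-- the weights -/
structure Wt (c : ℝ) (u : ℝ → ℝ → ℝ) : Prop where
  anti : ∀ δ, 0 < δ → AntitoneOn (u δ) (Set.Ioi 0)
  nonneg : ∀ δ, 0 < δ → ∀ t, 0 < t → 0 ≤ u δ t
  le : ∀ δ, 0 < δ → ∀ t, 0 < t → u δ t ≤ c * δ * Real.exp (-((1 + δ) * t))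
  le_log : ∀ δ, 0 < δ → ∀ t, 0 < t → u δ t * t ≤ 3 * Real.exp (-((1 + δ) * t))

theorem exp_log_eq {n : ℕ} (hn : 0 < n) (s : ℝ) : Real.exp (-(s * Real.log n)) = (n : ℝ) ^ (-s) := by
  rw [Real.rpow_def_of_pos (by exact_mod_cast hn)]
  congr 1
  ring

theorem log_add_two_pos (n : ℕ) : 0 < Real.log ((n + 2 : ℕ) : ℝ) :=
  Real.log_pos (by exact_mod_cast (by omega : 1 < n + 2))

theorem summable_rpow_add_two {δ : ℝ} (hδ : 0 < δ) :
    Summable fun n : ℕ => ((n + 2 : ℕ) : ℝ) ^ (-(1 + δ)) :=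
  (summable_nat_add_iff (f := fun n : ℕ => (n : ℝ) ^ (-(1 + δ))) 2).mpr
    (Real.summable_nat_rpow.mpr (by linarith))

/-- `δ ∑_{n ≥ 2} n ^ (-1 - δ) ≤ 2` for small `δ` -/
theorem eventually_tsum_le : ∀ᶠ δ : ℝ in 𝓝[>] 0,
    δ * ∑' n : ℕ, ((n + 2 : ℕ) : ℝ) ^ (-(1 + δ)) ≤ 2 := by
  have h1 : Tendsto (fun δ : ℝ => 1 + δ) (𝓝[>] 0) (𝓝[>] 1) := by
    refine tendsto_nhdsWithin_iff.mpr ⟨?_, ?_⟩
    · have h : Continuous fun δ : ℝ => 1 + δ := by fun_prop
      have h' := (h.tendsto 0).mono_left (nhdsWithin_le_nhds (s := Set.Ioi 0))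
      simpa only [add_zero] using h'
    · filter_upwards [self_mem_nhdsWithin] with δ hδ
      have hδ : 0 < δ := hδ
      exact show 1 < 1 + δ by linarith
  have h2 := tendsto_sub_mul_tsum_nat_rpow.comp h1
  filter_upwards [h2.eventually (Iio_mem_nhds (show (1 : ℝ) < 2 by norm_num)),
    self_mem_nhdsWithin] with δ h3 hδ
  have hδ : 0 < δ := hδ
  have h3 : (1 + δ - 1) * ∑' n : ℕ, 1 / (n : ℝ) ^ (1 + δ) < 2 := h3
  rw [add_sub_cancel_left] at h3
  refine le_trans (mul_le_mul_of_nonneg_left ?_ hδ.le) h3.le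
  have hs : Summable fun n : ℕ => (n : ℝ) ^ (-(1 + δ)) :=
    Real.summable_nat_rpow.mpr (by linarith)
  have h4 : ∑' n : ℕ, 1 / (n : ℝ) ^ (1 + δ) = ∑' n : ℕ, (n : ℝ) ^ (-(1 + δ)) :=
    tsum_congr fun n => by rw [Real.rpow_neg (Nat.cast_nonneg n), one_div]
  rw [h4, ← hs.sum_add_tsum_nat_add 2]
  have h5 : 0 ≤ ∑ i ∈ Finset.range 2, (i : ℝ) ^ (-(1 + δ)) :=
    Finset.sum_nonneg fun i _ => by positivity
  linarith

variable {c C : ℝ} {u : ℝ → ℝ → ℝ}

namespace Wt

variable (W : Wt c u)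

include W in
theorem summable_mul {d : ℕ → ℝ} (hd : ∀ n, |d n| ≤ C * Real.log n) (hC : 0 ≤ C) {δ : ℝ}
    (hδ : 0 < δ) : Summable fun n : ℕ => d n * u δ (Real.log n) := by
  refine (summable_nat_add_iff 2).mp ?_
  refine Summable.of_norm_bounded ((summable_rpow_add_two hδ).mul_left (C * 3)) fun n => ?_
  have ht := log_add_two_pos n
  have h1 := W.nonneg δ hδ _ ht
  have h2 := W.le_log δ hδ _ ht
  rw [exp_log_eq (by omega)] at h2
  rw [norm_mul, Real.norm_eq_abs, Real.norm_of_nonneg h1]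
  calc |d (n + 2)| * u δ (Real.log ((n + 2 : ℕ) : ℝ)) ≤
        (C * Real.log ((n + 2 : ℕ) : ℝ)) * u δ (Real.log ((n + 2 : ℕ) : ℝ)) :=
        mul_le_mul_of_nonneg_right (hd _) h1
    _ = C * (u δ (Real.log ((n + 2 : ℕ) : ℝ)) * Real.log ((n + 2 : ℕ) : ℝ)) := by ring
    _ ≤ C * (3 * ((n + 2 : ℕ) : ℝ) ^ (-(1 + δ))) := mul_le_mul_of_nonneg_left h2 hC
    _ = _ := by ring

include W in
theorem tendsto {d : ℕ → ℝ} (hd : ∀ n, |d n| ≤ C * Real.log n) (hC : 0 ≤ C) (hc : 0 ≤ c)
    (hE : Tendsto (fun N : ℕ => (∑ n ∈ Finset.range (N + 1), d n) / N) atTop (𝓝 0)) :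
    Tendsto (fun δ : ℝ => ∑' n : ℕ, d n * u δ (Real.log n)) (𝓝[>] 0) (𝓝 0) := by
  have hd0 : d 0 = 0 := by
    have := hd 0
    rw [Nat.cast_zero, Real.log_zero, mul_zero] at this
    exact abs_eq_zero.mp (le_antisymm this (abs_nonneg _))
  have hd1 : d 1 = 0 := by
    have := hd 1
    rw [Nat.cast_one, Real.log_one, mul_zero] at this
    exact abs_eq_zero.mp (le_antisymm this (abs_nonneg _))
  rw [Metric.tendsto_nhds]
  intro ε hε
  -- the sums of `d`
  have hε' : 0 < ε / (4 * (2 * c + 1)) := by positivity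
  obtain ⟨K, hK⟩ := (Metric.tendsto_atTop.mp hE) (ε / (4 * (2 * c + 1))) hε'
  set η := ε / (4 * (2 * c + 1)) with hη
  set S := ∑ k ∈ Finset.range (K + 3), |∑ n ∈ Finset.range (k + 1), d n| with hS
  have hS0 : 0 ≤ S := Finset.sum_nonneg fun _ _ => abs_nonneg _
  have hB : ∀ N : ℕ, |∑ n ∈ Finset.range (N + 1), d n| ≤ η * N + S := by
    intro N
    rcases Nat.lt_or_ge N (K + 3) with h | h
    · have h1 := Finset.single_le_sum (f := fun k : ℕ => |∑ n ∈ Finset.range (k + 1), d n|)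
        (fun _ _ => abs_nonneg _) (Finset.mem_range.mpr h)
      have : 0 ≤ η * N := by positivity
      rw [hS]
      linarith
    · have hN0 : (0 : ℝ) < N := by exact_mod_cast (by omega : 0 < N)
      have h1 := hK N (by omega)
      rw [Real.dist_eq, sub_zero, abs_div, abs_of_pos hN0, div_lt_iff₀ hN0] at h1
      linarith
  have hE2 : ∀ N : ℕ, |∑ i ∈ Finset.range N, d (i + 2)| ≤ η * N + (η + S) := by
    intro N
    have h1 : ∑ i ∈ Finset.range N, d (i + 2) = ∑ n ∈ Finset.range (N + 1 + 1), d n := by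
      rw [Finset.sum_range_succ', Finset.sum_range_succ', hd0, zero_add, hd1, add_zero, add_zero]
    have h2 := hB (N + 1)
    rw [h1]
    push_cast at h2
    linarith
  -- the estimate
  have h0 : Tendsto (fun δ : ℝ => (η + S) * (c * δ)) (𝓝[>] 0) (𝓝 0) := by
    have h : Continuous fun δ : ℝ => (η + S) * (c * δ) := by fun_prop
    have h' := (h.tendsto 0).mono_left (nhdsWithin_le_nhds (s := Set.Ioi 0))
    simpa only [mul_zero] using h'
  filter_upwards [eventually_tsum_le, h0.eventually (Iio_mem_nhds (half_pos hε)),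
    self_mem_nhdsWithin] with δ h1 h2 hδ
  have hδ : 0 < δ := hδ
  have h2 : (η + S) * (c * δ) < ε / 2 := h2
  have hs := W.summable_mul hd hC hδ
  have hs2 : Summable fun n : ℕ => u δ (Real.log ((n + 2 : ℕ) : ℝ)) * d (n + 2) := by
    have := (summable_nat_add_iff (f := fun n : ℕ => d n * u δ (Real.log n)) 2).mpr hs
    exact this.congr fun n => mul_comm _ _
  have h3 : ∑' n : ℕ, d n * u δ (Real.log n) =
      ∑' n : ℕ, u δ (Real.log ((n + 2 : ℕ) : ℝ)) * d (n + 2) := by
    rw [← hs.sum_add_tsum_nat_add 2, Finset.sum_range_succ, Finset.sum_range_one, hd0, hd1,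
      zero_mul, zero_mul, zero_add, zero_add]
    exact tsum_congr fun n => mul_comm _ _
  set g : ℕ → ℝ := fun n => u δ (Real.log ((n + 2 : ℕ) : ℝ)) with hg
  have hganti : Antitone g := by
    intro m n hmn
    refine W.anti δ hδ (log_add_two_pos m) (log_add_two_pos n) ?_
    exact Real.log_le_log (by positivity) (by exact_mod_cast (by omega : m + 2 ≤ n + 2))
  have hg0 : ∀ n, 0 ≤ g n := fun n => W.nonneg δ hδ _ (log_add_two_pos n)
  have hgle : ∀ n, g n ≤ c * δ * ((n + 2 : ℕ) : ℝ) ^ (-(1 + δ)) := fun n => by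
    have := W.le δ hδ _ (log_add_two_pos n)
    rwa [exp_log_eq (by omega)] at this
  have hgs : Summable g := Summable.of_nonneg_of_le hg0 hgle ((summable_rpow_add_two hδ).mul_left _)
  have hgt : ∑' n, g n ≤ 2 * c := by
    calc ∑' n, g n ≤ ∑' n : ℕ, c * δ * ((n + 2 : ℕ) : ℝ) ^ (-(1 + δ)) :=
          hgs.tsum_le_tsum hgle ((summable_rpow_add_two hδ).mul_left _)
      _ = c * (δ * ∑' n : ℕ, ((n + 2 : ℕ) : ℝ) ^ (-(1 + δ))) := by rw [tsum_mul_left]; ring
      _ ≤ c * 2 := mul_le_mul_of_nonneg_left h1 hc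
      _ = 2 * c := by ring
  have hg00 : g 0 ≤ c * δ := by
    refine (hgle 0).trans (mul_le_of_le_one_right (by positivity) ?_)
    exact Real.rpow_le_one_of_one_le_of_nonpos (by norm_num) (by linarith)
  have hηS : 0 ≤ η + S := by positivity
  have h4 : |∑' n : ℕ, g n * d (n + 2)| ≤ η * (2 * c) + (η + S) * (c * δ) := by
    have h5 : Tendsto (fun M : ℕ => |∑ i ∈ Finset.range (M + 1), g i * d (i + 2)|) atTop
        (𝓝 |∑' n : ℕ, g n * d (n + 2)|) :=
      ((hs2.hasSum.tendsto_sum_nat).comp (tendsto_add_atTop_nat 1)).abs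
    refine le_of_tendsto' h5 fun M => ?_
    refine (abs_sum_le_of_antitone (g := g) hE2 hganti hg0 M).trans (add_le_add ?_ ?_)
    · refine mul_le_mul_of_nonneg_left ?_ hε'.le
      exact (hgs.sum_le_tsum _ fun n _ => hg0 n).trans hgt
    · exact mul_le_mul_of_nonneg_left hg00 hηS
  rw [Real.dist_eq, sub_zero, h3]
  refine h4.trans_lt ?_
  have h6 : η * (2 * c) ≤ ε / 4 := by
    have : η * (2 * c + 1) = ε / 4 := by
      rw [hη]
      field_simp
    nlinarith
  linarith

end Wt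

/-! ### The function `(1 - e ^ (-a t)) / t` -/

/-- `(1 - e ^ (-a t)) / t` -/
noncomputable def qq (a t : ℝ) : ℝ := (1 - Real.exp (-(a * t))) / t

theorem qq_nonneg {a t : ℝ} (ha : 0 ≤ a) (ht : 0 < t) : 0 ≤ qq a t := by
  have : Real.exp (-(a * t)) ≤ 1 := Real.exp_le_one_iff.mpr (by nlinarith)
  exact div_nonneg (by linarith) ht.le

theorem qq_le {a t : ℝ} (ht : 0 < t) : qq a t ≤ a := by
  have := Real.add_one_le_exp (-(a * t))
  rw [qq, div_le_iff₀ ht]
  linarith

theorem qq_mul {a t : ℝ} (ht : 0 < t) : qq a t * t = 1 - Real.exp (-(a * t)) :=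
  div_mul_cancel₀ _ ht.ne'

theorem qq_anti {a : ℝ} : AntitoneOn (qq a) (Set.Ioi 0) := by
  intro s hs t ht hst
  have hs : 0 < s := hs
  have ht : 0 < t := ht
  have h1 := convexOn_exp.2 (Set.mem_univ 0) (Set.mem_univ (-(a * t)))
    (show 0 ≤ 1 - s / t by rw [sub_nonneg, div_le_one ht]; exact hst)
    (show 0 ≤ s / t by positivity) (by ring)
  have e1 : (1 - s / t) • (0 : ℝ) + (s / t) • (-(a * t)) = -(a * s) := by
    rw [smul_zero, zero_add, smul_eq_mul]
    field_simp
  rw [e1, Real.exp_zero, smul_eq_mul, smul_eq_mul, mul_one] at h1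
  rw [qq, qq, div_le_div_iff₀ ht hs]
  have h2 : t * Real.exp (-(a * s)) ≤ t - s + s * Real.exp (-(a * t)) := by
    calc t * Real.exp (-(a * s)) ≤ t * (1 - s / t + s / t * Real.exp (-(a * t))) :=
          mul_le_mul_of_nonneg_left h1 ht.le
      _ = t - s + s * Real.exp (-(a * t)) := by
        field_simp
  nlinarith

theorem exp_anti {s : ℝ} (hs : 0 ≤ s) : AntitoneOn (fun t : ℝ => Real.exp (-(s * t))) (Set.Ioi 0) :=
  fun _ _ _ _ h => Real.exp_le_exp.mpr (by nlinarith)

/-- the weight of `∑ n ^ (-1 - δ) - n ^ (-1 - k δ)` -/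
theorem wt_A {a : ℝ} (ha : 0 ≤ a) :
    Wt a fun δ t => Real.exp (-((1 + δ) * t)) * qq (a * δ) t where
  anti δ hδ s hs t ht hst :=
    mul_le_mul (exp_anti (by linarith) hs ht hst) (qq_anti hs ht hst)
      (qq_nonneg (by positivity) ht) (Real.exp_pos _).le
  nonneg δ hδ t ht := mul_nonneg (Real.exp_pos _).le (qq_nonneg (by positivity) ht)
  le δ hδ t ht := by
    rw [mul_comm]
    exact mul_le_mul_of_nonneg_right (qq_le ht) (Real.exp_pos _).le
  le_log δ hδ t ht := by
    rw [mul_assoc, qq_mul ht]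
    have := Real.exp_pos (-(a * δ * t))
    have := Real.exp_pos (-((1 + δ) * t))
    nlinarith

theorem exp_one_lt_three : Real.exp 1 < 3 := by
  have := Real.exp_one_lt_d9
  linarith

/-- the weight of `∑_{δ log n ≤ 1} (n ^ (-1) - n ^ (-1 - δ))` -/
theorem wt_one : Wt 3 fun δ t => if δ * t ≤ 1 then Real.exp (-t) * qq δ t else 0 where
  anti δ hδ s hs t ht hst := by
    have hs' : 0 < s := hs
    have ht' : 0 < t := ht
    simp only
    by_cases h1 : δ * t ≤ 1
    · rw [if_pos h1, if_pos (le_trans (by gcongr) h1)]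
      exact mul_le_mul (Real.exp_le_exp.mpr (by linarith)) (qq_anti hs ht hst)
        (qq_nonneg hδ.le ht) (Real.exp_pos _).le
    · rw [if_neg h1]
      split_ifs
      · exact mul_nonneg (Real.exp_pos _).le (qq_nonneg hδ.le hs)
      · exact le_rfl
  nonneg δ hδ t ht := by
    split_ifs
    · exact mul_nonneg (Real.exp_pos _).le (qq_nonneg hδ.le ht)
    · exact le_rfl
  le δ hδ t ht := by
    split_ifs with h
    · have h1 : Real.exp (-t) ≤ 3 * Real.exp (-((1 + δ) * t)) := by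
        have h2 : Real.exp (-t) = Real.exp (δ * t) * Real.exp (-((1 + δ) * t)) := by
          rw [← Real.exp_add]
          congr 1
          ring
        rw [h2]
        refine mul_le_mul_of_nonneg_right ?_ (Real.exp_pos _).le
        exact (Real.exp_le_exp.mpr h).trans exp_one_lt_three.le
      calc Real.exp (-t) * qq δ t ≤ (3 * Real.exp (-((1 + δ) * t))) * δ :=
            mul_le_mul h1 (qq_le ht) (qq_nonneg hδ.le ht) (by positivity)
        _ = _ := by ring
    · positivity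
  le_log δ hδ t ht := by
    split_ifs with h
    · have h1 : Real.exp (-t) ≤ 3 * Real.exp (-((1 + δ) * t)) := by
        have h2 : Real.exp (-t) = Real.exp (δ * t) * Real.exp (-((1 + δ) * t)) := by
          rw [← Real.exp_add]
          congr 1
          ring
        rw [h2]
        refine mul_le_mul_of_nonneg_right ?_ (Real.exp_pos _).le
        exact (Real.exp_le_exp.mpr h).trans exp_one_lt_three.le
      rw [mul_assoc, qq_mul ht]
      have := Real.exp_pos (-(δ * t))
      have := Real.exp_pos (-t)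
      nlinarith
    · rw [zero_mul]
      positivity

/-- the weight `n ^ (-1 - δ) / max (log n) (1 / δ)` -/
theorem wt_two : Wt 1 fun δ t => Real.exp (-((1 + δ) * t)) / max t (1 / δ) where
  anti δ hδ s hs t ht hst := by
    have hs' : 0 < s := hs
    have ht' : 0 < t := ht
    exact div_le_div₀ (Real.exp_pos _).le (exp_anti (by linarith) hs ht hst)
      (lt_of_lt_of_le hs' (le_max_left _ _)) (max_le_max_right _ hst)
  nonneg δ hδ t ht := div_nonneg (Real.exp_pos _).le (ht.le.trans (le_max_left _ _))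
  le δ hδ t ht := by
    have h1 : 0 < 1 / δ := by positivity
    calc Real.exp (-((1 + δ) * t)) / max t (1 / δ) ≤ Real.exp (-((1 + δ) * t)) / (1 / δ) :=
          div_le_div_of_nonneg_left (Real.exp_pos _).le h1 (le_max_right _ _)
      _ = _ := by
        field_simp
  le_log δ hδ t ht := by
    have h1 : 0 < max t (1 / δ) := lt_of_lt_of_le ht (le_max_left _ _)
    rw [div_mul_eq_mul_div, div_le_iff₀ h1]
    have h2 : t ≤ max t (1 / δ) := le_max_left _ _
    have h3 := Real.exp_pos (-((1 + δ) * t))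
    nlinarith [mul_le_mul_of_nonneg_left h2 h3.le, mul_pos h3 h1]

/-- the weight `δ n ^ (-1 - δ)` for `δ log n ≤ 1` -/
theorem wt_three : Wt 1 fun δ t => if δ * t ≤ 1 then δ * Real.exp (-((1 + δ) * t)) else 0 where
  anti δ hδ s hs t ht hst := by
    have hs' : 0 < s := hs
    have ht' : 0 < t := ht
    simp only
    by_cases h1 : δ * t ≤ 1
    · rw [if_pos h1, if_pos (le_trans (by gcongr) h1)]
      exact mul_le_mul_of_nonneg_left (exp_anti (by linarith) hs ht hst) hδ.le
    · rw [if_neg h1]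
      split_ifs
      · positivity
      · exact le_rfl
  nonneg δ hδ t ht := by
    split_ifs
    · positivity
    · exact le_rfl
  le δ hδ t ht := by
    split_ifs
    · rw [one_mul]
    · positivity
  le_log δ hδ t ht := by
    split_ifs with h
    · have h3 := Real.exp_pos (-((1 + δ) * t))
      nlinarith
    · rw [zero_mul]
      positivity

end Fermat.Agent.Cor.LR
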