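import Fermat.Agent.Corollaries.LR.Theta
import Fermat.Agent.Corollaries.LR.Weights

/-!
# Sums over the primes near `s = 1`

`0 ≤ f(p) ≤ 1`, `∑_{p ≤ x} f(p) log p ~ τ x`. Then, as `δ → 0+`,
`∑ f(p) p ^ (-1 - δ) - ∑ f(p) p ^ (-1 - k δ) → τ log k` and
`∑ f(p) p ^ (-1 - δ) - ∑_{p ≤ e ^ (1 / δ)} f(p) / p → -γ τ`.
-/

set_option autoImplicit false

open Filter Topology

namespace Fermat.Agent.Cor.LR

open Mert

theorem tsum_primes (h : ℕ → ℝ) :
    ∑' n : ℕ, (if n.Prime then h n else 0) = ∑' p : Nat.Primes, h p := by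
  have h1 := tsum_subtype {p : ℕ | p.Prime} h
  rw [show (∑' p : Nat.Primes, h p) = ∑' x : {p : ℕ | p.Prime}, h x from rfl, h1]
  exact tsum_congr fun n => by
    rw [Set.indicator_apply]
    rfl

/-- `θ(x) ~ x` -/
theorem tendsto_theta_one : Tendsto (fun x : ℕ =>
    (∑ p ∈ (Finset.Ioc 0 x).filter Nat.Prime, Real.log p) / x) atTop (𝓝 1) := by
  have h1 := (tendsto_theta_ap (q := 1) (a := 1) isUnit_one).comp
    (tendsto_natCast_atTop_atTop (R := ℝ))
  rw [Nat.totient_one, Nat.cast_one, inv_one] at h1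
  refine h1.congr fun x => ?_
  simp only [Function.comp_apply, Nat.floor_natCast]
  congr 1
  refine Finset.sum_congr ?_ fun _ _ => rfl
  ext p
  simp only [Finset.mem_filter, Finset.mem_Icc, Finset.mem_Ioc]
  constructor
  · rintro ⟨⟨h2, h3⟩, h4, _⟩
    exact ⟨⟨h2, h3⟩, h4⟩
  · rintro ⟨⟨h2, h3⟩, h4⟩
    exact ⟨⟨h2, h3⟩, h4, Subsingleton.elim _ _⟩

/-- the hypotheses on the values at the primes -/
structure PrDat (f : ℕ → ℝ) (τ : ℝ) : Prop where
  nonneg : ∀ n, 0 ≤ f n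
  le_one : ∀ n, f n ≤ 1
  lim : Tendsto (fun x : ℕ => (∑ p ∈ (Finset.Ioc 0 x).filter Nat.Prime, f p * Real.log p) / x)
    atTop (𝓝 τ)

/-- `∑ f(p) p ^ (-1 - δ)` -/
noncomputable def pG (f : ℕ → ℝ) (δ : ℝ) : ℝ := ∑' p : Nat.Primes, f p * ((p : ℕ) : ℝ) ^ (-(1 + δ))

/-- the truncation -/
noncomputable def trc (δ : ℝ) (p : ℕ) : ℝ := if δ * Real.log p ≤ 1 then (p : ℝ)⁻¹ else 0

/-- `∑_{p ≤ e ^ (1 / δ)} f(p) / p` -/
noncomputable def pU (f : ℕ → ℝ) (δ : ℝ) : ℝ := ∑' p : Nat.Primes, f p * trc δ p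

theorem log_prime_pos (p : Nat.Primes) : 0 < Real.log ((p : ℕ) : ℝ) :=
  Real.log_pos (by exact_mod_cast p.2.one_lt)

/-- `p ≤ e ^ (1 / δ)` -/
theorem mul_log_le_iff {δ : ℝ} (hδ : 0 < δ) {n : ℕ} (hn : 0 < n) :
    δ * Real.log n ≤ 1 ↔ n ≤ ⌊Real.exp (1 / δ)⌋₊ := by
  have hn0 : (0 : ℝ) < n := by exact_mod_cast hn
  rw [Nat.le_floor_iff (Real.exp_pos _).le, ← Real.log_le_iff_le_exp hn0, le_div_iff₀ hδ, mul_comm]

theorem hasSum_trc (g : ℕ → ℝ) {δ : ℝ} (hδ : 0 < δ) :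
    HasSum (fun p : Nat.Primes => g p * if δ * Real.log ((p : ℕ) : ℝ) ≤ 1 then 1 else 0)
      (∑ p ∈ isCount_primes.F ⌊Real.exp (1 / δ)⌋₊, g p) := by
  have h1 : ∀ p ∉ isCount_primes.F ⌊Real.exp (1 / δ)⌋₊,
      g p * (if δ * Real.log ((p : ℕ) : ℝ) ≤ 1 then 1 else 0) = 0 := by
    intro p hp
    rw [isCount_primes.mem_F, ← mul_log_le_iff hδ p.2.pos] at hp
    rw [if_neg hp, mul_zero]
  have h2 : HasSum (fun p : Nat.Primes => g p * if δ * Real.log ((p : ℕ) : ℝ) ≤ 1 then 1 else 0)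
      (∑ p ∈ isCount_primes.F ⌊Real.exp (1 / δ)⌋₊,
        g p * (if δ * Real.log ((p : ℕ) : ℝ) ≤ 1 then 1 else 0)) :=
    hasSum_sum_of_ne_finset_zero h1
  have h3 : ∑ p ∈ isCount_primes.F ⌊Real.exp (1 / δ)⌋₊,
      g p * (if δ * Real.log ((p : ℕ) : ℝ) ≤ 1 then 1 else 0) =
      ∑ p ∈ isCount_primes.F ⌊Real.exp (1 / δ)⌋₊, g p := by
    refine Finset.sum_congr rfl fun p hp => ?_
    rw [isCount_primes.mem_F, ← mul_log_le_iff hδ p.2.pos] at hp
    rw [if_pos hp, mul_one]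
  rwa [h3] at h2

theorem trc_eq (δ : ℝ) (p : ℕ) : trc δ p = (p : ℝ)⁻¹ * if δ * Real.log p ≤ 1 then 1 else 0 := by
  rw [trc]
  split_ifs
  · rw [mul_one]
  · rw [mul_zero]

theorem pU_eq (f : ℕ → ℝ) {δ : ℝ} (hδ : 0 < δ) :
    HasSum (fun p : Nat.Primes => f p * trc δ p)
      (∑ p ∈ isCount_primes.F ⌊Real.exp (1 / δ)⌋₊, f p * ((p : ℕ) : ℝ)⁻¹) := by
  simpa only [trc_eq, mul_assoc] using hasSum_trc (fun p => f p * (p : ℝ)⁻¹) hδ

/-! ### The case `f = 1` -/

/-- `∑_{p ≤ x} 1 / p = log log x + M + o(1)` -/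
theorem tendsto_rc_one : Tendsto (fun x : ℝ => isCount_primes.rc (fun _ _ => 1) ⌊x⌋₊ -
    1 * Real.log (Real.log x)) atTop (𝓝 meisselMertens) := by
  refine tendsto_sum_inv.congr fun x => ?_
  have := sum_F_primes (fun _ => True) (fun p => (p : ℝ)⁻¹) ⌊x⌋₊
  simp only [Finset.filter_true, and_true] at this
  rw [← this, IsCount.rc, one_mul]
  simp only [one_div]

theorem tendsto_pG_one : Tendsto (fun δ : ℝ => pG (fun _ => 1) δ + Real.log δ) (𝓝[>] 0)
    (𝓝 (meisselMertens - Real.eulerMascheroniConstant)) := by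
  have h1 : Tendsto (fun x : ℝ => sumU (isCount_primes.cf (fun _ _ => 1)) x -
      1 * Real.log (Real.log x)) atTop (𝓝 meisselMertens) := by
    refine tendsto_rc_one.congr fun x => ?_
    rw [isCount_primes.sumU_cf]
  have h2 := tendsto_tsum_rpow (isCount_primes.cf_nonneg fun _ _ => zero_le_one) h1
  rw [one_mul] at h2
  refine h2.congr' ?_
  filter_upwards [self_mem_nhdsWithin] with δ hδ
  rw [isCount_primes.tsum_cf (fun _ _ => zero_le_one) (fun _ _ => le_rfl) hδ, one_mul, pG]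

theorem tendsto_pU_one : Tendsto (fun δ : ℝ => pU (fun _ => 1) δ + Real.log δ) (𝓝[>] 0)
    (𝓝 meisselMertens) := by
  have h1 : Tendsto (fun δ : ℝ => Real.exp (1 / δ)) (𝓝[>] 0) atTop := by
    have h0 : Tendsto (fun δ : ℝ => 1 / δ) (𝓝[>] 0) atTop := by
      have := tendsto_inv_nhdsGT_zero (𝕜 := ℝ)
      exact this.congr fun δ => (one_div δ).symm
    exact Real.tendsto_exp_atTop.comp h0
  refine (tendsto_rc_one.comp h1).congr' ?_
  filter_upwards [self_mem_nhdsWithin] with δ hδ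
  have hδ : 0 < δ := hδ
  rw [Function.comp_apply, Real.log_exp, one_mul, one_div, Real.log_inv, sub_neg_eq_add, pU,
    ← one_div, (pU_eq (fun _ => 1) hδ).tsum_eq, IsCount.rc]
  have e : ∀ p : Nat.Primes, (1 : ℝ) * ((p : ℕ) : ℝ)⁻¹ = 1 / ((p : ℕ) : ℝ) := fun p => by
    rw [one_div, one_mul]
  simp only [e]

/-! ### The comparison -/

variable {f : ℕ → ℝ} {τ : ℝ}

/-- the difference -/
noncomputable def dd (f : ℕ → ℝ) (τ : ℝ) (n : ℕ) : ℝ :=
  if n.Prime then (f n - τ) * Real.log n else 0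

theorem summable_pG (hf0 : ∀ n, 0 ≤ f n) (hf1 : ∀ n, f n ≤ 1) {δ : ℝ} (hδ : 0 < δ) :
    Summable fun p : Nat.Primes => f p * ((p : ℕ) : ℝ) ^ (-(1 + δ)) := by
  refine Summable.of_nonneg_of_le (fun p => mul_nonneg (hf0 p) (by positivity)) (fun p => ?_)
    (isCount_primes.summable_rpow (σ := 1 + δ) (by linarith))
  exact mul_le_of_le_one_left (by positivity) (hf1 p)

namespace PrDat

variable (D : PrDat f τ)

include D in
theorem abs_dd_le (n : ℕ) : |dd f τ n| ≤ (1 + |τ|) * Real.log n := by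
  have h0 := Real.log_natCast_nonneg n
  unfold dd
  split_ifs
  · rw [abs_mul, abs_of_nonneg h0]
    refine mul_le_mul_of_nonneg_right ((abs_sub _ _).trans ?_) h0
    rw [abs_of_nonneg (D.nonneg n)]
    linarith [D.le_one n]
  · rw [abs_zero]
    positivity

include D in
theorem tendsto_dd :
    Tendsto (fun N : ℕ => (∑ n ∈ Finset.range (N + 1), dd f τ n) / N) atTop (𝓝 0) := by
  have h1 := D.lim.sub (tendsto_theta_one.const_mul τ)
  rw [mul_one, sub_self] at h1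
  refine h1.congr fun N => ?_
  rw [← mul_div_assoc, ← sub_div]
  congr 1
  rw [Finset.mul_sum, ← Finset.sum_sub_distrib]
  unfold dd
  rw [← Finset.sum_filter]
  have h2 : (Finset.range (N + 1)).filter Nat.Prime = (Finset.Ioc 0 N).filter Nat.Prime := by
    ext p
    simp only [Finset.mem_filter, Finset.mem_range, Finset.mem_Ioc]
    constructor
    · rintro ⟨h2, h3⟩
      exact ⟨⟨h3.pos, by omega⟩, h3⟩
    · rintro ⟨⟨_, h2⟩, h3⟩
      exact ⟨by omega, h3⟩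
  rw [h2]
  exact Finset.sum_congr rfl fun p _ => by ring

include D in
/-- the sums with the weights -/
theorem tendsto_wt {c : ℝ} {u : ℝ → ℝ → ℝ} (W : Wt c u) (hc : 0 ≤ c) :
    Tendsto (fun δ : ℝ => ∑' p : Nat.Primes,
      (f p - τ) * Real.log ((p : ℕ) : ℝ) * u δ (Real.log ((p : ℕ) : ℝ))) (𝓝[>] 0) (𝓝 0) := by
  refine (W.tendsto D.abs_dd_le (by positivity) hc D.tendsto_dd).congr fun δ => ?_
  rw [← tsum_primes fun n => (f n - τ) * Real.log (n : ℝ) * u δ (Real.log (n : ℝ))]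
  refine tsum_congr fun n => ?_
  unfold dd
  split_ifs
  · rfl
  · rw [zero_mul]

include D in
theorem summable_wt {c : ℝ} {u : ℝ → ℝ → ℝ} (W : Wt c u) {δ : ℝ} (hδ : 0 < δ) :
    Summable fun p : Nat.Primes =>
      (f p - τ) * Real.log ((p : ℕ) : ℝ) * u δ (Real.log ((p : ℕ) : ℝ)) := by
  have h1 := W.summable_mul D.abs_dd_le (by positivity) hδ
  have h2 := h1.comp_injective (i := fun p : Nat.Primes => (p : ℕ)) Subtype.val_injective
  refine h2.congr fun p => ?_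
  rw [Function.comp_apply, dd, if_pos p.2]

include D in
/-- **`∑ f(p) p ^ (-1 - δ) - ∑ f(p) p ^ (-1 - k δ) → τ log k`** -/
theorem tendsto_pG_sub {a : ℝ} (ha : 0 ≤ a) :
    Tendsto (fun δ : ℝ => pG f δ - pG f ((a + 1) * δ)) (𝓝[>] 0) (𝓝 (τ * Real.log (a + 1))) := by
  have h1 := D.tendsto_wt (wt_A ha) ha
  have hmul : Tendsto (fun δ : ℝ => (a + 1) * δ) (𝓝[>] 0) (𝓝[>] 0) := by
    refine tendsto_nhdsWithin_iff.mpr ⟨?_, ?_⟩
    · have h3 : Continuous fun δ : ℝ => (a + 1) * δ := by fun_prop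
      have h4 := (h3.tendsto 0).mono_left (nhdsWithin_le_nhds (s := Set.Ioi 0))
      simpa only [mul_zero] using h4
    · filter_upwards [self_mem_nhdsWithin] with δ hδ
      have hδ : 0 < δ := hδ
      exact mul_pos (by linarith) hδ
  have h2 := (tendsto_pG_one.sub (tendsto_pG_one.comp hmul)).const_mul τ
  rw [sub_self, mul_zero] at h2
  have h3 := (h1.add h2).add_const (τ * Real.log (a + 1))
  rw [add_zero, zero_add] at h3
  refine h3.congr' ?_
  filter_upwards [self_mem_nhdsWithin] with δ hδ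
  have hδ : 0 < δ := hδ
  have hδ' : 0 < (a + 1) * δ := by positivity
  have s1 := summable_pG D.nonneg D.le_one hδ
  have s2 := summable_pG D.nonneg D.le_one hδ'
  have s3 := summable_pG (f := fun _ => 1) (fun _ => zero_le_one) (fun _ => le_rfl) hδ
  have s4 := summable_pG (f := fun _ => 1) (fun _ => zero_le_one) (fun _ => le_rfl) hδ'
  have e1 : ∑' p : Nat.Primes, (f p - τ) * Real.log ((p : ℕ) : ℝ) *
      (Real.exp (-((1 + δ) * Real.log ((p : ℕ) : ℝ))) * qq (a * δ) (Real.log ((p : ℕ) : ℝ))) =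
      (pG f δ - pG f ((a + 1) * δ)) - τ * (pG (fun _ => 1) δ - pG (fun _ => 1) ((a + 1) * δ)) := by
    rw [pG, pG, pG, pG, ← s1.tsum_sub s2, ← s3.tsum_sub s4, ← tsum_mul_left,
      ← (s1.sub s2).tsum_sub ((s3.sub s4).mul_left τ)]
    refine tsum_congr fun p => ?_
    have hp0 : (0 : ℝ) < ((p : ℕ) : ℝ) := by exact_mod_cast p.2.pos
    have h5 := qq_mul (a := a * δ) (log_prime_pos p)
    have h6 : ((p : ℕ) : ℝ) ^ (-(1 + (a + 1) * δ)) = ((p : ℕ) : ℝ) ^ (-(1 + δ)) *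
        Real.exp (-(a * δ * Real.log ((p : ℕ) : ℝ))) := by
      rw [exp_log_eq p.2.pos, ← Real.rpow_add hp0]
      congr 1
      ring
    rw [exp_log_eq p.2.pos, h6]
    calc _ = (f p - τ) * ((p : ℕ) : ℝ) ^ (-(1 + δ)) *
          (qq (a * δ) (Real.log ((p : ℕ) : ℝ)) * Real.log ((p : ℕ) : ℝ)) := by ring
      _ = _ := by
        rw [h5]
        ring
  have e2 : Real.log ((a + 1) * δ) = Real.log (a + 1) + Real.log δ :=
    Real.log_mul (by linarith) hδ.ne'
  rw [e1, Function.comp_apply, e2]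
  ring

include D in
/-- **`∑ f(p) p ^ (-1 - δ) - ∑_{p ≤ e ^ (1 / δ)} f(p) / p → -γ τ`** -/
theorem tendsto_pG_sub_pU : Tendsto (fun δ : ℝ => pG f δ - pU f δ) (𝓝[>] 0)
    (𝓝 (-(τ * Real.eulerMascheroniConstant))) := by
  have h1 := ((D.tendsto_wt wt_two zero_le_one).sub (D.tendsto_wt wt_three zero_le_one)).sub
    (D.tendsto_wt wt_one (by norm_num))
  rw [sub_zero, sub_zero] at h1
  have h2 := (tendsto_pG_one.sub tendsto_pU_one).const_mul τ
  have h3 := h1.add h2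
  rw [show 0 + τ * (meisselMertens - Real.eulerMascheroniConstant - meisselMertens) =
    -(τ * Real.eulerMascheroniConstant) by ring] at h3
  refine h3.congr' ?_
  filter_upwards [self_mem_nhdsWithin] with δ hδ
  have hδ : 0 < δ := hδ
  have s1 := summable_pG D.nonneg D.le_one hδ
  have s2 := (pU_eq f hδ).summable
  have s3 := summable_pG (f := fun _ => 1) (fun _ => zero_le_one) (fun _ => le_rfl) hδ
  have s4 := (pU_eq (fun _ => 1) hδ).summable
  have w2 := D.summable_wt wt_two hδ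
  have w3 := D.summable_wt wt_three hδ
  have w1 := D.summable_wt wt_one hδ
  have e1 : (∑' p : Nat.Primes, (f p - τ) * Real.log ((p : ℕ) : ℝ) *
      (Real.exp (-((1 + δ) * Real.log ((p : ℕ) : ℝ))) / max (Real.log ((p : ℕ) : ℝ)) (1 / δ))) -
      (∑' p : Nat.Primes, (f p - τ) * Real.log ((p : ℕ) : ℝ) *
      (if δ * Real.log ((p : ℕ) : ℝ) ≤ 1 then
        δ * Real.exp (-((1 + δ) * Real.log ((p : ℕ) : ℝ))) else 0)) -
      (∑' p : Nat.Primes, (f p - τ) * Real.log ((p : ℕ) : ℝ) *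
      (if δ * Real.log ((p : ℕ) : ℝ) ≤ 1 then
        Real.exp (-(Real.log ((p : ℕ) : ℝ))) * qq δ (Real.log ((p : ℕ) : ℝ)) else 0)) =
      (pG f δ - pU f δ) - τ * (pG (fun _ => 1) δ - pU (fun _ => 1) δ) := by
    rw [pG, pG, pU, pU, ← s1.tsum_sub s2, ← s3.tsum_sub s4, ← tsum_mul_left,
      ← (s1.sub s2).tsum_sub ((s3.sub s4).mul_left τ), ← w2.tsum_sub w3,
      ← (w2.sub w3).tsum_sub w1]
    refine tsum_congr fun p => ?_
    have hp0 : (0 : ℝ) < ((p : ℕ) : ℝ) := by exact_mod_cast p.2.pos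
    have hl := log_prime_pos p
    have h5 := qq_mul (a := δ) hl
    rw [trc]
    by_cases h : δ * Real.log ((p : ℕ) : ℝ) ≤ 1
    · have hmax : max (Real.log ((p : ℕ) : ℝ)) (1 / δ) = 1 / δ := by
        refine max_eq_right ?_
        rw [le_div_iff₀ hδ, mul_comm]
        exact h
      have h6 : ((p : ℕ) : ℝ)⁻¹ = Real.exp (-(Real.log ((p : ℕ) : ℝ))) := by
        rw [Real.exp_neg, Real.exp_log hp0]
      have h7 : ((p : ℕ) : ℝ) ^ (-(1 + δ)) = Real.exp (-(Real.log ((p : ℕ) : ℝ))) *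
          Real.exp (-(δ * Real.log ((p : ℕ) : ℝ))) := by
        rw [← exp_log_eq p.2.pos, ← Real.exp_add]
        congr 1
        ring
      rw [if_pos h, if_pos h, if_pos h, hmax, exp_log_eq p.2.pos, h6, h7]
      set E := Real.exp (-(Real.log ((p : ℕ) : ℝ)))
      set E' := Real.exp (-(δ * Real.log ((p : ℕ) : ℝ)))
      set q := qq δ (Real.log ((p : ℕ) : ℝ))
      set l := Real.log ((p : ℕ) : ℝ)
      have h8 : E * E' / (1 / δ) = δ * (E * E') := by
        field_simp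
      rw [h8]
      have h9 : (f p - τ) * l * (E * q) = (f p - τ) * E * (q * l) := by ring
      rw [h9, h5]
      ring
    · have hmax : max (Real.log ((p : ℕ) : ℝ)) (1 / δ) = Real.log ((p : ℕ) : ℝ) := by
        refine max_eq_left ?_
        rw [div_le_iff₀ hδ, mul_comm]
        exact (not_le.mp h).le
      rw [if_neg h, if_neg h, if_neg h, hmax, exp_log_eq p.2.pos]
      field_simp
      ring
  rw [e1]
  ring

end PrDat

end Fermat.Agent.Cor.LR
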