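import Fermat.Agent.Corollaries.LR.Const

/-!
# `∑ z ^ ω(n)`, `∑ z ^ Ω(n)` and Ramanujan's `∑ 1 / d(n)`

If the product `∏_{p ≤ x} (1 - 1 / p) ^ τ ∑_e f(p ^ e) / p ^ e` converges to `P` then Wirsing's
theorem is `∑_{n ≤ x} f(n) ~ (P / Γ(τ)) x (log x) ^ (τ - 1)`. This is the case if `f(p) = τ` for all
primes `p`.
-/

set_option autoImplicit false

open Filter Topology

namespace Fermat.Agent.Cor.LR

open Mert

variable {f : ℕ → ℝ} {τ : ℝ}

/-- the local factor of the constant -/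
noncomputable def sf (f : ℕ → ℝ) (τ : ℝ) (p : ℕ) : ℝ :=
  (1 - (p : ℝ)⁻¹) ^ τ * ∑' e : ℕ, f (p ^ e) / (p : ℝ) ^ e

theorem one_sub_inv_pos {p : ℕ} (hp : p.Prime) : 0 < 1 - (p : ℝ)⁻¹ := by
  have hp1 : (1 : ℝ) < p := by exact_mod_cast hp.one_lt
  have := inv_lt_one_of_one_lt₀ hp1
  linarith

theorem prod_sf (X : ℕ) : ∏ p ∈ (Finset.Icc 1 X).filter Nat.Prime, sf f τ p =
    (∏ p ∈ (Finset.Icc 1 X).filter Nat.Prime, (1 - (p : ℝ)⁻¹)) ^ τ * MulF.pP f X := by
  unfold sf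
  rw [Finset.prod_mul_distrib, Real.finsetProd_rpow]
  · rfl
  · exact fun p hp => (one_sub_inv_pos (Finset.mem_filter.mp hp).2).le

namespace MulF

variable (D : MulF f τ)

include D in
/-- Wirsing's theorem with the constant as an Euler product -/
theorem tendsto_euler {P : ℝ} (hP : Tendsto (fun X : ℕ =>
    ∏ p ∈ (Finset.Icc 1 X).filter Nat.Prime, sf f τ p) atTop (𝓝 P)) :
    Tendsto (fun x : ℝ => (∑ n ∈ Finset.Icc 1 ⌊x⌋₊, f n) / (x * Real.log x ^ (τ - 1))) atTop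
      (𝓝 (P / Real.Gamma τ)) := by
  have h1 : Tendsto (fun X : ℕ => ((∏ p ∈ (Finset.Icc 1 X).filter Nat.Prime,
      (1 - (p : ℝ)⁻¹)) * Real.log X) ^ τ) atTop
      (𝓝 (Real.exp (-Real.eulerMascheroniConstant) ^ τ)) := by
    have h2 := prod_one_sub_inv.comp (tendsto_natCast_atTop_atTop (R := ℝ))
    have h3 := h2.rpow_const (p := τ) (Or.inl (Real.exp_pos _).ne')
    refine h3.congr fun X => ?_
    simp only [Function.comp_apply, Nat.floor_natCast]
  have hE : Real.exp (-Real.eulerMascheroniConstant) ^ τ =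
      Real.exp (-(τ * Real.eulerMascheroniConstant)) := by
    rw [← Real.exp_mul]
    congr 1
    ring
  rw [hE] at h1
  have hE0 := Real.exp_pos (-(τ * Real.eulerMascheroniConstant))
  have hG := Real.Gamma_pos_of_pos D.pos
  have h2 := (D.tendsto_nat.mul hP).div h1 hE0.ne'
  have e : Real.exp (-(τ * Real.eulerMascheroniConstant)) / Real.Gamma τ * P /
      Real.exp (-(τ * Real.eulerMascheroniConstant)) = P / Real.Gamma τ := by
    field_simp
  rw [e] at h2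
  have h3 : Tendsto (fun X : ℕ => sM f X / (X * Real.log X ^ (τ - 1))) atTop
      (𝓝 (P / Real.Gamma τ)) := by
    refine h2.congr' ?_
    filter_upwards [eventually_gt_atTop 1] with X hX
    have hX0 : (0 : ℝ) < X := by exact_mod_cast (by omega : 0 < X)
    have hl : 0 < Real.log X := Real.log_pos (by exact_mod_cast hX)
    have hp := (D.pP_pos X).ne'
    have hl' := (Real.rpow_pos_of_pos hl τ).ne'
    have hQ : 0 < ∏ p ∈ (Finset.Icc 1 X).filter Nat.Prime, (1 - (p : ℝ)⁻¹) :=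
      Finset.prod_pos fun p hp => one_sub_inv_pos (Finset.mem_filter.mp hp).2
    simp only [Pi.div_apply]
    rw [prod_sf, Real.mul_rpow hQ.le hl.le, Real.rpow_sub_one hl.ne']
    have hQ' := (Real.rpow_pos_of_pos hQ τ).ne'
    generalize (∏ p ∈ (Finset.Icc 1 X).filter Nat.Prime, (1 - (p : ℝ)⁻¹)) ^ τ = Q at hQ'
    field_simp
  exact tendsto_real_of_nat h3

theorem log_sf (hp : ∀ p : ℕ, p.Prime → f p = τ) (D : MulF f τ) (p : Nat.Primes) :
    sf f τ p = Real.exp (rr f 0 p - τ * Mert.rem (((p : ℕ) : ℝ)⁻¹)) := by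
  have h3 := D.one_le_ef p (zz_nonneg 0 p) (zz_le_half le_rfl p)
  have h4 := one_sub_inv_pos p.2
  have h5 : ∑' e : ℕ, f ((p : ℕ) ^ e) / ((p : ℕ) : ℝ) ^ e = ef f p (zz 0 p) := by
    rw [ef, zz_zero]
    exact tsum_congr fun e => by rw [inv_pow, div_eq_mul_inv]
  rw [sf, h5, rr, Mert.rem, Real.rpow_def_of_pos h4,
    show ef f p (zz 0 p) = Real.exp (Real.log (ef f p (zz 0 p))) from
      (Real.exp_log (by linarith)).symm, ← Real.exp_add, Real.log_exp, hp p p.2, zz_zero]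
  congr 1
  ring

theorem hasProd_sf (hp : ∀ p : ℕ, p.Prime → f p = τ) (D : MulF f τ) :
    Multipliable fun p : Nat.Primes => sf f τ p := by
  have h1 := isCount_primes.summable_rem (c := fun _ _ => 1) (fun _ _ => zero_le_one)
    (fun _ _ => le_rfl) (le_refl (0 : ℝ))
  simp only [one_mul, add_zero, Real.rpow_neg_one] at h1
  have h2 := ((D.summable_rr le_rfl).sub (h1.mul_left τ)).hasSum.rexp
  have h3 : (fun p : Nat.Primes => sf f τ p) =
      Real.exp ∘ fun p : Nat.Primes => rr f 0 p - τ * Mert.rem (((p : ℕ) : ℝ)⁻¹) :=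
    funext fun p => log_sf hp D p
  rw [h3]
  exact h2.multipliable

end MulF

/-- **The asymptotic formula for a multiplicative function with `f(p) = z` for all primes**
(`0 < z ≤ 1`): `∑_{n ≤ x} f(n) ~ (P / Γ(z)) x (log x) ^ (z - 1)`,
`P = ∏_p (1 - 1 / p) ^ z ∑_e f(p ^ e) / p ^ e`. -/
theorem selberg {z : ℝ} (hz : 0 < z) (hf0 : ∀ n, 0 ≤ f n) (hf1 : ∀ n, f n ≤ 1) (h1 : f 1 = 1)
    (hmul : ∀ m n : ℕ, m.Coprime n → f (m * n) = f m * f n) (hp : ∀ p : ℕ, p.Prime → f p = z) :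
    Tendsto (fun x : ℝ => (∑ n ∈ Finset.Icc 1 ⌊x⌋₊, f n) / (x * Real.log x ^ (z - 1))) atTop
      (𝓝 ((∏' p : Nat.Primes, (1 - ((p : ℕ) : ℝ)⁻¹) ^ z *
        ∑' e : ℕ, f ((p : ℕ) ^ e) / ((p : ℕ) : ℝ) ^ e) / Real.Gamma z)) := by
  have hlim : Tendsto (fun x : ℕ =>
      (∑ p ∈ (Finset.Ioc 0 x).filter Nat.Prime, f p * Real.log p) / x) atTop (𝓝 z) := by
    have h2 := tendsto_theta_one.const_mul z
    rw [mul_one] at h2
    refine h2.congr fun x => ?_
    rw [← mul_div_assoc, Finset.mul_sum]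
    congr 1
    exact Finset.sum_congr rfl fun p hp' => by rw [hp p (Finset.mem_filter.mp hp').2]
  have D : MulF f z := ⟨⟨hf0, hf1, hlim⟩, hz, h1, hmul⟩
  refine D.tendsto_euler ?_
  refine ((MulF.hasProd_sf hp D).hasProd.comp isCount_primes.tendsto_F).congr fun X => ?_
  have h2 := prod_F_primes (fun _ => True) (fun p => sf f z p) X
  simp only [Finset.filter_true, and_true] at h2
  exact h2

/-! ### Examples -/

open ArithmeticFunction

/-- **`∑_{n ≤ x} z ^ ω(n)`** (Selberg, Delange), `0 < z ≤ 1` -/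
theorem sum_pow_cardDistinctFactors {z : ℝ} (hz : 0 < z) (hz1 : z ≤ 1) :
    Tendsto (fun x : ℝ => (∑ n ∈ Finset.Icc 1 ⌊x⌋₊, z ^ cardDistinctFactors n) /
      (x * Real.log x ^ (z - 1))) atTop
      (𝓝 ((∏' p : Nat.Primes, (1 - ((p : ℕ) : ℝ)⁻¹) ^ z * (1 + z / (((p : ℕ) : ℝ) - 1))) /
        Real.Gamma z)) := by
  have h := selberg (f := fun n => z ^ cardDistinctFactors n) hz (fun n => by positivity)
    (fun n => pow_le_one₀ hz.le hz1) (by simp) (fun m n hmn => by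
      rw [cardDistinctFactors_mul hmn, pow_add]) (fun p hp => by
      rw [cardDistinctFactors_apply_prime hp, pow_one])
  have e : ∀ p : Nat.Primes, ∑' e : ℕ, z ^ cardDistinctFactors ((p : ℕ) ^ e) /
      ((p : ℕ) : ℝ) ^ e = 1 + z / (((p : ℕ) : ℝ) - 1) := by
    intro p
    have hp1 : (1 : ℝ) < ((p : ℕ) : ℝ) := by exact_mod_cast p.2.one_lt
    have hinv := inv_lt_one_of_one_lt₀ hp1
    have hs : HasSum (fun e : ℕ => z ^ cardDistinctFactors ((p : ℕ) ^ (e + 1)) /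
        ((p : ℕ) : ℝ) ^ (e + 1)) (z / (((p : ℕ) : ℝ) - 1)) := by
      have h1 := (hasSum_geometric_of_lt_one (r := (((p : ℕ) : ℝ)⁻¹)) (by positivity)
        hinv).mul_left (z * ((p : ℕ) : ℝ)⁻¹)
      have h2 : z * ((p : ℕ) : ℝ)⁻¹ * (1 - ((p : ℕ) : ℝ)⁻¹)⁻¹ = z / (((p : ℕ) : ℝ) - 1) := by
        have : ((p : ℕ) : ℝ) - 1 ≠ 0 := by linarith
        have : ((p : ℕ) : ℝ) ≠ 0 := by linarith
        have : 1 - ((p : ℕ) : ℝ)⁻¹ ≠ 0 := by linarith
        field_simp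
      rw [h2] at h1
      have h3 : (fun e : ℕ => z ^ cardDistinctFactors ((p : ℕ) ^ (e + 1)) /
          ((p : ℕ) : ℝ) ^ (e + 1)) = fun e : ℕ => z * ((p : ℕ) : ℝ)⁻¹ * (((p : ℕ) : ℝ)⁻¹) ^ e := by
        funext e
        rw [cardDistinctFactors_apply_prime_pow p.2 (Nat.succ_ne_zero e), pow_one, inv_pow,
          pow_succ, div_eq_mul_inv, mul_inv]
        ring
      rw [h3]
      exact h1
    rw [((hasSum_nat_add_iff (f := fun e : ℕ => z ^ cardDistinctFactors ((p : ℕ) ^ e) /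
        ((p : ℕ) : ℝ) ^ e) 1).mp hs).tsum_eq, Finset.sum_range_one, pow_zero, pow_zero,
      cardDistinctFactors_one, pow_zero, div_one, add_comm]
  simpa only [e] using h

/-- **`∑_{n ≤ x} z ^ Ω(n)`** (Selberg, Delange), `0 < z ≤ 1` -/
theorem sum_pow_cardFactors {z : ℝ} (hz : 0 < z) (hz1 : z ≤ 1) :
    Tendsto (fun x : ℝ => (∑ n ∈ Finset.Icc 1 ⌊x⌋₊, z ^ cardFactors n) /
      (x * Real.log x ^ (z - 1))) atTop
      (𝓝 ((∏' p : Nat.Primes, (1 - ((p : ℕ) : ℝ)⁻¹) ^ z * (1 - z / ((p : ℕ) : ℝ))⁻¹) /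
        Real.Gamma z)) := by
  -- `Ω` is additive on the products of non-zero numbers, and `z ^ Ω(0) = 1` plays no role
  set g : ℕ → ℝ := fun n => z ^ cardFactors n with hg
  have h := selberg (f := g) hz (fun n => by positivity)
    (fun n => pow_le_one₀ hz.le hz1) (by simp [hg]) (fun m n hmn => by
      rcases Nat.eq_zero_or_pos m with rfl | hm
      · rw [Nat.coprime_zero_left] at hmn
        rw [hmn, mul_one]
        simp [hg]
      rcases Nat.eq_zero_or_pos n with rfl | hn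
      · rw [Nat.coprime_zero_right] at hmn
        rw [hmn, one_mul]
        simp [hg]
      rw [hg]
      simp only
      rw [cardFactors_mul hm.ne' hn.ne', pow_add]) (fun p hp => by
      rw [hg]
      simp only
      rw [cardFactors_apply_prime hp, pow_one])
  have e : ∀ p : Nat.Primes, ∑' e : ℕ, g ((p : ℕ) ^ e) /
      ((p : ℕ) : ℝ) ^ e = (1 - z / ((p : ℕ) : ℝ))⁻¹ := by
    intro p
    have hp1 : (1 : ℝ) < ((p : ℕ) : ℝ) := by exact_mod_cast p.2.one_lt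
    have h1 : z / ((p : ℕ) : ℝ) < 1 := by
      rw [div_lt_one (by linarith)]
      linarith
    rw [← tsum_geometric_of_lt_one (by positivity) h1]
    refine tsum_congr fun e => ?_
    rw [hg]
    simp only
    rw [cardFactors_apply_prime_pow p.2, div_pow]
  simpa only [e] using h

/-- the local factor of `1 / d(n)` -/
theorem tsum_inv_card_divisors (p : Nat.Primes) : ∑' e : ℕ,
    (((((p : ℕ) ^ e).divisors.card : ℕ) : ℝ)⁻¹) / ((p : ℕ) : ℝ) ^ e =
      ((p : ℕ) : ℝ) * Real.log (((p : ℕ) : ℝ) / (((p : ℕ) : ℝ) - 1)) := by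
  have hp1 : (1 : ℝ) < ((p : ℕ) : ℝ) := by exact_mod_cast p.2.one_lt
  have hinv := inv_lt_one_of_one_lt₀ hp1
  have h1 := (Real.hasSum_pow_div_log_of_abs_lt_one (x := (((p : ℕ) : ℝ)⁻¹))
    (by rw [abs_of_pos (by positivity)]; exact hinv)).mul_left ((p : ℕ) : ℝ)
  have h2 : ((p : ℕ) : ℝ) * -Real.log (1 - ((p : ℕ) : ℝ)⁻¹) =
      ((p : ℕ) : ℝ) * Real.log (((p : ℕ) : ℝ) / (((p : ℕ) : ℝ) - 1)) := by
    rw [← Real.log_inv]
    congr 2
    have : ((p : ℕ) : ℝ) - 1 ≠ 0 := by linarith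
    have : ((p : ℕ) : ℝ) ≠ 0 := by linarith
    have : 1 - ((p : ℕ) : ℝ)⁻¹ ≠ 0 := by linarith
    field_simp
  rw [← h2, ← h1.tsum_eq]
  refine tsum_congr fun e => ?_
  have hp0 : ((p : ℕ) : ℝ) ≠ 0 := by linarith
  rw [Nat.divisors_prime_pow p.2, Finset.card_map, Finset.card_range, inv_pow, pow_succ]
  push_cast
  field_simp

/-- **Ramanujan (1916), Wilson (1923)**: `∑_{n ≤ x} 1 / d(n) ~ A x / √(log x)`,
`A = π ^ (-1/2) ∏_p √(p² - p) log (p / (p - 1))`. -/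
theorem sum_inv_card_divisors :
    Tendsto (fun x : ℝ => (∑ n ∈ Finset.Icc 1 ⌊x⌋₊, ((n.divisors.card : ℕ) : ℝ)⁻¹) *
      Real.sqrt (Real.log x) / x) atTop
      (𝓝 ((∏' p : Nat.Primes, Real.sqrt (((p : ℕ) : ℝ) ^ 2 - ((p : ℕ) : ℝ)) *
        Real.log (((p : ℕ) : ℝ) / (((p : ℕ) : ℝ) - 1))) / Real.sqrt Real.pi)) := by
  have h := selberg (f := fun n => ((n.divisors.card : ℕ) : ℝ)⁻¹) (z := 1 / 2) (by norm_num)
    (fun n => by positivity)
    (fun n => by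
      rcases Nat.eq_zero_or_pos n.divisors.card with h0 | h0
      · rw [h0]
        norm_num
      · exact inv_le_one_of_one_le₀ (by exact_mod_cast h0)) (by simp) (fun m n hmn => by
      rw [hmn.card_divisors_mul, Nat.cast_mul, mul_inv]) (fun p hp => by
      rw [hp.divisors, Finset.card_pair hp.one_lt.ne]
      norm_num)
  simp only [tsum_inv_card_divisors] at h
  rw [Real.Gamma_one_half_eq] at h
  have e : ∀ p : Nat.Primes, (1 - ((p : ℕ) : ℝ)⁻¹) ^ (1 / 2 : ℝ) *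
      (((p : ℕ) : ℝ) * Real.log (((p : ℕ) : ℝ) / (((p : ℕ) : ℝ) - 1))) =
      Real.sqrt (((p : ℕ) : ℝ) ^ 2 - ((p : ℕ) : ℝ)) *
        Real.log (((p : ℕ) : ℝ) / (((p : ℕ) : ℝ) - 1)) := by
    intro p
    have hp0 : (0 : ℝ) < ((p : ℕ) : ℝ) := by exact_mod_cast p.2.pos
    rw [← Real.sqrt_eq_rpow, ← mul_assoc]
    congr 1
    rw [show ((p : ℕ) : ℝ) ^ 2 - ((p : ℕ) : ℝ) = (1 - ((p : ℕ) : ℝ)⁻¹) * ((p : ℕ) : ℝ) ^ 2 by
      field_simp, Real.sqrt_mul (one_sub_inv_pos p.2).le, Real.sqrt_sq hp0.le]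
  simp only [e] at h
  refine h.congr' ?_
  filter_upwards [eventually_gt_atTop 1] with x hx
  have hl := Real.log_pos hx
  rw [show (1 / 2 - 1 : ℝ) = -(1 / 2) by norm_num, Real.rpow_neg hl.le, ← Real.sqrt_eq_rpow]
  have := (Real.sqrt_pos.mpr hl).ne'
  field_simp

end Fermat.Agent.Cor.LR
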