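import Fermat.Agent.Corollaries.LR.General

/-!
# The integers all of whose prime factors are in a given set

`S` a set of primes of natural density `τ > 0`. Then
`#{n ≤ x : p ∣ n ⇒ p ∈ S} ~ (e ^ (-γ τ) / Γ(τ)) (x / log x) ∏_{p ≤ x, p ∈ S} (1 - 1 / p)⁻¹`, and for a
union of classes modulo `q` it is `~ C x (log x) ^ (τ - 1)`.
-/

set_option autoImplicit false

open Filter Topology

namespace Fermat.Agent.Cor.LR

open Mert

/-- from the number of primes to Chebyshev's function -/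
theorem tendsto_th_of_cnt {c : Nat.Primes → ℕ → ℝ} (hc0 : ∀ i k, 0 ≤ c i k)
    (hc1 : ∀ i k, c i k ≤ 1) {A : ℝ}
    (h : Tendsto (fun x : ℝ => isCount_primes.cnt c ⌊x⌋₊ * Real.log x / x) atTop (𝓝 A)) :
    Tendsto (fun x : ℝ => isCount_primes.th c ⌊x⌋₊ / x) atTop (𝓝 A) := by
  have h1 : Tendsto (fun x : ℝ => (isCount_primes.cnt c ⌊x⌋₊ * Real.log x / x) *
      (1 - 2 * (Real.log (Real.log x) / Real.log x)) -
      (Real.log x)⁻¹ * (1 - 2 * (Real.log (Real.log x) / Real.log x))) atTop (𝓝 A) := by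
    have h2 := (h.mul IsCount.tendsto_aux).sub
      ((tendsto_inv_atTop_zero.comp Real.tendsto_log_atTop).mul IsCount.tendsto_aux)
    rw [mul_one, zero_mul, sub_zero] at h2
    exact h2
  refine tendsto_of_tendsto_of_tendsto_of_le_of_le' h1 h ?_ ?_
  · filter_upwards [eventually_gt_atTop 1, Real.tendsto_log_atTop.eventually_gt_atTop 1,
      IsCount.tendsto_aux.eventually (lt_mem_nhds zero_lt_one)] with x hx hl hu
    have hx0 : 0 < x := one_pos.trans hx
    have hl0 : 0 < Real.log x := one_pos.trans hl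
    set y : ℝ := x / Real.log x ^ 2 with hyd
    have hy0 : 0 < y := by positivity
    have hly : Real.log y =
        Real.log x * (1 - 2 * (Real.log (Real.log x) / Real.log x)) := by
      rw [hyd, Real.log_div hx0.ne' (by positivity), Real.log_pow]
      field_simp
      push_cast
      ring
    have hly0 : 0 < Real.log y := by
      rw [hly]
      exact mul_pos hl0 hu
    have hy1 : 1 < y := (Real.log_pos_iff hy0.le).1 hly0
    have h3 := isCount_primes.cnt_le hc0 hc1 (x := x) hy1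
    rw [one_mul, ← sub_le_iff_le_add', le_div_iff₀ hly0] at h3
    rw [le_div_iff₀ hx0]
    refine le_trans (le_of_eq ?_) h3
    rw [hly, hyd]
    generalize 1 - 2 * (Real.log (Real.log x) / Real.log x) = u at hu
    field_simp
  · filter_upwards [eventually_ge_atTop 1] with x hx
    exact div_le_div_of_nonneg_right (isCount_primes.th_le_cnt hc0 hx) (zero_le_one.trans hx)

/-- the integers all of whose prime factors are in `S` -/
def InS (S : Set ℕ) (n : ℕ) : Prop := n ≠ 0 ∧ ∀ p : ℕ, p.Prime → p ∣ n → p ∈ S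

open Classical in
/-- the indicator function -/
noncomputable def indS (S : Set ℕ) (n : ℕ) : ℝ := if InS S n then 1 else 0

variable {S : Set ℕ}

theorem inS_one : InS S 1 :=
  ⟨one_ne_zero, fun _ hp h => absurd (Nat.dvd_one.mp h) hp.one_lt.ne'⟩

theorem inS_mul (m n : ℕ) : InS S (m * n) ↔ InS S m ∧ InS S n := by
  unfold InS
  constructor
  · rintro ⟨h0, h⟩
    obtain ⟨hm, hn⟩ := mul_ne_zero_iff.mp h0
    exact ⟨⟨hm, fun p hp hd => h p hp (hd.mul_right n)⟩, hn, fun p hp hd => h p hp (hd.mul_left m)⟩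
  · rintro ⟨⟨hm, h1⟩, hn, h2⟩
    refine ⟨mul_ne_zero hm hn, fun p hp hd => ?_⟩
    rcases (Nat.Prime.dvd_mul hp).mp hd with h | h
    · exact h1 p hp h
    · exact h2 p hp h

theorem inS_prime {p : ℕ} (hp : p.Prime) : InS S p ↔ p ∈ S := by
  unfold InS
  constructor
  · intro h
    exact h.2 p hp dvd_rfl
  · intro h
    refine ⟨hp.ne_zero, fun q hq hd => ?_⟩
    rwa [(Nat.prime_dvd_prime_iff_eq hq hp).mp hd]

theorem inS_pow {p : ℕ} (hp : p.Prime) (e : ℕ) : InS S (p ^ (e + 1)) ↔ p ∈ S := by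
  induction e with
  | zero => rw [zero_add, pow_one, inS_prime hp]
  | succ e ih => rw [pow_succ, inS_mul, ih, inS_prime hp, and_self]

theorem indS_nonneg (n : ℕ) : 0 ≤ indS S n := by
  unfold indS
  split_ifs <;> norm_num

theorem indS_le_one (n : ℕ) : indS S n ≤ 1 := by
  unfold indS
  split_ifs <;> norm_num

theorem indS_mul (m n : ℕ) : indS S (m * n) = indS S m * indS S n := by
  unfold indS
  by_cases h1 : InS S m <;> by_cases h2 : InS S n <;> simp [h1, h2, inS_mul]

theorem indS_one : indS S 1 = 1 := if_pos inS_one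

open Classical in
theorem indS_prime {p : ℕ} (hp : p.Prime) : indS S p = if p ∈ S then 1 else 0 := by
  unfold indS
  by_cases h : p ∈ S
  · rw [if_pos h, if_pos ((inS_prime hp).mpr h)]
  · rw [if_neg h, if_neg (fun h' => h ((inS_prime hp).mp h'))]

open Classical in
theorem tsum_indS {p : ℕ} (hp : p.Prime) : ∑' e : ℕ, indS S (p ^ e) / (p : ℝ) ^ e =
    if p ∈ S then (1 - (p : ℝ)⁻¹)⁻¹ else 1 := by
  have hp1 : (1 : ℝ) < p := by exact_mod_cast hp.one_lt
  split_ifs with h
  · rw [← tsum_geometric_of_lt_one (by positivity) (inv_lt_one_of_one_lt₀ hp1)]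
    refine tsum_congr fun e => ?_
    rw [inv_pow, ← one_div]
    congr 1
    cases e with
    | zero => rw [pow_zero, indS_one]
    | succ e => exact if_pos ((inS_pow hp e).mpr h)
  · rw [tsum_eq_single 0]
    · rw [pow_zero, pow_zero, indS_one, div_one]
    · intro e he
      obtain ⟨k, rfl⟩ := Nat.exists_eq_succ_of_ne_zero he
      rw [indS, if_neg (fun h' => h ((inS_pow hp k).mp h')), zero_div]

/-- `∑_{n ≤ x} indS n` -/
theorem sum_indS (X : ℕ) : ∑ n ∈ Finset.Icc 1 X, indS S n =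
    Nat.card {n : ℕ // n ∈ Finset.Icc 1 X ∧ ∀ p : ℕ, p.Prime → p ∣ n → p ∈ S} := by
  classical
  have h1 : ∑ n ∈ Finset.Icc 1 X, indS S n = (((Finset.Icc 1 X).filter (InS S)).card : ℝ) := by
    unfold indS
    rw [Finset.sum_boole]
  rw [h1, ← Nat.card_eq_finsetCard]
  congr 1
  refine Nat.card_congr (Equiv.subtypeEquivRight fun n => ?_)
  rw [Finset.mem_filter, Finset.mem_Icc, InS]
  constructor
  · rintro ⟨h2, _, h4⟩
    exact ⟨h2, h4⟩
  · rintro ⟨h2, h4⟩
    exact ⟨h2, by omega, h4⟩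

open Classical in
/-- **The integers all of whose prime factors are in `S`**, `S` a set of primes with a natural
density `τ > 0`. -/
theorem wirsing_set {τ : ℝ} (hτ : 0 < τ)
    (hS : Tendsto (fun x : ℝ => (((Finset.Icc 1 ⌊x⌋₊).filter
      (fun p : ℕ => p.Prime ∧ p ∈ S)).card : ℝ) * Real.log x / x) atTop (𝓝 τ)) :
    Tendsto (fun x : ℝ => (Nat.card {n : ℕ // n ∈ Finset.Icc 1 ⌊x⌋₊ ∧
      ∀ p : ℕ, p.Prime → p ∣ n → p ∈ S} : ℝ) * Real.log x /
      (x * ∏ p ∈ (Finset.Icc 1 ⌊x⌋₊).filter (fun p : ℕ => p.Prime ∧ p ∈ S), (1 - (p : ℝ)⁻¹)⁻¹))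
      atTop (𝓝 (Real.exp (-(τ * Real.eulerMascheroniConstant)) / Real.Gamma τ)) := by
  have h1 : Tendsto (fun x : ℝ => isCount_primes.cnt
      (fun p _ => if (p : ℕ) ∈ S then 1 else 0) ⌊x⌋₊ * Real.log x / x) atTop (𝓝 τ) := by
    refine hS.congr fun x => ?_
    congr 2
    have h2 := sum_F_primes (fun p => p ∈ S) (fun _ => 1) ⌊x⌋₊
    rw [IsCount.cnt, ← Finset.sum_filter, h2, Finset.sum_const, nsmul_eq_mul, mul_one]
  have h2 := (tendsto_th_of_cnt (fun _ _ => by split_ifs <;> norm_num)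
    (fun _ _ => by split_ifs <;> norm_num) h1).comp (tendsto_natCast_atTop_atTop (R := ℝ))
  have h3 : Tendsto (fun x : ℕ =>
      (∑ p ∈ (Finset.Ioc 0 x).filter Nat.Prime, indS S p * Real.log p) / x) atTop (𝓝 τ) := by
    refine h2.congr fun x => ?_
    simp only [Function.comp_apply, Nat.floor_natCast]
    congr 1
    have h4 := sum_F_primes (fun _ => True) (fun p => indS S p * Real.log p) x
    simp only [Finset.filter_true, and_true] at h4
    rw [show (Finset.Ioc 0 x).filter Nat.Prime = (Finset.Icc 1 x).filter Nat.Prime from rfl, ← h4,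
      IsCount.th]
    exact Finset.sum_congr rfl fun p _ => by rw [indS_prime p.2]
  refine (wirsing indS_nonneg indS_le_one indS_one (fun m n _ => indS_mul m n) hτ h3).congr
    fun x => ?_
  have h5 : ∏ p ∈ (Finset.Icc 1 ⌊x⌋₊).filter (fun p : ℕ => p.Prime ∧ p ∈ S), (1 - (p : ℝ)⁻¹)⁻¹ =
      ∏ p ∈ (Finset.Icc 1 ⌊x⌋₊).filter Nat.Prime, if p ∈ S then (1 - (p : ℝ)⁻¹)⁻¹ else 1 := by
    rw [← Finset.filter_filter, Finset.prod_filter]
  rw [sum_indS, h5]
  congr 2
  exact Finset.prod_congr rfl fun p hp => tsum_indS (Finset.mem_filter.mp hp).2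

section Classes

variable {q : ℕ} [NeZero q]

/-- the number of primes in a union of classes -/
theorem tendsto_card_classes (H : Finset (ZMod q)) (hH : ∀ a ∈ H, IsUnit a) :
    Tendsto (fun x : ℝ => (((Finset.Icc 1 ⌊x⌋₊).filter
      (fun p : ℕ => p.Prime ∧ (p : ZMod q) ∈ H)).card : ℝ) * Real.log x / x) atTop
      (𝓝 (H.card / q.totient)) := by
  have h1 : Tendsto (fun x : ℝ => ∑ a ∈ H, (((Finset.Icc 1 ⌊x⌋₊).filter
      fun p : ℕ => p.Prime ∧ (p : ZMod q) = a).card : ℝ) * Real.log x / x) atTop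
      (𝓝 (∑ a ∈ H, (q.totient : ℝ)⁻¹)) :=
    tendsto_finsetSum _ fun a ha => prime_number_theorem_ap (hH a ha)
  rw [Finset.sum_const, nsmul_eq_mul, ← div_eq_mul_inv] at h1
  refine h1.congr fun x => ?_
  rw [← Finset.sum_div, ← Finset.sum_mul, ← Nat.cast_sum]
  congr 3
  rw [← Finset.card_biUnion]
  · congr 1
    ext p
    simp only [Finset.mem_biUnion, Finset.mem_filter]
    constructor
    · rintro ⟨a, ha, h2, h3, rfl⟩
      exact ⟨h2, h3, ha⟩
    · rintro ⟨h2, h3, h4⟩
      exact ⟨_, h4, h2, h3, rfl⟩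
  · intro a _ b _ hab
    rw [Function.onFun, Finset.disjoint_left]
    intro p hp hp'
    exact hab ((Finset.mem_filter.mp hp).2.2.symm.trans (Finset.mem_filter.mp hp').2.2)

/-- the product over the primes of a union of classes -/
theorem prod_classes (H : Finset (ZMod q)) (hH : ∀ a ∈ H, IsUnit a) : ∃ c : ℝ, 0 < c ∧
    Tendsto (fun x : ℝ => (∏ p ∈ (Finset.Icc 1 ⌊x⌋₊).filter
      (fun p : ℕ => p.Prime ∧ (p : ZMod q) ∈ H), (1 - (p : ℝ)⁻¹)) *
      Real.log x ^ ((H.card : ℝ) / q.totient)) atTop (𝓝 c) := by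
  classical
  choose! c hc0 hc using fun a (ha : a ∈ H) => prod_ap (hH a ha)
  refine ⟨∏ a ∈ H, c a, Finset.prod_pos hc0, ?_⟩
  refine (tendsto_finsetProd H fun a ha => hc a ha).congr' ?_
  filter_upwards [eventually_gt_atTop 1] with x hx
  have hl := Real.log_pos hx
  rw [Finset.prod_mul_distrib, Finset.prod_const, ← Real.rpow_natCast, ← Real.rpow_mul hl.le]
  congr 1
  · rw [← Finset.prod_biUnion]
    · refine Finset.prod_congr ?_ fun _ _ => rfl
      ext p
      simp only [Finset.mem_biUnion, Finset.mem_filter]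
      constructor
      · rintro ⟨a, ha, h2, h3, rfl⟩
        exact ⟨h2, h3, ha⟩
      · rintro ⟨h2, h3, h4⟩
        exact ⟨_, h4, h2, h3, rfl⟩
    · intro a _ b _ hab
      rw [Function.onFun, Finset.disjoint_left]
      intro p hp hp'
      exact hab ((Finset.mem_filter.mp hp).2.2.symm.trans (Finset.mem_filter.mp hp').2.2)
  · congr 1
    field_simp

/-- **The integers all of whose prime factors are in given classes modulo `q`**:
`~ C x (log x) ^ (τ - 1)` of them are `≤ x`, `τ` the density of the classes, `C > 0`. -/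
theorem card_classes (H : Finset (ZMod q)) (hH : ∀ a ∈ H, IsUnit a) (hne : H.Nonempty) :
    ∃ C : ℝ, 0 < C ∧ Tendsto (fun x : ℝ => (Nat.card {n : ℕ // n ∈ Finset.Icc 1 ⌊x⌋₊ ∧
      ∀ p : ℕ, p.Prime → p ∣ n → (p : ZMod q) ∈ H} : ℝ) /
      (x * Real.log x ^ ((H.card : ℝ) / q.totient - 1))) atTop (𝓝 C) := by
  classical
  have hφ : 0 < (q.totient : ℝ) := by exact_mod_cast Nat.totient_pos.mpr (NeZero.pos q)
  have hτ : 0 < (H.card : ℝ) / q.totient := div_pos (by exact_mod_cast hne.card_pos) hφ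
  obtain ⟨c, hc0, hc⟩ := prod_classes H hH
  have h1 : Tendsto (fun x : ℝ => (Nat.card {n : ℕ // n ∈ Finset.Icc 1 ⌊x⌋₊ ∧
      ∀ p : ℕ, p.Prime → p ∣ n → (p : ZMod q) ∈ H} : ℝ) * Real.log x /
      (x * (∏ p ∈ (Finset.Icc 1 ⌊x⌋₊).filter
      (fun p : ℕ => p.Prime ∧ (p : ZMod q) ∈ H), (1 - (p : ℝ)⁻¹))⁻¹)) atTop
      (𝓝 (Real.exp (-((H.card : ℝ) / q.totient * Real.eulerMascheroniConstant)) /
        Real.Gamma ((H.card : ℝ) / q.totient))) := by
    refine (wirsing_set (S := {n : ℕ | (n : ZMod q) ∈ H}) hτ ?_).congr fun x => ?_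
    · refine (tendsto_card_classes H hH).congr fun x => ?_
      congr 4
      ext p
      simp only [Finset.mem_filter, Set.mem_ofPred_eq]
    · rw [Finset.prod_inv_distrib]
      congr 3
      refine Finset.prod_congr ?_ fun _ _ => rfl
      ext p
      simp only [Finset.mem_filter, Set.mem_ofPred_eq]
  refine ⟨_, ?_, (h1.div hc hc0.ne').congr' ?_⟩
  · have := Real.Gamma_pos_of_pos hτ
    positivity
  filter_upwards [eventually_gt_atTop 1] with x hx
  have hl := Real.log_pos hx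
  have hP : 0 < ∏ p ∈ (Finset.Icc 1 ⌊x⌋₊).filter
      (fun p : ℕ => p.Prime ∧ (p : ZMod q) ∈ H), (1 - (p : ℝ)⁻¹) := by
    refine Finset.prod_pos fun p hp => ?_
    have hp1 : (1 : ℝ) < p := by exact_mod_cast (Finset.mem_filter.mp hp).2.1.one_lt
    have := inv_lt_one_of_one_lt₀ hp1
    linarith
  simp only [Pi.div_apply]
  rw [Real.rpow_sub_one hl.ne']
  have h2 := (Real.rpow_pos_of_pos hl ((H.card : ℝ) / q.totient)).ne'
  generalize (∏ p ∈ (Finset.Icc 1 ⌊x⌋₊).filter
      (fun p : ℕ => p.Prime ∧ (p : ZMod q) ∈ H), (1 - (p : ℝ)⁻¹)) = P at hP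
  have h3 := hP.ne'
  field_simp

end Classes

end Fermat.Agent.Cor.LR
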