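import Fermat.Agent.Corollaries.LR.Karamata

/-!
# The mean value of a multiplicative function with values in `[0, 1]`

`f` multiplicative, `0 ≤ f ≤ 1`, `∑_{p ≤ x} f(p) log p ~ τ x`, `τ > 0`, and
`δ ^ τ ∑ f(n) n ^ (-1 - δ) → C > 0` as `δ → 0+`. Then
`∑_{n ≤ x} f(n) ~ (C / Γ(τ)) x (log x) ^ (τ - 1)`.

`∑_{n ≤ x} f(n) log n = ∑_{m ≤ x} f(m) ∑_{p ≤ x / m} f(p) log p + O(x)`, and Karamata's theorem.
-/

set_option autoImplicit false

open Filter Topology

namespace Fermat.Agent.Cor.LR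

open ArithmeticFunction in
/-- rearrangement of a sum over pairs `(d, m)`, `d m ≤ X` -/
theorem sum_antidiagonal (F : ℕ → ℕ → ℝ) (X : ℕ) :
    ∑ n ∈ Finset.Ioc 0 X, ∑ x ∈ n.divisorsAntidiagonal, F x.1 x.2 =
      ∑ d ∈ Finset.Ioc 0 X, ∑ m ∈ Finset.Ioc 0 (X / d), F d m := by
  have h1 : ∑ n ∈ Finset.Ioc 0 X, ∑ x ∈ n.divisorsAntidiagonal, F x.1 x.2 =
      ∑ x ∈ Finset.Ioc 0 X ×ˢ Finset.Ioc 0 X with x.1 * x.2 ≤ X, F x.1 x.2 := by
    trans ∑ n ∈ Finset.Ioc 0 X, ∑ x ∈ Finset.Ioc 0 X ×ˢ Finset.Ioc 0 X with x.1 * x.2 = n, F x.1 x.2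
    · refine Finset.sum_congr rfl fun n hn ↦ ?_
      simp only [Finset.mem_Ioc] at hn
      rw [Nat.divisorsAntidiagonal_eq_prod_filter_of_le hn.1.ne' hn.2]
    · simp_rw [Finset.sum_filter]
      rw [Finset.sum_comm]
      exact Finset.sum_congr rfl fun _ _ ↦ (by simp_all)
  rw [h1, Finset.sum_filter, Finset.sum_product]
  refine Finset.sum_congr rfl fun d hd => ?_
  rw [← Finset.sum_filter]
  refine Finset.sum_congr ?_ fun _ _ => rfl
  ext m
  simp only [Finset.mem_filter, Finset.mem_Ioc] at hd ⊢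
  rw [Nat.le_div_iff_mul_le hd.1, mul_comm m d]
  constructor
  · rintro ⟨⟨h2, _⟩, h4⟩
    exact ⟨h2, h4⟩
  · rintro ⟨h2, h4⟩
    exact ⟨⟨h2, (Nat.le_mul_of_pos_left m hd.1).trans h4⟩, h4⟩

/-- the hypotheses on `f` -/
structure MulDat (f : ℕ → ℝ) (τ : ℝ) : Prop where
  nonneg : ∀ n, 0 ≤ f n
  le_one : ∀ n, f n ≤ 1
  mul : ∀ p m : ℕ, p.Prime → ¬ p ∣ m → f (p * m) = f p * f m
  lim : Tendsto (fun x : ℕ => (∑ p ∈ (Finset.Ioc 0 x).filter Nat.Prime, f p * Real.log p) / x)
    atTop (𝓝 τ)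

variable {f : ℕ → ℝ} {τ : ℝ}

/-- `∑_{n ≤ x} f(n)` -/
noncomputable def sM (f : ℕ → ℝ) (X : ℕ) : ℝ := ∑ n ∈ Finset.Ioc 0 X, f n

/-- `∑_{n ≤ x} f(n) / n` -/
noncomputable def sL (f : ℕ → ℝ) (X : ℕ) : ℝ := ∑ n ∈ Finset.Ioc 0 X, f n / n

/-- `∑_{n ≤ x} f(n) log n` -/
noncomputable def sN (f : ℕ → ℝ) (X : ℕ) : ℝ := ∑ n ∈ Finset.Ioc 0 X, f n * Real.log n

/-- `∑_{p ≤ x} f(p) log p` -/
noncomputable def sT (f : ℕ → ℝ) (X : ℕ) : ℝ :=
  ∑ p ∈ (Finset.Ioc 0 X).filter Nat.Prime, f p * Real.log p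

/-- the error terms -/
noncomputable def eD (d : ℕ) : ℝ :=
  if d.Prime then Real.log d / (d : ℝ) ^ 2 else ArithmeticFunction.vonMangoldt d / d

theorem eD_nonneg (d : ℕ) : 0 ≤ eD d := by
  unfold eD
  split_ifs
  · exact div_nonneg (Real.log_natCast_nonneg d) (by positivity)
  · exact div_nonneg ArithmeticFunction.vonMangoldt_nonneg (Nat.cast_nonneg d)

theorem summable_eD : Summable eD := by
  have h1 := ArithmeticFunction.vonMangoldt.summable_residueClass_non_primes_div (q := 1) 1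
  have h2 : Summable fun d : ℕ => 2 * (d : ℝ) ^ (-(3 / 2) : ℝ) :=
    (Real.summable_nat_rpow.mpr (by norm_num)).mul_left 2
  refine Summable.of_nonneg_of_le eD_nonneg (fun d => ?_) (h1.add h2)
  unfold eD
  have h4 : ArithmeticFunction.vonMangoldt.residueClass (1 : ZMod 1) d =
      ArithmeticFunction.vonMangoldt d :=
    Set.indicator_of_mem (show d ∈ {n : ℕ | (n : ZMod 1) = 1} from Subsingleton.elim _ _) _
  split_ifs with hd
  · have hd0 : (0 : ℝ) < d := by exact_mod_cast hd.pos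
    rw [zero_div, zero_add]
    have h3 := Real.log_le_rpow_div hd0.le (show (0 : ℝ) < 1 / 2 by norm_num)
    have h5 : (d : ℝ) ^ (-(3 / 2) : ℝ) = (d : ℝ) ^ (1 / 2 : ℝ) / (d : ℝ) ^ 2 := by
      rw [← Real.rpow_natCast (d : ℝ) 2, ← Real.rpow_sub hd0]
      norm_num
    rw [h5]
    calc Real.log d / (d : ℝ) ^ 2 ≤ ((d : ℝ) ^ (1 / 2 : ℝ) / (1 / 2)) / (d : ℝ) ^ 2 := by gcongr
      _ = _ := by ring
  · rw [h4]
    have : 0 ≤ 2 * (d : ℝ) ^ (-(3 / 2) : ℝ) := by positivity
    linarith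

namespace MulDat

variable (D : MulDat f τ)

theorem sN_eq (f : ℕ → ℝ) (X : ℕ) : sN f X = ∑ d ∈ Finset.Ioc 0 X,
    ArithmeticFunction.vonMangoldt d * ∑ m ∈ Finset.Ioc 0 (X / d), f (d * m) := by
  have h1 := sum_antidiagonal (fun d m => ArithmeticFunction.vonMangoldt d * f (d * m)) X
  simp only [← Finset.mul_sum] at h1
  rw [← h1, sN]
  refine Finset.sum_congr rfl fun n hn => ?_
  rw [← ArithmeticFunction.vonMangoldt_sum, Finset.mul_sum,
    ← Nat.sum_divisorsAntidiagonal (fun i _ => f n * ArithmeticFunction.vonMangoldt i)]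
  refine Finset.sum_congr rfl fun x hx => ?_
  rw [(Nat.mem_divisorsAntidiagonal.mp hx).1]
  ring

/-- `∑_{m ≤ x} f(m) ∑_{p ≤ x / m} f(p) log p` -/
theorem sum_sT (f : ℕ → ℝ) (X : ℕ) : ∑ m ∈ Finset.Ioc 0 X, f m * sT f (X / m) =
    ∑ d ∈ Finset.Ioc 0 X, (if d.Prime then Real.log d * f d else 0) *
      ∑ m ∈ Finset.Ioc 0 (X / d), f m := by
  have h1 := sum_antidiagonal (fun d m => (if d.Prime then Real.log d * f d else 0) * f m) X
  have h2 := sum_antidiagonal (fun m d => (if d.Prime then Real.log d * f d else 0) * f m) X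
  have h3 : ∑ n ∈ Finset.Ioc 0 X, ∑ x ∈ n.divisorsAntidiagonal,
      (if x.1.Prime then Real.log x.1 * f x.1 else 0) * f x.2 =
      ∑ n ∈ Finset.Ioc 0 X, ∑ x ∈ n.divisorsAntidiagonal,
      (if x.2.Prime then Real.log x.2 * f x.2 else 0) * f x.1 := by
    refine Finset.sum_congr rfl fun n _ => ?_
    rw [Nat.sum_divisorsAntidiagonal
        (fun i j => (if i.Prime then Real.log i * f i else 0) * f j),
      Nat.sum_divisorsAntidiagonal'
        (fun i j => (if j.Prime then Real.log j * f j else 0) * f i)]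
  simp only [← Finset.mul_sum] at h1
  rw [← h1, h3, h2]
  refine Finset.sum_congr rfl fun m _ => ?_
  rw [sT, Finset.sum_filter, Finset.mul_sum]
  refine Finset.sum_congr rfl fun p _ => ?_
  split_ifs
  · ring
  · ring

include D in
/-- the comparison for one `d` -/
theorem abs_sub_le (X d : ℕ) (hd : 0 < d) :
    |ArithmeticFunction.vonMangoldt d * ∑ m ∈ Finset.Ioc 0 (X / d), f (d * m) -
      (if d.Prime then Real.log d * f d else 0) * ∑ m ∈ Finset.Ioc 0 (X / d), f m| ≤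
      eD d * X := by
  have hd0 : (0 : ℝ) < d := by exact_mod_cast hd
  unfold eD
  split_ifs with hp
  · have hl : 0 ≤ Real.log d := Real.log_natCast_nonneg d
    rw [ArithmeticFunction.vonMangoldt_apply_prime hp, mul_assoc, ← mul_sub, abs_mul,
      abs_of_nonneg hl, Finset.mul_sum, ← Finset.sum_sub_distrib]
    have h1 : |∑ m ∈ Finset.Ioc 0 (X / d), (f (d * m) - f d * f m)| ≤
        ∑ m ∈ Finset.Ioc 0 (X / d), if d ∣ m then (1 : ℝ) else 0 := by
      refine (Finset.abs_sum_le_sum_abs _ _).trans (Finset.sum_le_sum fun m _ => ?_)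
      split_ifs with hdm
      · have h2 := D.nonneg (d * m)
        have h3 := D.le_one (d * m)
        have h4 : 0 ≤ f d * f m := mul_nonneg (D.nonneg _) (D.nonneg _)
        have h5 : f d * f m ≤ 1 := mul_le_one₀ (D.le_one _) (D.nonneg _) (D.le_one _)
        rw [abs_le]
        constructor <;> linarith
      · rw [D.mul d m hp hdm, sub_self, abs_zero]
    have h2 : ∑ m ∈ Finset.Ioc 0 (X / d), (if d ∣ m then (1 : ℝ) else 0) = ((X / d / d : ℕ) : ℝ) := by
      rw [← Finset.sum_filter, Finset.sum_const, nsmul_eq_mul, mul_one, Nat.Ioc_filter_dvd_card_eq_div]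
    have h3 : ((X / d / d : ℕ) : ℝ) ≤ X / (d : ℝ) ^ 2 := by
      rw [Nat.div_div_eq_div_mul, sq]
      have := Nat.cast_div_le (α := ℝ) (m := X) (n := d * d)
      rwa [Nat.cast_mul] at this
    calc Real.log d * _ ≤ Real.log d * (X / (d : ℝ) ^ 2) := by
          gcongr
          exact h1.trans (h2.le.trans h3)
      _ = _ := by ring
  · rw [zero_mul, sub_zero, abs_mul, abs_of_nonneg ArithmeticFunction.vonMangoldt_nonneg]
    have h1 : |∑ m ∈ Finset.Ioc 0 (X / d), f (d * m)| ≤ X / d := by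
      rw [abs_of_nonneg (Finset.sum_nonneg fun m _ => D.nonneg _)]
      calc ∑ m ∈ Finset.Ioc 0 (X / d), f (d * m) ≤ ∑ m ∈ Finset.Ioc 0 (X / d), (1 : ℝ) :=
            Finset.sum_le_sum fun m _ => D.le_one _
        _ = ((X / d : ℕ) : ℝ) := by
            rw [Finset.sum_const, nsmul_eq_mul, mul_one, Nat.card_Ioc, Nat.sub_zero]
        _ ≤ X / d := Nat.cast_div_le
    calc ArithmeticFunction.vonMangoldt d * _ ≤ ArithmeticFunction.vonMangoldt d * (X / d) := by
          gcongr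
      _ = _ := by ring

include D in
/-- first step -/
theorem abs_sN_sub_le (X : ℕ) :
    |sN f X - ∑ m ∈ Finset.Ioc 0 X, f m * sT f (X / m)| ≤ (∑' d, eD d) * X := by
  rw [sN_eq, sum_sT, ← Finset.sum_sub_distrib]
  refine (Finset.abs_sum_le_sum_abs _ _).trans ?_
  calc _ ≤ ∑ d ∈ Finset.Ioc 0 X, eD d * X :=
        Finset.sum_le_sum fun d hd => D.abs_sub_le X d (Finset.mem_Ioc.mp hd).1
    _ = (∑ d ∈ Finset.Ioc 0 X, eD d) * X := by rw [Finset.sum_mul]
    _ ≤ _ := by
        gcongr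
        exact summable_eD.sum_le_tsum _ fun d _ => eD_nonneg d

theorem sum_log_div_le (X : ℕ) :
    ∑ n ∈ Finset.Ioc 0 X, (Real.log X - Real.log n) ≤ X := by
  have h1 : ∑ n ∈ Finset.Ioc 0 X, Real.log n = Real.log (X.factorial) := by
    rw [← Finset.prod_Ico_id_eq_factorial, Nat.cast_prod, Real.log_prod]
    · refine Finset.sum_congr ?_ fun _ _ => rfl
      ext n
      simp only [Finset.mem_Ioc, Finset.mem_Ico]
      omega
    · intro n hn
      have := (Finset.mem_Ico.mp hn).1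
      exact_mod_cast (by omega : n ≠ 0)
  rw [Finset.sum_sub_distrib, h1, Finset.sum_const, Nat.card_Ioc, Nat.sub_zero, nsmul_eq_mul]
  have h2 := Real.pow_div_factorial_le_exp (X : ℝ) (Nat.cast_nonneg X) X
  rcases Nat.eq_zero_or_pos X with rfl | hX
  · simp
  · have hX0 : (0 : ℝ) < X := by exact_mod_cast hX
    have hf : (0 : ℝ) < X.factorial := by exact_mod_cast X.factorial_pos
    have h3 := Real.log_le_log (by positivity) h2
    rwa [Real.log_exp, Real.log_div (by positivity) hf.ne', Real.log_pow] at h3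

include D in
/-- second step -/
theorem abs_sM_sub_le (X : ℕ) : |sM f X * Real.log X - sN f X| ≤ X := by
  have h1 : sM f X * Real.log X - sN f X =
      ∑ n ∈ Finset.Ioc 0 X, f n * (Real.log X - Real.log n) := by
    rw [sM, sN, Finset.sum_mul, ← Finset.sum_sub_distrib]
    exact Finset.sum_congr rfl fun n _ => by ring
  have h2 : ∀ n ∈ Finset.Ioc 0 X, 0 ≤ Real.log X - Real.log n := by
    intro n hn
    obtain ⟨hn1, hn2⟩ := Finset.mem_Ioc.mp hn
    have := Real.log_le_log (show (0 : ℝ) < n by exact_mod_cast hn1)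
      (show (n : ℝ) ≤ X by exact_mod_cast hn2)
    linarith
  rw [h1, abs_of_nonneg (Finset.sum_nonneg fun n hn => mul_nonneg (D.nonneg n) (h2 n hn))]
  refine le_trans (Finset.sum_le_sum fun n hn => ?_) (sum_log_div_le X)
  exact mul_le_of_le_one_left (h2 n hn) (D.le_one n)

include D in
/-- the hypothesis on the primes, with an additive error -/
theorem exists_sT_le {ε : ℝ} (hε : 0 < ε) :
    ∃ B : ℝ, 0 ≤ B ∧ ∀ k : ℕ, |sT f k - τ * k| ≤ ε * k + B := by
  obtain ⟨K, hK⟩ := (Metric.tendsto_atTop.mp D.lim) ε hε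
  refine ⟨∑ k ∈ Finset.range (K + 1), |sT f k - τ * k|, Finset.sum_nonneg fun _ _ => abs_nonneg _,
    fun k => ?_⟩
  have hS : 0 ≤ ∑ k ∈ Finset.range (K + 1), |sT f k - τ * k| :=
    Finset.sum_nonneg fun _ _ => abs_nonneg _
  rcases Nat.lt_or_ge k (K + 1) with h | h
  · have h1 : |sT f k - τ * k| ≤ ∑ k ∈ Finset.range (K + 1), |sT f k - τ * k| :=
      Finset.single_le_sum (f := fun k : ℕ => |sT f k - τ * k|) (fun _ _ => abs_nonneg _)
        (Finset.mem_range.mpr h)
    have : 0 ≤ ε * k := by positivity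
    linarith
  · have hk0 : (0 : ℝ) < k := by exact_mod_cast (by omega : 0 < k)
    have h1 := hK k (by omega)
    rw [Real.dist_eq] at h1
    have h2 : |sT f k - τ * k| = |sT f k / k - τ| * k := by
      rw [← abs_of_pos hk0, ← abs_mul, abs_of_pos hk0, sub_mul, div_mul_cancel₀ _ hk0.ne']
    rw [h2]
    have h3 : |sT f k / k - τ| * k ≤ ε * k := by
      gcongr
      exact h1.le
    linarith

include D in
theorem tau_nonneg : 0 ≤ τ := by
  refine ge_of_tendsto' D.lim fun x => div_nonneg (Finset.sum_nonneg fun p _ => ?_)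
    (Nat.cast_nonneg x)
  exact mul_nonneg (D.nonneg p) (Real.log_natCast_nonneg p)

include D in
/-- third step -/
theorem exists_sum_sT_le {ε : ℝ} (hε : 0 < ε) :
    ∃ B : ℝ, 0 ≤ B ∧ ∀ X : ℕ, |(∑ m ∈ Finset.Ioc 0 X, f m * sT f (X / m)) - τ * X * sL f X| ≤
      ε * X * sL f X + B * X := by
  obtain ⟨B, hB0, hB⟩ := D.exists_sT_le hε
  have hτ := D.tau_nonneg
  refine ⟨B + τ, by positivity, fun X => ?_⟩
  have h1 : (∑ m ∈ Finset.Ioc 0 X, f m * sT f (X / m)) - τ * X * sL f X =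
      ∑ m ∈ Finset.Ioc 0 X, f m * (sT f (X / m) - τ * (X / m)) := by
    rw [sL, Finset.mul_sum, ← Finset.sum_sub_distrib]
    refine Finset.sum_congr rfl fun m _ => ?_
    ring
  have h2 : ∀ m ∈ Finset.Ioc 0 X, |f m * (sT f (X / m) - τ * (X / m))| ≤
      ε * X * (f m / m) + (B + τ) := by
    intro m hm
    have hm1 := (Finset.mem_Ioc.mp hm).1
    have hm0 : (0 : ℝ) < m := by exact_mod_cast hm1
    have h3 := hB (X / m)
    have h4 : ((X / m : ℕ) : ℝ) ≤ X / m := Nat.cast_div_le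
    have h5 : (X : ℝ) / m ≤ ((X / m : ℕ) : ℝ) + 1 := by
      rw [div_le_iff₀ hm0]
      have := Nat.lt_div_mul_add (a := X) hm1
      have h6 : (X : ℝ) < ((X / m : ℕ) : ℝ) * m + m := by exact_mod_cast this
      nlinarith
    have h6 : |sT f (X / m) - τ * (X / m)| ≤ ε * (X / m) + (B + τ) := by
      have h7 : sT f (X / m) - τ * (X / m) = (sT f (X / m) - τ * ((X / m : ℕ) : ℝ)) -
          τ * ((X : ℝ) / m - ((X / m : ℕ) : ℝ)) := by ring
      rw [h7]
      refine (abs_sub _ _).trans ?_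
      rw [abs_mul, abs_of_nonneg hτ, abs_of_nonneg (by linarith : 0 ≤ (X : ℝ) / m - ((X / m : ℕ) : ℝ))]
      have h8 : τ * ((X : ℝ) / m - ((X / m : ℕ) : ℝ)) ≤ τ * 1 := by
        gcongr
        linarith
      have h9 : ε * ((X / m : ℕ) : ℝ) ≤ ε * (X / m) := by gcongr
      linarith
    rw [abs_mul, abs_of_nonneg (D.nonneg m)]
    have hBτ : 0 ≤ B + τ := by positivity
    calc f m * |sT f (X / m) - τ * (X / m)| ≤ f m * (ε * (X / m) + (B + τ)) :=
          mul_le_mul_of_nonneg_left h6 (D.nonneg m)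
      _ = ε * X * (f m / m) + f m * (B + τ) := by ring
      _ ≤ ε * X * (f m / m) + (B + τ) := by
          have := mul_le_of_le_one_left hBτ (D.le_one m)
          linarith
  rw [h1]
  refine (Finset.abs_sum_le_sum_abs _ _).trans ((Finset.sum_le_sum h2).trans (le_of_eq ?_))
  rw [Finset.sum_add_distrib, ← Finset.mul_sum, Finset.sum_const, Nat.card_Ioc, Nat.sub_zero,
    nsmul_eq_mul, sL]
  ring

include D in
/-- `M(x) log x ~ τ x L(x)` -/
theorem tendsto_ratio (hL : Tendsto (sL f) atTop atTop) :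
    Tendsto (fun X : ℕ => sM f X * Real.log X / (X * sL f X)) atTop (𝓝 τ) := by
  rw [Metric.tendsto_atTop]
  intro ε hε
  obtain ⟨B, hB0, hB⟩ := D.exists_sum_sT_le (show 0 < ε / 2 by positivity)
  have hE : 0 ≤ ∑' d, eD d := tsum_nonneg eD_nonneg
  set c := B + (∑' d, eD d) + 1 with hc
  have hc0 : 0 < c := by positivity
  obtain ⟨N, hN⟩ := eventually_atTop.mp (hL.eventually_gt_atTop (2 * c / ε))
  refine ⟨max N 1, fun X hX => ?_⟩
  have hX1 : 1 ≤ X := (le_max_right _ _).trans hX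
  have hX0 : (0 : ℝ) < X := by exact_mod_cast hX1
  have hLX := hN X ((le_max_left _ _).trans hX)
  have hLX0 : 0 < sL f X := lt_trans (by positivity) hLX
  have h1 : |sM f X * Real.log X - τ * X * sL f X| ≤ ε / 2 * X * sL f X + c * X := by
    have e : sM f X * Real.log X - τ * X * sL f X = (sM f X * Real.log X - sN f X) +
        (sN f X - ∑ m ∈ Finset.Ioc 0 X, f m * sT f (X / m)) +
        ((∑ m ∈ Finset.Ioc 0 X, f m * sT f (X / m)) - τ * X * sL f X) := by ring
    rw [e]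
    refine (abs_add_three _ _ _).trans ?_
    have h2 := D.abs_sM_sub_le X
    have h3 := D.abs_sN_sub_le X
    have h4 := hB X
    rw [hc]
    linarith
  have h2 : sM f X * Real.log X / (X * sL f X) - τ =
      (sM f X * Real.log X - τ * X * sL f X) / (X * sL f X) := by
    field_simp
  rw [Real.dist_eq, h2, abs_div, abs_of_pos (by positivity : 0 < (X : ℝ) * sL f X),
    div_lt_iff₀ (by positivity)]
  refine h1.trans_lt ?_
  have h3 : c < ε / 2 * sL f X := by
    rw [div_lt_iff₀ hε] at hLX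
    linarith
  nlinarith

include D in
theorem summable_dirichlet {δ : ℝ} (hδ : 0 < δ) :
    Summable fun n : ℕ => f n / n * (n : ℝ) ^ (-δ) := by
  have h1 : Summable fun n : ℕ => (n : ℝ) ^ (-(1 + δ)) :=
    Real.summable_nat_rpow.mpr (by linarith)
  refine Summable.of_nonneg_of_le (fun n => ?_) (fun n => ?_) h1
  · have := D.nonneg n
    positivity
  · rcases Nat.eq_zero_or_pos n with rfl | hn
    · rw [Nat.cast_zero, Real.zero_rpow (by linarith), Real.zero_rpow (by linarith), mul_zero]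
    · have hn0 : (0 : ℝ) < n := by exact_mod_cast hn
      rw [neg_add, Real.rpow_add hn0, Real.rpow_neg_one, div_mul_eq_mul_div, div_eq_inv_mul]
      have h2 : 0 ≤ (n : ℝ) ^ (-δ) := by positivity
      have h3 := mul_le_of_le_one_left h2 (D.le_one n)
      gcongr

include D in
/-- **The mean value of a multiplicative function with values in `[0, 1]`** (Landau, Wirsing):
`∑_{n ≤ x} f(n) ~ (C / Γ(τ)) x (log x) ^ (τ - 1)`. -/
theorem tendsto_mean {C : ℝ} (hτ : 0 < τ) (hC : 0 < C)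
    (h : Tendsto (fun δ : ℝ => δ ^ τ * ∑' n : ℕ, f n / n * (n : ℝ) ^ (-δ)) (𝓝[>] 0) (𝓝 C)) :
    Tendsto (fun X : ℕ => sM f X / (X * Real.log X ^ (τ - 1))) atTop
      (𝓝 (C / Real.Gamma τ)) := by
  have h1 := karamata (b := fun n => f n / n) (fun n => div_nonneg (D.nonneg n) (Nat.cast_nonneg n))
    hτ (fun δ hδ => D.summable_dirichlet hδ) h
  have h2 : Tendsto (fun X : ℕ => sL f X / Real.log X ^ τ) atTop
      (𝓝 (C / Real.Gamma (τ + 1))) := by
    refine (h1.comp tendsto_natCast_atTop_atTop).congr fun X => ?_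
    simp only [Function.comp_apply, Nat.floor_natCast, sL]
    rfl
  have hG : 0 < C / Real.Gamma (τ + 1) := div_pos hC (Real.Gamma_pos_of_pos (by linarith))
  have hlog : Tendsto (fun X : ℕ => Real.log X ^ τ) atTop atTop :=
    (tendsto_rpow_atTop hτ).comp (Real.tendsto_log_atTop.comp tendsto_natCast_atTop_atTop)
  have hL : Tendsto (sL f) atTop atTop := by
    refine (h2.pos_mul_atTop hG hlog).congr' ?_
    filter_upwards [eventually_gt_atTop 1] with X hX
    have hl : 0 < Real.log X := Real.log_pos (by exact_mod_cast hX)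
    exact div_mul_cancel₀ _ (Real.rpow_pos_of_pos hl τ).ne'
  have h3 := (D.tendsto_ratio hL).mul h2
  rw [show τ * (C / Real.Gamma (τ + 1)) = C / Real.Gamma τ by
    rw [Real.Gamma_add_one hτ.ne']
    have := (Real.Gamma_pos_of_pos hτ).ne'
    field_simp] at h3
  refine h3.congr' ?_
  filter_upwards [eventually_gt_atTop 1, hL.eventually_gt_atTop 0] with X hX hLX
  have hX0 : (0 : ℝ) < X := by exact_mod_cast (by omega : 0 < X)
  have hl : 0 < Real.log X := Real.log_pos (by exact_mod_cast hX)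
  rw [Real.rpow_sub_one hl.ne']
  have := (Real.rpow_pos_of_pos hl τ).ne'
  field_simp

end MulDat

end Fermat.Agent.Cor.LR
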